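import Mathlib
import Fermat.Prelude.Def_AlgebraicCurve_Correspondence
import Fermat.Agent.MUL.Orig.F3.Galois.Intertwine
import Fermat.Agent.MUL.F3.Transfer.Final
import Fermat.Agent.MUL.Lib.HeckeInputs.Modular
import Fermat.Agent.MUL.Lib.RR.OfModularBar
import Fermat.Agent.MUL.Orig.Lib.RR.Basic
import Fermat.Agent.MUL.Lib.BadRed.PNew.SpDef

section MergeWrap_Lib_FF_PullPic -- from Lib/FF/PullPic.lean

set_option autoImplicit false

noncomputable section

namespace Fermat.Agent.FF

open AlgebraicCurve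

variable {K F F' : Type*} [Field K] [Field F] [Field F'] [Algebra K F] [Algebra K F']
variable [HasPrincipalDivisors K F']
variable (φ : F →ₐ[K] F') (hφ : φ.toRingHom.IsIntegral)
variable (hFI : FundamentalIdentityAlong K φ hφ)

/-- pull-back of divisors of degree `0`. -/
def degZeroPull :
    Divisor.degZero (K := K) (F := F) →+ Divisor.degZero (K := K) (F := F') :=
  ((Divisor.pullbackAlong φ hφ).domRestrict
    (Divisor.degZero (K := K) (F := F))).codRestrict _
    (fun D => Divisor.pullbackAlong_mem_degZero φ hφ hFI D.2)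

@[simp]
theorem coe_degZeroPull (D : Divisor.degZero (K := K) (F := F)) :
    (degZeroPull φ hφ hFI D : Divisor K F') = Divisor.pullbackAlong φ hφ (D : Divisor K F) :=
  rfl

/-- the pull-back homomorphism `Pic⁰(F) → Pic⁰(F')`. -/
def pullPic : Pic0 K F →+ Pic0 K F' :=
  QuotientAddGroup.map _ _ (degZeroPull φ hφ hFI) (by
    rintro ⟨D, hD0⟩ hD
    simp only [AddSubgroup.mem_addSubgroupOf] at hD ⊢
    exact Divisor.isPrincipal_pullbackAlong φ hφ hD)

theorem pullPic_mk (D : Divisor.degZero (K := K) (F := F)) :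
    pullPic φ hφ hFI (Pic0.mk D) = Pic0.mk (degZeroPull φ hφ hFI D) :=
  rfl

/-- the pull-back commutes with intertwined semilinear automorphisms. -/
theorem pullPic_smul {g : SemilinearAut K F} {g' : SemilinearAut K F'}
    (h : SemilinearAut.IntertwinesAlong φ.toRingHom g g') (x : Pic0 K F) :
    pullPic φ hφ hFI (g • x) = g' • pullPic φ hφ hFI x := by
  obtain ⟨D, rfl⟩ := Pic0.mk_surjective x
  rw [SemilinearAut.pic0_smul_mk, pullPic_mk, pullPic_mk, SemilinearAut.pic0_smul_mk]
  refine congrArg Pic0.mk (Subtype.ext ?_)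
  rw [coe_degZeroPull, SemilinearAut.coe_degZeroSMulHom, SemilinearAut.coe_degZeroSMulHom,
    coe_degZeroPull]
  exact Fermat.Agent.F3G.pullbackAlong_smul φ hφ h D

/-- a class is `0` iff its divisors are principal. -/
theorem mk_eq_zero_iff {D : Divisor.degZero (K := K) (F := F)} :
    Pic0.mk D = 0 ↔ Divisor.IsPrincipal (D : Divisor K F) := by
  unfold Pic0.mk
  rw [QuotientAddGroup.eq_zero_iff]
  rfl

end Fermat.Agent.FF
end
end MergeWrap_Lib_FF_PullPic

section MergeWrap_Lib_FF_PullJZero -- from Lib/FF/PullJZero.lean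

set_option autoImplicit false
set_option linter.style.haveILetI false
set_option synthInstance.maxHeartbeats 400000

noncomputable section

namespace Fermat.Agent.FF

open ModularCurve AlgebraicCurve Fermat.Agent.F3T

/-- the modular function fields have principal divisors. -/
theorem hasPrincipalDivisors_bar (M : ℕ) [NeZero M] :
    HasPrincipalDivisors (AlgebraicClosure ℚ) ↥(modularFunctionFieldBar M) :=
  Fermat.Agent.S24Diff.hasPrincipalDivisors (Fermat.Agent.S24.isFunctionFieldOver_jBar M)

section Pull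

variable {N M : ℕ} [NeZero N] [NeZero M] (h : N ∣ M)

/-- the fundamental identity for `F_N ⊆ F_M`. -/
theorem inclBar_fundId :
    haveI := hasPrincipalDivisors_bar M
    FundamentalIdentityAlong (AlgebraicClosure ℚ) (inclBar h) (inclBar_isIntegral h) := by
  haveI := hasPrincipalDivisors_bar M
  exact Fermat.Agent.HeckeInputs.hi_fundamentalIdentityAlong _ _
    (Fermat.Agent.S24.isFunctionFieldOver_jBar N) (Fermat.Agent.S24.isFunctionFieldOver_jBar M)

/-- the pull-back `J₀(N) → J₀(M)` for `N ∣ M`. -/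
def pullJZero : JZero N →+ JZero M :=
  haveI := hasPrincipalDivisors_bar M
  pullPic (inclBar h) (inclBar_isIntegral h) (inclBar_fundId h)

theorem inclBar_intertwines (σ : AlgebraicClosure ℚ ≃ₐ[ℚ] AlgebraicClosure ℚ) :
    SemilinearAut.IntertwinesAlong (inclBar h).toRingHom
      (arithmeticGalois (modularFunctionFieldFull N) σ)
      (arithmeticGalois (modularFunctionFieldFull M) σ) := by
  intro x
  apply Subtype.ext
  show ((arithmeticGalois (modularFunctionFieldFull M) σ • (inclBar h x) :
      laurentBaseChange (AlgebraicClosure ℚ) (modularFunctionFieldFull M)) :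
        LaurentSeries (AlgebraicClosure ℚ)) =
    ((inclBar h (arithmeticGalois (modularFunctionFieldFull N) σ • x) :
      laurentBaseChange (AlgebraicClosure ℚ) (modularFunctionFieldFull M)) :
        LaurentSeries (AlgebraicClosure ℚ))
  rw [coe_arithmeticGalois_smul, coe_inclBar, coe_inclBar, coe_arithmeticGalois_smul]

/-- the pull-back is `G_ℚ`-equivariant. -/
theorem pullJZero_smul (σ : AlgebraicClosure ℚ ≃ₐ[ℚ] AlgebraicClosure ℚ) (x : JZero N) :
    pullJZero h (σ • x) = σ • pullJZero h x := by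
  haveI := hasPrincipalDivisors_bar M
  rw [galois_smul_pic0_def, galois_smul_pic0_def]
  exact pullPic_smul (inclBar h) (inclBar_isIntegral h) (inclBar_fundId h)
    (inclBar_intertwines h σ) x

/-- every place of `F_N` is the restriction of a place of `F_M`. -/
theorem exists_restrictAlong_inclBar
    (v : Place (AlgebraicClosure ℚ) ↥(modularFunctionFieldBar N)) :
    ∃ w : Place (AlgebraicClosure ℚ) ↥(modularFunctionFieldBar M),
      w.restrictAlong (inclBar h) (inclBar_isIntegral h) = v := by
  haveI := hasPrincipalDivisors_bar M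
  by_contra hcon
  push Not at hcon
  have hempty : Place.fiberAlong (inclBar h) (inclBar_isIntegral h) v = ∅ := by
    rw [Finset.eq_empty_iff_forall_notMem]
    intro w hw
    exact hcon w (Place.mem_fiberAlong.mp hw)
  have h1 := Divisor.degree_pullbackAlong (inclBar h) (inclBar_isIntegral h) (inclBar_fundId h)
    (Finsupp.single v 1)
  rw [Divisor.pullbackAlong_single, hempty, Finset.sum_empty, map_zero,
    Divisor.degree_single, Fermat.Agent.S24Res.deg_eq_one
      (Fermat.Agent.S24.isFunctionFieldOver_jBar N) v] at h1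
  have hfin : FiniteAlong (AlgebraicClosure ℚ) (inclBar h) :=
    Fermat.Agent.HeckeInputs.hi_finiteAlong _
      (Fermat.Agent.S24.isFunctionFieldOver_jBar N).transcendental
      (Fermat.Agent.S24.isFunctionFieldOver_jBar M)
  have hpos : 0 < finrankAlong (AlgebraicClosure ℚ) (inclBar h) := by
    letI := algebraAlong (inclBar h)
    haveI : Module.Finite ↥(modularFunctionFieldBar N) ↥(modularFunctionFieldBar M) := hfin
    exact Module.finrank_pos
  simp only [Nat.cast_one, mul_one] at h1
  have : (finrankAlong (AlgebraicClosure ℚ) (inclBar h) : ℤ) = 0 := h1.symm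
  omega

end Pull

/-- `ord` of a power. -/
theorem ff_ord_pow {K F : Type*} [Field K] [Field F] [Algebra K F] (v : Place K F) (f : F)
    (n : ℕ) : v.ord (f ^ n) = n * v.ord f := by
  rcases eq_or_ne f 0 with rfl | hf
  · rcases Nat.eq_zero_or_pos n with rfl | hn
    · simp
    · rw [zero_pow hn.ne']
      simp
  induction n with
  | zero => simp
  | succ n ih =>
    rw [pow_succ, v.ord_mul (pow_ne_zero n hf) hf, ih]
    push_cast
    ring

/-- a function without zeros and poles is a nonzero constant. -/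
theorem ff_eq_algebraMap_of_ord_eq_zero (M : ℕ) [NeZero M] {f : ↥(modularFunctionFieldBar M)}
    (hf : f ≠ 0)
    (h0 : ∀ v : Place (AlgebraicClosure ℚ) ↥(modularFunctionFieldBar M), v.ord f = 0) :
    ∃ c : AlgebraicClosure ℚ, c ≠ 0 ∧
      f = algebraMap (AlgebraicClosure ℚ) ↥(modularFunctionFieldBar M) c := by
  have h := Fermat.Agent.RRMod.isRRField_bar M
  have hmem : f ∈ riemannRochSpace (0 : Divisor (AlgebraicClosure ℚ)
      ↥(modularFunctionFieldBar M)) := by
    rw [mem_riemannRochSpace_iff]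
    intro v
    right
    simp [h0 v]
  obtain ⟨c, hc⟩ := (Fermat.Agent.RR.mem_riemannRochSpace_zero_iff h f).mp hmem
  refine ⟨c, ?_, hc.symm⟩
  rintro rfl
  rw [map_zero] at hc
  exact hf hc.symm

/-- **Injectivity on torsion**: with the transfer core, a torsion class of `J₀(N)` whose
pull-back to level `r N` vanishes is `0`. -/
theorem pullJZero_eq_zero_of_torsion (N r : ℕ) [NeZero N] [NeZero r] (hc : TransferCore N r)
    (n : ℕ) (hn : 0 < n) (x : JZero N) (hx : n • x = 0)
    (h0 : pullJZero (Dvd.intro_left r rfl : N ∣ r * N) x = 0) : x = 0 := by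
  haveI := hasPrincipalDivisors_bar (r * N)
  have hdvd : N ∣ r * N := Dvd.intro_left r rfl
  obtain ⟨D, rfl⟩ := Pic0.mk_surjective x
  -- Kummer generator
  have hx' : Pic0.mk (n • D) = 0 := by
    rw [← hx]
    rfl
  obtain ⟨g, hg0, hg⟩ := mk_eq_zero_iff.mp hx'
  have hg' : ∀ v : Place (AlgebraicClosure ℚ) ↥(modularFunctionFieldBar N),
      v.ord g = (n : ℤ) * (D : Divisor _ _) v := by
    intro v
    rw [← hg v]
    simp [Finsupp.smul_apply]
  -- the pull-back is principal
  have h0' : Pic0.mk (degZeroPull (inclBar hdvd) (inclBar_isIntegral hdvd)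
      (inclBar_fundId hdvd) D) = 0 := h0
  obtain ⟨hh, hh0, hhd⟩ := mk_eq_zero_iff.mp h0'
  have hhd' : ∀ w : Place (AlgebraicClosure ℚ) ↥(modularFunctionFieldBar (r * N)),
      w.ord hh = (Place.ramificationIndexAlong (inclBar hdvd) w : ℤ) *
        (D : Divisor _ _) (w.restrictAlong (inclBar hdvd) (inclBar_isIntegral hdvd)) := by
    intro w
    rw [← hhd w, coe_degZeroPull, Divisor.pullbackAlong_apply]
  -- `hh ^ n / g` is constant
  have hig0 : inclBar hdvd g ≠ 0 := by
    intro h
    exact hg0 ((map_eq_zero_iff _ (inclBar hdvd).injective).mp h)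
  have hq0 : hh ^ n * (inclBar hdvd g)⁻¹ ≠ 0 :=
    mul_ne_zero (pow_ne_zero n hh0) (inv_ne_zero hig0)
  have hqord : ∀ w : Place (AlgebraicClosure ℚ) ↥(modularFunctionFieldBar (r * N)),
      w.ord (hh ^ n * (inclBar hdvd g)⁻¹) = 0 := by
    intro w
    rw [w.ord_mul (pow_ne_zero n hh0) (inv_ne_zero hig0), w.ord_inv, ff_ord_pow,
      Place.ord_restrictAlong (inclBar hdvd) (inclBar_isIntegral hdvd) w g, hhd' w, hg']
    ring
  obtain ⟨c, hc0, hcq⟩ := ff_eq_algebraMap_of_ord_eq_zero (r * N) hq0 hqord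
  obtain ⟨c₁, hc₁⟩ := IsAlgClosed.exists_pow_nat_eq c hn
  have hc₁0 : c₁ ≠ 0 := by
    rintro rfl
    rw [zero_pow hn.ne'] at hc₁
    exact hc0 hc₁.symm
  set a : ↥(modularFunctionFieldBar (r * N)) :=
    algebraMap (AlgebraicClosure ℚ) ↥(modularFunctionFieldBar (r * N)) c₁ with ha
  have ha0 : a ≠ 0 := by
    rw [ha]
    exact (map_ne_zero_iff _ (algebraMap (AlgebraicClosure ℚ)
      ↥(modularFunctionFieldBar (r * N))).injective).mpr hc₁0
  set h₁ : ↥(modularFunctionFieldBar (r * N)) := hh * a⁻¹ with hh₁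
  have hh₁0 : h₁ ≠ 0 := mul_ne_zero hh0 (inv_ne_zero ha0)
  have hpow : h₁ ^ n = inclBar hdvd g := by
    have h1 : hh ^ n = a ^ n * inclBar hdvd g := by
      have h2 : hh ^ n = (hh ^ n * (inclBar hdvd g)⁻¹) * inclBar hdvd g := by
        field_simp
      rw [h2, hcq, ha, ← map_pow, hc₁]
    rw [hh₁, mul_pow, h1, inv_pow]
    field_simp
  have hpowL : (h₁ : LaurentSeries (AlgebraicClosure ℚ)) ^ n =
      (g : LaurentSeries (AlgebraicClosure ℚ)) := by
    have := congrArg (fun z : ↥(modularFunctionFieldBar (r * N)) =>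
      (z : LaurentSeries (AlgebraicClosure ℚ))) hpow
    simpa using this
  obtain ⟨h', hh'⟩ := hc n hn g hg0 (fun P => ⟨_, hg' P⟩) h₁ hpowL
  have hincl : inclBar hdvd h' = h₁ := Subtype.ext (by rw [coe_inclBar, hh'])
  have hh'0 : h' ≠ 0 := by
    rintro rfl
    rw [map_zero] at hincl
    exact hh₁0 hincl.symm
  -- `D = div h'`
  refine mk_eq_zero_iff.mpr ⟨h', hh'0, fun v => ?_⟩
  obtain ⟨w, rfl⟩ := exists_restrictAlong_inclBar hdvd v
  have he : (0 : ℤ) < (Place.ramificationIndexAlong (inclBar hdvd) w : ℤ) := by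
    letI := algebraAlong (inclBar hdvd)
    haveI := isScalarTower_along (inclBar hdvd)
    haveI := isIntegral_along (inclBar hdvd) (inclBar_isIntegral hdvd)
    exact_mod_cast Place.ramificationIndex_pos (F := ↥(modularFunctionFieldBar N)) w
  have h1 := Place.ord_restrictAlong (inclBar hdvd) (inclBar_isIntegral hdvd) w h'
  rw [hincl, hh₁, w.ord_mul hh0 (inv_ne_zero ha0), w.ord_inv, hhd' w] at h1
  have hconst : w.ord a = 0 := by
    rw [ha]
    exact Fermat.Agent.S24Res.ord_algebraMap w c₁
  rw [hconst, neg_zero, add_zero] at h1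
  exact (mul_left_cancel₀ he.ne' h1)

end Fermat.Agent.FF
end
end MergeWrap_Lib_FF_PullJZero
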