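import Mathlib
import Fermat.Agent.MUL.Lib.Deuring.RedSpace
import Fermat.Agent.MUL.Orig.Lib.FF.KMRingDefs

section MergeWrap_Lib_FF_RedEchelon -- from Lib/FF/RedEchelon.lean

/-!
# S19 / route R-G, seat D (Deuring side): reduction of echelon matrices   (helper12)

Convention (the one of `Lib/FF/ConstRank.lean`): a subspace of dimension `r` of the space spanned
by a family `b : Fin n → M` is given as the COLUMN space of a matrix `Γ : Matrix (Fin n) (Fin r) R`
(`colSpan b Γ`, spanned by the vectors `colVec b Γ a = ∑ i, Γ i a • b i`), and `Γ` is in echelon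
form with pivot rows `I₀ : Fin r → Fin n` when `Γ.submatrix I₀ id = 1`.

Main statements (namespace `Fermat.Agent.FF`), `S : Deuring.ValSetup K F k Fk` an abstract constant
reduction, `b` an ORTHONORMAL family (`b i ∈ S.Ov`, reductions `k`-linearly independent):

* `exists_echelon_lift` : if `W ≤ span b` and the reduction `redSpace S W` is the column space of an
  echelon matrix `Γbar` over `k` (in the family `red b`), then `W` is the column space of an
  echelon matrix `Γ` with entries in the valuation ring `S.A` whose residue is `Γbar`;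
* `echelon_eq_of_colSpan_eq` : uniqueness of the echelon matrix of a subspace;
* `colSpan_isCompl_chart` : the column space of an echelon matrix is a complement of the chart
  `span (b j : j ∉ range I₀)`;
* `exists_echelon_of_isCompl` : over a field, every complement of the chart is the column space
  of a (unique) echelon matrix;
* `exists_echelon_lift_of_isCompl` : the form used by the assembly: if `redSpace S W` is a
  complement of the reduced chart, then `W` is a complement of the chart, with echelon matrix in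
  `S.A` reducing to the echelon matrix of `redSpace S W`.
-/

set_option autoImplicit false

noncomputable section

open Matrix

namespace Fermat.Agent.FF

open Fermat.Agent.Deuring

section ColSpan

variable {R M : Type*} [CommRing R] [AddCommGroup M] [Module R M] {n r : ℕ}

/-- the `a`-th column of `Γ` as a vector in the family `b`. -/
def colVec (b : Fin n → M) (Γ : Matrix (Fin n) (Fin r) R) (a : Fin r) : M :=
  ∑ i, Γ i a • b i

/-- the column space of `Γ` in the family `b`. -/
def colSpan (b : Fin n → M) (Γ : Matrix (Fin n) (Fin r) R) : Submodule R M :=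
  Submodule.span R (Set.range (colVec b Γ))

theorem colVec_mem_colSpan (b : Fin n → M) (Γ : Matrix (Fin n) (Fin r) R) (a : Fin r) :
    colVec b Γ a ∈ colSpan b Γ :=
  Submodule.subset_span ⟨a, rfl⟩

theorem colSpan_le_span (b : Fin n → M) (Γ : Matrix (Fin n) (Fin r) R) :
    colSpan b Γ ≤ Submodule.span R (Set.range b) := by
  rw [colSpan, Submodule.span_le]
  rintro _ ⟨a, rfl⟩
  exact Submodule.sum_mem _ fun i _ => Submodule.smul_mem _ _ (Submodule.subset_span ⟨i, rfl⟩)

/-- a linear combination of the columns is the vector with coordinates `Γ *ᵥ v`. -/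
theorem sum_smul_colVec (b : Fin n → M) (Γ : Matrix (Fin n) (Fin r) R) (v : Fin r → R) :
    ∑ a, v a • colVec b Γ a = ∑ i, (Γ *ᵥ v) i • b i := by
  simp only [colVec, Finset.smul_sum, smul_smul, Matrix.mulVec, dotProduct, Finset.sum_smul]
  rw [Finset.sum_comm]
  refine Finset.sum_congr rfl fun i _ => Finset.sum_congr rfl fun a _ => ?_
  rw [mul_comm]

/-- columns of a product. -/
theorem colVec_mul {s : ℕ} (b : Fin n → M) (Γ : Matrix (Fin n) (Fin r) R)
    (X : Matrix (Fin r) (Fin s) R) (a : Fin s) :
    colVec b (Γ * X) a = ∑ a', X a' a • colVec b Γ a' := by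
  rw [sum_smul_colVec]
  refine Finset.sum_congr rfl fun i _ => ?_
  congr 1

theorem colSpan_mul_le {s : ℕ} (b : Fin n → M) (Γ : Matrix (Fin n) (Fin r) R)
    (X : Matrix (Fin r) (Fin s) R) : colSpan b (Γ * X) ≤ colSpan b Γ := by
  rw [colSpan, Submodule.span_le]
  rintro _ ⟨a, rfl⟩
  rw [colVec_mul]
  exact Submodule.sum_mem _ fun a' _ => Submodule.smul_mem _ _ (colVec_mem_colSpan b Γ a')

theorem mem_colSpan_iff (b : Fin n → M) (Γ : Matrix (Fin n) (Fin r) R) (x : M) :
    x ∈ colSpan b Γ ↔ ∃ v : Fin r → R, x = ∑ i, (Γ *ᵥ v) i • b i := by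
  rw [colSpan, Submodule.mem_span_range_iff_exists_fun]
  constructor
  · rintro ⟨v, rfl⟩
    exact ⟨v, sum_smul_colVec b Γ v⟩
  · rintro ⟨v, rfl⟩
    exact ⟨v, sum_smul_colVec b Γ v⟩

/-- the pivot coordinates of `Γ *ᵥ v` are `v`. -/
theorem mulVec_pivot {Γ : Matrix (Fin n) (Fin r) R} {I₀ : Fin r → Fin n}
    (hΓ : Γ.submatrix I₀ id = 1) (v : Fin r → R) (a : Fin r) : (Γ *ᵥ v) (I₀ a) = v a := by
  have h1 : (Γ.submatrix I₀ id *ᵥ v) a = (Γ *ᵥ v) (I₀ a) := by
    simp [Matrix.mulVec, dotProduct]
  rw [← h1, hΓ, Matrix.one_mulVec]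

/-- the pivot map of an echelon matrix is injective. -/
theorem pivot_injective [Nontrivial R] {Γ : Matrix (Fin n) (Fin r) R} {I₀ : Fin r → Fin n}
    (hΓ : Γ.submatrix I₀ id = 1) : Function.Injective I₀ := by
  intro a a' h
  by_contra hne
  have h1 : (Γ.submatrix I₀ id) a a = (Γ.submatrix I₀ id) a' a := by
    simp only [Matrix.submatrix_apply, h]
  rw [hΓ, Matrix.one_apply_eq, Matrix.one_apply_ne (Ne.symm hne)] at h1
  exact one_ne_zero h1

/-- the columns of an echelon matrix in a linearly independent family are linearly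
independent. -/
theorem linearIndependent_colVec {b : Fin n → M} (hb : LinearIndependent R b)
    {Γ : Matrix (Fin n) (Fin r) R} {I₀ : Fin r → Fin n} (hΓ : Γ.submatrix I₀ id = 1) :
    LinearIndependent R (colVec b Γ) := by
  rw [Fintype.linearIndependent_iff]
  intro v hv a
  rw [sum_smul_colVec] at hv
  have h1 := Fintype.linearIndependent_iff.mp hb _ hv (I₀ a)
  rwa [mulVec_pivot hΓ] at h1

/-- **uniqueness of the echelon matrix of a subspace.** -/
theorem echelon_eq_of_colSpan_le {b : Fin n → M} (hb : LinearIndependent R b)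
    {Γ Γ' : Matrix (Fin n) (Fin r) R} {I₀ : Fin r → Fin n} (hΓ : Γ.submatrix I₀ id = 1)
    (hΓ' : Γ'.submatrix I₀ id = 1) (h : colSpan b Γ' ≤ colSpan b Γ) : Γ' = Γ := by
  ext i a
  have h1 : colVec b Γ' a ∈ colSpan b Γ := h (colVec_mem_colSpan b Γ' a)
  obtain ⟨v, hv⟩ := (mem_colSpan_iff b Γ _).mp h1
  have h2 : ∀ j, Γ' j a = (Γ *ᵥ v) j := by
    intro j
    have h3 : ∑ j, (Γ' j a - (Γ *ᵥ v) j) • b j = 0 := by
      simp only [sub_smul, Finset.sum_sub_distrib]
      rw [sub_eq_zero]
      exact hv
    exact sub_eq_zero.mp (Fintype.linearIndependent_iff.mp hb _ h3 j)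
  have h4 : v = fun a' => if a' = a then 1 else 0 := by
    funext a'
    rw [← mulVec_pivot hΓ v a', ← h2]
    have h5 : Γ' (I₀ a') a = (Γ'.submatrix I₀ id) a' a := rfl
    rw [h5, hΓ', Matrix.one_apply]
  rw [h2, h4]
  simp [Matrix.mulVec, dotProduct]

theorem echelon_eq_of_colSpan_eq {b : Fin n → M} (hb : LinearIndependent R b)
    {Γ Γ' : Matrix (Fin n) (Fin r) R} {I₀ : Fin r → Fin n} (hΓ : Γ.submatrix I₀ id = 1)
    (hΓ' : Γ'.submatrix I₀ id = 1) (h : colSpan b Γ' = colSpan b Γ) : Γ' = Γ :=
  echelon_eq_of_colSpan_le hb hΓ hΓ' h.le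

end ColSpan

section Field

variable {K M : Type*} [Field K] [AddCommGroup M] [Module K M] {n r : ℕ}

theorem finrank_colSpan {b : Fin n → M} (hb : LinearIndependent K b)
    {Γ : Matrix (Fin n) (Fin r) K} {I₀ : Fin r → Fin n} (hΓ : Γ.submatrix I₀ id = 1) :
    Module.finrank K (colSpan b Γ) = r := by
  rw [colSpan, finrank_span_eq_card (linearIndependent_colVec hb hΓ), Fintype.card_fin]

/-- the chart attached to the pivots `I₀`: the span of the `b j`, `j` not a pivot. -/
def chartSpan (K : Type*) {M : Type*} [Field K] [AddCommGroup M] [Module K M] {n r : ℕ}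
    (b : Fin n → M) (I₀ : Fin r → Fin n) : Submodule K M :=
  Submodule.span K (b '' (Set.range I₀)ᶜ)

theorem chartSpan_le_span (b : Fin n → M) (I₀ : Fin r → Fin n) :
    chartSpan K b I₀ ≤ Submodule.span K (Set.range b) :=
  Submodule.span_mono (Set.image_subset_range _ _)

theorem sum_mem_chartSpan {b : Fin n → M} {I₀ : Fin r → Fin n} {v : Fin n → K}
    (hv : ∀ a, v (I₀ a) = 0) : ∑ i, v i • b i ∈ chartSpan K b I₀ := by
  classical
  refine Submodule.sum_mem _ fun i _ => ?_
  by_cases hi : i ∈ Set.range I₀
  · obtain ⟨a, rfl⟩ := hi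
    rw [hv a, zero_smul]
    exact zero_mem _
  · exact Submodule.smul_mem _ _ (Submodule.subset_span ⟨i, hi, rfl⟩)

theorem exists_coord_of_mem_chartSpan {b : Fin n → M} {I₀ : Fin r → Fin n} {x : M}
    (hx : x ∈ chartSpan K b I₀) :
    ∃ v : Fin n → K, (∀ a, v (I₀ a) = 0) ∧ x = ∑ i, v i • b i := by
  classical
  unfold chartSpan at hx
  induction hx using Submodule.span_induction with
  | mem x hx =>
    obtain ⟨j, hj, rfl⟩ := hx
    refine ⟨Pi.single j 1, fun a => ?_, ?_⟩
    · rw [Pi.single_apply, if_neg]
      rintro h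
      exact hj ⟨a, h⟩
    · simp [Pi.single_apply]
  | zero => exact ⟨0, fun _ => rfl, by simp⟩
  | add x y _ _ hx hy =>
    obtain ⟨v, hv, rfl⟩ := hx
    obtain ⟨w, hw, rfl⟩ := hy
    refine ⟨v + w, fun a => ?_, ?_⟩
    · rw [Pi.add_apply, hv, hw, add_zero]
    · simp only [Pi.add_apply, add_smul, Finset.sum_add_distrib]
  | smul c x _ hx =>
    obtain ⟨v, hv, rfl⟩ := hx
    refine ⟨c • v, fun a => ?_, ?_⟩
    · rw [Pi.smul_apply, hv, smul_zero]
    · simp only [Pi.smul_apply, smul_eq_mul, mul_smul, Finset.smul_sum]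

/-- membership in the chart, in coordinates. -/
theorem sum_mem_chartSpan_iff {b : Fin n → M} (hb : LinearIndependent K b)
    {I₀ : Fin r → Fin n} {v : Fin n → K} :
    ∑ i, v i • b i ∈ chartSpan K b I₀ ↔ ∀ a, v (I₀ a) = 0 := by
  constructor
  · intro h a
    obtain ⟨w, hw, hvw⟩ := exists_coord_of_mem_chartSpan h
    have h3 : ∑ i, (v i - w i) • b i = 0 := by
      simp only [sub_smul, Finset.sum_sub_distrib]
      rw [sub_eq_zero]
      exact hvw
    have h4 := sub_eq_zero.mp (Fintype.linearIndependent_iff.mp hb _ h3 (I₀ a))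
    rw [h4, hw]
  · exact sum_mem_chartSpan

/-- the column space of an echelon matrix meets the chart trivially. -/
theorem colSpan_inf_chartSpan {b : Fin n → M} (hb : LinearIndependent K b)
    {Γ : Matrix (Fin n) (Fin r) K} {I₀ : Fin r → Fin n} (hΓ : Γ.submatrix I₀ id = 1) :
    colSpan b Γ ⊓ chartSpan K b I₀ = ⊥ := by
  rw [eq_bot_iff]
  rintro x ⟨hx1, hx2⟩
  obtain ⟨v, rfl⟩ := (mem_colSpan_iff b Γ x).mp hx1
  have h1 := (sum_mem_chartSpan_iff hb).mp hx2
  have h2 : v = 0 := by
    funext a
    rw [← mulVec_pivot hΓ v a, h1]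
    rfl
  rw [h2]
  simp

/-- the column space of an echelon matrix and the chart span everything. -/
theorem colSpan_sup_chartSpan (b : Fin n → M)
    {Γ : Matrix (Fin n) (Fin r) K} {I₀ : Fin r → Fin n} (hΓ : Γ.submatrix I₀ id = 1) :
    colSpan b Γ ⊔ chartSpan K b I₀ = Submodule.span K (Set.range b) := by
  apply le_antisymm
  · exact sup_le (colSpan_le_span b Γ) (chartSpan_le_span b I₀)
  · rw [Submodule.span_le]
    rintro _ ⟨i, rfl⟩
    classical
    by_cases hi : i ∈ Set.range I₀
    · obtain ⟨a, rfl⟩ := hi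
      -- `b (I₀ a) = colVec a - (the chart part of colVec a)`
      have h1 : b (I₀ a) = colVec b Γ a - ∑ i, (Γ i a - if i = I₀ a then 1 else 0) • b i := by
        simp only [colVec, sub_smul, Finset.sum_sub_distrib, ite_smul, one_smul, zero_smul,
          Finset.sum_ite_eq', Finset.mem_univ, if_true]
        abel
      rw [h1]
      refine Submodule.sub_mem _ (Submodule.mem_sup_left (colVec_mem_colSpan b Γ a))
        (Submodule.mem_sup_right (sum_mem_chartSpan fun a' => ?_))
      have h2 : Γ (I₀ a') a = (Γ.submatrix I₀ id) a' a := rfl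
      rw [h2, hΓ, Matrix.one_apply]
      have hinj := pivot_injective hΓ
      by_cases haa : a' = a
      · rw [if_pos haa, if_pos (congrArg I₀ haa), sub_self]
      · rw [if_neg haa, if_neg (fun h => haa (hinj h)), sub_self]
    · exact Submodule.mem_sup_right (Submodule.subset_span ⟨i, hi, rfl⟩)

/-- **Existence of the echelon matrix** of a subspace of the right dimension which meets the
chart trivially (coordinate form of the chart condition). -/
theorem exists_echelon_of_coord {b : Fin n → M} (hb : LinearIndependent K b)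
    (W : Submodule K M) (hW : W ≤ Submodule.span K (Set.range b)) (I₀ : Fin r → Fin n)
    (hchart : ∀ v : Fin n → K, (∑ i, v i • b i) ∈ W → (∀ a, v (I₀ a) = 0) → v = 0)
    (hfr : Module.finrank K W = r) :
    ∃ Γ : Matrix (Fin n) (Fin r) K, Γ.submatrix I₀ id = 1 ∧ colSpan b Γ = W := by
  classical
  have hsfd : FiniteDimensional K (Submodule.span K (Set.range b)) :=
    FiniteDimensional.span_of_finite K (Set.finite_range b)
  have hWfd : FiniteDimensional K W := Submodule.finiteDimensional_of_le hW
  -- coordinates of the elements of `W`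
  have hco : ∀ x : W, ∃ v : Fin n → K, (x : M) = ∑ i, v i • b i := by
    intro x
    obtain ⟨v, hv⟩ := (Submodule.mem_span_range_iff_exists_fun K).mp (hW x.2)
    exact ⟨v, hv.symm⟩
  choose co hco using hco
  have hco_unique : ∀ (x : W) (v : Fin n → K), (x : M) = ∑ i, v i • b i → co x = v := by
    intro x v hv
    funext i
    have h3 : ∑ i, (co x i - v i) • b i = 0 := by
      simp only [sub_smul, Finset.sum_sub_distrib]
      rw [sub_eq_zero, ← hco x, ← hv]
    exact sub_eq_zero.mp (Fintype.linearIndependent_iff.mp hb _ h3 i)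
  -- the pivot projection
  let π : W →ₗ[K] (Fin r → K) :=
    { toFun := fun x a => co x (I₀ a)
      map_add' := fun x y => by
        funext a
        have h1 : co (x + y) = co x + co y := by
          apply hco_unique
          simp only [Pi.add_apply, add_smul, Finset.sum_add_distrib]
          rw [← hco x, ← hco y]
          rfl
        simp only [h1, Pi.add_apply]
      map_smul' := fun c x => by
        funext a
        have h1 : co (c • x) = c • co x := by
          apply hco_unique
          simp only [Pi.smul_apply, smul_eq_mul, mul_smul]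
          rw [← Finset.smul_sum, ← hco x]
          rfl
        simp only [h1, Pi.smul_apply, RingHom.id_apply] }
  have hπinj : Function.Injective π := by
    rw [← LinearMap.ker_eq_bot, eq_bot_iff]
    intro x hx
    rw [LinearMap.mem_ker] at hx
    have h1 : co x = 0 := by
      apply hchart (co x)
      · rw [← hco x]
        exact x.2
      · intro a
        exact congrFun hx a
    rw [Submodule.mem_bot]
    apply Subtype.ext
    rw [hco x, h1]
    simp
  have hπsurj : Function.Surjective π := by
    apply (LinearMap.injective_iff_surjective_of_finrank_eq_finrank ?_).mp hπinj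
    rw [hfr, Module.finrank_fin_fun]
  choose w hw using fun a : Fin r => hπsurj (Pi.single a 1)
  refine ⟨Matrix.of fun i a => co (w a) i, ?_, ?_⟩
  · ext a' a
    have h1 : π (w a) a' = (Pi.single a 1 : Fin r → K) a' := by rw [hw a]
    rw [Matrix.submatrix_apply, Matrix.of_apply, Matrix.one_apply]
    have h2 : co (w a) (I₀ a') = π (w a) a' := rfl
    rw [id, h2, h1, Pi.single_apply]
  · have hΓ : (Matrix.of fun i a => co (w a) i : Matrix (Fin n) (Fin r) K).submatrix I₀ id
        = 1 := by
      ext a' a
      have h1 : π (w a) a' = (Pi.single a 1 : Fin r → K) a' := by rw [hw a]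
      rw [Matrix.submatrix_apply, Matrix.of_apply, Matrix.one_apply]
      have h2 : co (w a) (I₀ a') = π (w a) a' := rfl
      rw [id, h2, h1, Pi.single_apply]
    have hle : colSpan b (Matrix.of fun i a => co (w a) i : Matrix (Fin n) (Fin r) K) ≤ W := by
      rw [colSpan, Submodule.span_le]
      rintro _ ⟨a, rfl⟩
      have h1 : colVec b (Matrix.of fun i a => co (w a) i : Matrix (Fin n) (Fin r) K) a
          = (w a : M) := by
        rw [hco (w a)]
        rfl
      rw [h1]
      exact (w a).2
    exact Submodule.eq_of_le_of_finrank_eq hle ((finrank_colSpan hb hΓ).trans hfr.symm)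

/-- **Existence of the echelon matrix** of a subspace of the right dimension which meets the
chart trivially. -/
theorem exists_echelon_of_disjoint {b : Fin n → M} (hb : LinearIndependent K b)
    (W : Submodule K M) (hW : W ≤ Submodule.span K (Set.range b)) (I₀ : Fin r → Fin n)
    (hdisj : W ⊓ chartSpan K b I₀ = ⊥) (hfr : Module.finrank K W = r) :
    ∃ Γ : Matrix (Fin n) (Fin r) K, Γ.submatrix I₀ id = 1 ∧ colSpan b Γ = W := by
  refine exists_echelon_of_coord hb W hW I₀ (fun v hvW hv => ?_) hfr
  have h1 : ∑ i, v i • b i ∈ W ⊓ chartSpan K b I₀ := ⟨hvW, sum_mem_chartSpan hv⟩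
  rw [hdisj, Submodule.mem_bot] at h1
  funext i
  exact Fintype.linearIndependent_iff.mp hb _ h1 i

end Field

section Lift

variable {K F k Fk : Type*} [Field K] [Field F] [Algebra K F]
  [Field k] [Field Fk] [Algebra k Fk]

/-- an element of the valuation ring with nonzero residue is a unit. -/
theorem isUnit_of_res_ne_zero (S : ValSetup K F k Fk) (x : S.A) (hx : S.res x ≠ 0) :
    IsUnit x := by
  have hx0 : (x : K) ≠ 0 := by
    intro h0
    apply hx
    have : x = 0 := Subtype.ext h0
    rw [this, map_zero]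
  have hinv : (x : K)⁻¹ ∈ S.A := by
    by_contra hcon
    obtain ⟨h1, h2⟩ := S.res_inv_eq_zero hcon
    apply hx
    have h3 : (⟨((x : K)⁻¹)⁻¹, h1⟩ : S.A) = x := Subtype.ext (inv_inv _)
    rw [← h3]
    exact h2
  refine ⟨⟨x, ⟨(x : K)⁻¹, hinv⟩, ?_, ?_⟩, rfl⟩
  · exact Subtype.ext (mul_inv_cancel₀ hx0)
  · exact Subtype.ext (inv_mul_cancel₀ hx0)

variable (S : ValSetup K F k Fk) {n r : ℕ}

/-- **Reduction of echelon matrices (lifting form).**  `b` orthonormal, `W ≤ span b`; if the
reduction of `W` is the column space of the echelon matrix `Γbar` (pivots `I₀`) in the family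
`red b`, then `W` is the column space of an echelon matrix `Γ` with entries in the valuation
ring, and `Γ` reduces to `Γbar`. -/
theorem exists_echelon_lift (hL : HasLattice S) (b : Fin n → F) (hb : ∀ i, b i ∈ S.Ov)
    (hli : LinearIndependent k (fun i => S.red (b i)))
    (W : Submodule K F) (hW : W ≤ Submodule.span K (Set.range b))
    (I₀ : Fin r → Fin n) (Γbar : Matrix (Fin n) (Fin r) k) (hΓbar : Γbar.submatrix I₀ id = 1)
    (hred : redSpace S W = colSpan (fun i => S.red (b i)) Γbar) :
    ∃ Γ : Matrix (Fin n) (Fin r) S.A, Γ.submatrix I₀ id = 1 ∧ Γ.map S.res = Γbar ∧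
      W = colSpan b (Γ.map S.A.subtype) := by
  classical
  -- step 1: lift the columns
  have h1 : ∀ a : Fin r, ∃ c : Fin n → S.A,
      (∑ i, (c i : K) • b i) ∈ W ∧ ∀ i, S.res (c i) = Γbar i a := by
    intro a
    have hy : colVec (fun i => S.red (b i)) Γbar a ∈ redSpace S W := by
      rw [hred]
      exact colVec_mem_colSpan _ _ a
    obtain ⟨x, hxW, hxO, hx⟩ := (mem_redSpace_iff S W).mp hy
    obtain ⟨c, rfl⟩ := (Submodule.mem_span_range_iff_exists_fun K).mp (hW hxW)
    have hc := coeff_mem_of_sum_mem S b hb hli c hxO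
    refine ⟨fun i => ⟨c i, hc i⟩, hxW, ?_⟩
    have h2 := (red_sum S b hb c hc).2
    rw [hx] at h2
    have h3 : ∑ i, (Γbar i a - S.res ⟨c i, hc i⟩) • S.red (b i) = 0 := by
      simp only [sub_smul, Finset.sum_sub_distrib]
      rw [sub_eq_zero]
      exact h2
    intro i
    exact (sub_eq_zero.mp (Fintype.linearIndependent_iff.mp hli _ h3 i)).symm
  choose c hcW hcres using h1
  set C : Matrix (Fin n) (Fin r) S.A := Matrix.of fun i a => c a i with hC
  set P : Matrix (Fin r) (Fin r) S.A := C.submatrix I₀ id with hP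
  have hCres : C.map S.res = Γbar := by
    ext i a
    exact hcres a i
  have hPres : P.map S.res = 1 := by
    rw [hP, ← hΓbar, ← hCres]
    rfl
  have hdet : IsUnit P.det := by
    apply isUnit_of_res_ne_zero S
    have h2 : S.res P.det = 1 := by
      rw [RingHom.map_det, RingHom.mapMatrix_apply, hPres, Matrix.det_one]
    rw [h2]
    exact one_ne_zero
  have hPu : IsUnit P := (Matrix.isUnit_iff_isUnit_det P).mpr hdet
  obtain ⟨⟨P', Q, hPQ, hQP⟩, hP'⟩ := hPu
  have hP'' : P' = P := hP'
  subst hP''
  have hQres : Q.map S.res = 1 := by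
    have h2 : (P * Q).map S.res = 1 := by
      rw [hPQ]
      ext i j
      simp [Matrix.one_apply, apply_ite]
    rw [Matrix.map_mul, hPres, Matrix.one_mul] at h2
    exact h2
  have hK : LinearIndependent K b := linearIndependent_of_red S b hb hli
  have hcolC : ∀ a, colVec b (C.map S.A.subtype) a ∈ W := fun a => hcW a
  have hΓ1 : (C * Q).submatrix I₀ id = 1 := by
    have h2 : (C * Q).submatrix I₀ id = C.submatrix I₀ id * Q := by
      ext i j
      simp [Matrix.mul_apply]
    rw [h2, ← hP, hPQ]
  refine ⟨C * Q, hΓ1, ?_, ?_⟩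
  · rw [Matrix.map_mul, hCres, hQres, Matrix.mul_one]
  · have hΓK : ((C * Q).map S.A.subtype).submatrix I₀ id = 1 := by
      have h2 : ((C * Q).map S.A.subtype).submatrix I₀ id =
          ((C * Q).submatrix I₀ id).map S.A.subtype := rfl
      rw [h2, hΓ1]
      ext i j
      simp [Matrix.one_apply, apply_ite]
    have hle : colSpan b ((C * Q).map S.A.subtype) ≤ W := by
      rw [Matrix.map_mul]
      refine (colSpan_mul_le b _ _).trans ?_
      rw [colSpan, Submodule.span_le]
      rintro _ ⟨a, rfl⟩
      exact hcolC a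
    have hsfd : FiniteDimensional K (Submodule.span K (Set.range b)) :=
      FiniteDimensional.span_of_finite K (Set.finite_range b)
    have hWfd : FiniteDimensional K W :=
      Submodule.finiteDimensional_of_le hW
    have hfr : Module.finrank K W = r := by
      rw [← finrank_redSpace S hL W, hred, finrank_colSpan hli hΓbar]
    have hfr' : Module.finrank K (colSpan b ((C * Q).map S.A.subtype)) = r :=
      finrank_colSpan hK hΓK
    exact (Submodule.eq_of_le_of_finrank_eq hle (hfr'.trans hfr.symm)).symm

/-- **Reduction of echelon matrices (form used by the assembly).**  `b` orthonormal,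
`W ≤ span b` of dimension `r`, `I₀` the pivots.  If the REDUCTION of `W` meets the reduced chart
trivially, then `W` is the column space of an echelon matrix `Γ` with entries in the valuation
ring `S.A`, the reduction of `W` is the column space of the residue of `Γ`, and `W` is a
complement of the chart. -/
theorem exists_echelon_lift_of_disjoint (hL : HasLattice S) (b : Fin n → F)
    (hb : ∀ i, b i ∈ S.Ov) (hli : LinearIndependent k (fun i => S.red (b i)))
    (W : Submodule K F) (hW : W ≤ Submodule.span K (Set.range b))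
    (I₀ : Fin r → Fin n) (hfr : Module.finrank K W = r)
    (hdisj : redSpace S W ⊓ chartSpan k (fun i => S.red (b i)) I₀ = ⊥) :
    ∃ Γ : Matrix (Fin n) (Fin r) S.A, Γ.submatrix I₀ id = 1 ∧
      W = colSpan b (Γ.map S.A.subtype) ∧
      redSpace S W = colSpan (fun i => S.red (b i)) (Γ.map S.res) ∧
      W ⊓ chartSpan K b I₀ = ⊥ ∧ W ⊔ chartSpan K b I₀ = Submodule.span K (Set.range b) := by
  classical
  have hsfd : FiniteDimensional K (Submodule.span K (Set.range b)) :=
    FiniteDimensional.span_of_finite K (Set.finite_range b)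
  have hWfd : FiniteDimensional K W := Submodule.finiteDimensional_of_le hW
  have hredle : redSpace S W ≤ Submodule.span k (Set.range fun i => S.red (b i)) := by
    rw [← redSpace_span S b hb hli]
    exact redSpace_mono S hW
  have hfr' : Module.finrank k (redSpace S W) = r := by
    rw [finrank_redSpace S hL W, hfr]
  obtain ⟨Γbar, hΓbar, hcol⟩ := exists_echelon_of_disjoint hli (redSpace S W) hredle I₀ hdisj hfr'
  obtain ⟨Γ, hΓ, hΓres, hWΓ⟩ := exists_echelon_lift S hL b hb hli W hW I₀ Γbar hΓbar hcol.symm
  have hK : LinearIndependent K b := linearIndependent_of_red S b hb hli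
  have hΓK : (Γ.map S.A.subtype).submatrix I₀ id = 1 := by
    have h2 : (Γ.map S.A.subtype).submatrix I₀ id = (Γ.submatrix I₀ id).map S.A.subtype := rfl
    rw [h2, hΓ]
    ext i j
    simp [Matrix.one_apply, apply_ite]
  refine ⟨Γ, hΓ, hWΓ, ?_, ?_, ?_⟩
  · rw [hΓres, hcol]
  · rw [hWΓ]
    exact colSpan_inf_chartSpan hK hΓK
  · rw [hWΓ]
    exact colSpan_sup_chartSpan b hΓK

end Lift

end Fermat.Agent.FF
end
end MergeWrap_Lib_FF_RedEchelon
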