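import Mathlib
import Fermat.Agent.MUL.Lib.FF.GalAct
import Fermat.Agent.MUL.Lib.FF.RedEchelon
import Fermat.Agent.MUL.Lib.FF.GoodEll.Chart
import Fermat.Agent.MUL.Lib.FlatMod.OrderOmega

section MergeWrap_Lib_FF_GeomEch -- from Lib/FF/GeomEch.lean

set_option autoImplicit false
set_option linter.style.haveILetI false

noncomputable section

open AlgebraicCurve Fermat.Agent.RR Fermat.Agent.RRMult Fermat.Agent.FFGoodEll Fermat.Agent.FF
  Fermat.Agent.FFGal

namespace Fermat.Agent.FFGeom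

section General

variable {K F : Type*} [Field K] [Field F] [Algebra K F] {n r : ℕ}

/-- the columns of the conjugate matrix are the conjugates of the columns (fixed family). -/
theorem colVec_map_baseAut (g : SemilinearAut K F) (b : Fin n → F) (hfix : ∀ i, g • b i = b i)
    (Γ : Matrix (Fin n) (Fin r) K) (a : Fin r) :
    colVec b (Γ.map (SemilinearAut.baseAut g)) a = g • colVec b Γ a := by
  unfold colVec
  rw [Finset.smul_sum]
  refine Finset.sum_congr rfl fun i _ => ?_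
  rw [smul_smul_base, hfix, Matrix.map_apply]

theorem smul_mem_colSpan_map (g : SemilinearAut K F) (b : Fin n → F)
    (hfix : ∀ i, g • b i = b i) (Γ : Matrix (Fin n) (Fin r) K) {x : F}
    (hx : x ∈ colSpan b Γ) : g • x ∈ colSpan b (Γ.map (SemilinearAut.baseAut g)) := by
  unfold colSpan at hx ⊢
  induction hx using Submodule.span_induction with
  | mem y hy =>
    obtain ⟨a, rfl⟩ := hy
    rw [← colVec_map_baseAut g b hfix]
    exact Submodule.subset_span ⟨a, rfl⟩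
  | zero => rw [smul_zero]; exact zero_mem _
  | add y z _ _ hy hz => rw [smul_add]; exact add_mem hy hz
  | smul c y _ hy => rw [smul_smul_base]; exact Submodule.smul_mem _ _ hy

theorem map_map_baseAut_inv (g : SemilinearAut K F) (Γ : Matrix (Fin n) (Fin r) K) :
    (Γ.map (SemilinearAut.baseAut g)).map (SemilinearAut.baseAut g⁻¹) = Γ := by
  ext i a
  simp only [Matrix.map_apply, SemilinearAut.baseAut_inv]
  exact RingEquiv.symm_apply_apply _ _

/-- `x ∈ colSpan b (Γ.map g) ↔ g⁻¹ • x ∈ colSpan b Γ`. -/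
theorem mem_colSpan_map_iff (g : SemilinearAut K F) (b : Fin n → F)
    (hfix : ∀ i, g • b i = b i) (Γ : Matrix (Fin n) (Fin r) K) (x : F) :
    x ∈ colSpan b (Γ.map (SemilinearAut.baseAut g)) ↔ g⁻¹ • x ∈ colSpan b Γ := by
  have hfix' : ∀ i, g⁻¹ • b i = b i := fun i => by
    conv_lhs => rw [← hfix i]
    exact inv_smul_smul g (b i)
  constructor
  · intro hx
    have := smul_mem_colSpan_map g⁻¹ b hfix' _ hx
    rwa [map_map_baseAut_inv] at this
  · intro hx
    have := smul_mem_colSpan_map g b hfix Γ hx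
    rwa [smul_inv_smul] at this

/-- if `colSpan b Γ = L(D)` then `colSpan b (Γ.map g) = L(g • D)`. -/
theorem colSpan_map_eq_rr (g : SemilinearAut K F) (b : Fin n → F)
    (hfix : ∀ i, g • b i = b i) (Γ : Matrix (Fin n) (Fin r) K) (D : Divisor K F)
    (hΓ : colSpan b Γ = riemannRochSpace D) :
    colSpan b (Γ.map (SemilinearAut.baseAut g)) = riemannRochSpace (g • D) := by
  ext x
  rw [mem_colSpan_map_iff g b hfix, hΓ, mem_riemannRochSpace_smul_iff]

/-- the echelon property is preserved by ring homomorphisms. -/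
theorem submatrix_map_eq_one {R S : Type*} [CommRing R] [CommRing S] (φ : R → S)
    (h0 : φ 0 = 0) (h1 : φ 1 = 1)
    {Γ : Matrix (Fin n) (Fin r) R} {I₀ : Fin r → Fin n} (hΓ : Γ.submatrix I₀ id = 1) :
    (Γ.map φ).submatrix I₀ id = 1 := by
  have h2 : (Γ.map φ).submatrix I₀ id = (Γ.submatrix I₀ id).map φ := rfl
  rw [h2, hΓ]
  exact Matrix.map_one φ h0 h1

open Classical in
/-- THE echelon matrix (pivots `I₀`, family `b`) of a subspace `U` (`0` if there is none). -/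
def echelonOf (b : Fin n → F) (I₀ : Fin r → Fin n) (U : Submodule K F) :
    Matrix (Fin n) (Fin r) K :=
  if h : ∃ Γ : Matrix (Fin n) (Fin r) K, Γ.submatrix I₀ id = 1 ∧ colSpan b Γ = U
  then h.choose else 0

theorem echelonOf_spec {b : Fin n → F} {I₀ : Fin r → Fin n} {U : Submodule K F}
    (h : ∃ Γ : Matrix (Fin n) (Fin r) K, Γ.submatrix I₀ id = 1 ∧ colSpan b Γ = U) :
    (echelonOf b I₀ U).submatrix I₀ id = 1 ∧ colSpan b (echelonOf b I₀ U) = U := by
  unfold echelonOf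
  rw [dif_pos h]
  exact h.choose_spec

theorem echelonOf_eq {b : Fin n → F} (hb : LinearIndependent K b) {I₀ : Fin r → Fin n}
    {U : Submodule K F} {Γ : Matrix (Fin n) (Fin r) K} (hΓ : Γ.submatrix I₀ id = 1)
    (hU : colSpan b Γ = U) : echelonOf b I₀ U = Γ := by
  obtain ⟨h1, h2⟩ := echelonOf_spec (b := b) (I₀ := I₀) (U := U) ⟨Γ, hΓ, hU⟩
  exact echelon_eq_of_colSpan_eq hb hΓ h1 (h2.trans hU.symm)

/-- the pivot selector: a left inverse of every echelon matrix with pivots `I₀`. -/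
def pivotSel (K : Type*) [Field K] {n r : ℕ} (I₀ : Fin r → Fin n) : Matrix (Fin r) (Fin n) K :=
  fun a i => if i = I₀ a then 1 else 0

theorem pivotSel_mul {I₀ : Fin r → Fin n} (Γ : Matrix (Fin n) (Fin r) K) :
    pivotSel K I₀ * Γ = Γ.submatrix I₀ id := by
  ext a c
  simp [pivotSel, Matrix.mul_apply]

end General

/-- **Inputs of the echelon coordinates** (to be supplied by the seats D1, FIB, Eg). -/
structure EchData (G K F W T : Type) [Group G] [Field K] [Field F] [Algebra K F]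
    [AddCommGroup W] where
  hF : IsRRField K F
  /-- the place `∞` -/
  P : Place K F
  /-- `M₀` -/
  T₀ : ℤ
  hT₀ : 3 * (genusFF K F : ℤ) - 1 ≤ T₀
  n₁ : ℕ
  n₂ : ℕ
  r : ℕ
  e₂ : ℕ
  /-- basis of `L(T₀ P)` -/
  b₁ : Fin n₁ → F
  /-- basis of `L(2 T₀ P)` -/
  b₂ : Fin n₂ → F
  /-- pivots in `b₁` -/
  I₁ : Fin r → Fin n₁
  /-- pivots in `b₂` -/
  I₂ : Fin e₂ → Fin n₂
  hb₁ : LinearIndependent K b₁
  hb₂ : LinearIndependent K b₂
  span₁ : Submodule.span K (Set.range b₁) = riemannRochSpace (Finsupp.single P T₀)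
  span₂ : Submodule.span K (Set.range b₂) = riemannRochSpace (Finsupp.single P (2 * T₀))
  chart₁ : chartSpan K b₁ I₁ = riemannRochSpace (Finsupp.single P (2 * (genusFF K F : ℤ) - 1))
  chart₂ : chartSpan K b₂ I₂ = riemannRochSpace (Finsupp.single P (2 * (genusFF K F : ℤ) - 1))
  hr : (r : ℤ) = T₀ + 1 - 2 * (genusFF K F : ℤ)
  he₂ : (e₂ : ℤ) = 2 * T₀ + 1 - 2 * (genusFF K F : ℤ)
  /-- the class of a point -/
  cls : W →+ Pic0 K F
  /-- the divisor `E_τ` of a tuple -/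
  E : T → Divisor K F
  E_nonneg : ∀ τ, 0 ≤ E τ
  E_deg : ∀ τ, Divisor.degree (E τ) = (genusFF K F : ℤ)
  /-- goodness in characteristic `0`: the effective divisor `D ∼ X_w + E_τ` is good -/
  good : ∀ τ w, ∃ D : Divisor K F, IsRepOf (cls w) (E τ) D ∧ IsGoodDiv P D
  /-- the Galois action -/
  gal : G →* SemilinearAut K F
  act : G → W → W
  perm : G → T → T
  gal_P : ∀ σ, gal σ • P = P
  gal_b₁ : ∀ σ i, gal σ • b₁ i = b₁ i
  gal_b₂ : ∀ σ i, gal σ • b₂ i = b₂ i
  cls_act : ∀ σ w, cls (act σ w) = gal σ • cls w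
  E_perm : ∀ σ τ, E (perm σ τ) = gal σ • E τ

namespace EchData

variable {G K F W T : Type} [Group G] [Field K] [Field F] [Algebra K F] [AddCommGroup W]
  (d : EchData G K F W T)

/-- THE effective divisor `D_w^τ ∼ X_w + E_τ`. -/
def D (τ : T) (w : W) : Divisor K F := (d.good τ w).choose

theorem isRepOf_D (τ : T) (w : W) : IsRepOf (d.cls w) (d.E τ) (d.D τ w) :=
  (d.good τ w).choose_spec.1

theorem isGoodDiv_D (τ : T) (w : W) : IsGoodDiv d.P (d.D τ w) :=
  (d.good τ w).choose_spec.2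

theorem D_nonneg (τ : T) (w : W) : 0 ≤ d.D τ w := (d.isRepOf_D τ w).1

theorem degree_D (τ : T) (w : W) : Divisor.degree (d.D τ w) = (genusFF K F : ℤ) := by
  obtain ⟨-, h0, -⟩ := d.isRepOf_D τ w
  have h1 : Divisor.degree (d.D τ w - d.E τ) = 0 := Divisor.mem_degZero.mp h0
  rw [map_sub, d.E_deg] at h1
  omega

theorem ell_D (τ : T) (w : W) : ell (d.D τ w) = 1 :=
  (d.isGoodDiv_D τ w).ell_eq_one d.hF (d.degree_D τ w)

/-- uniqueness: every representative is `D τ w`. -/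
theorem eq_D {τ : T} {w : W} {D' : Divisor K F} (h : IsRepOf (d.cls w) (d.E τ) D') :
    D' = d.D τ w :=
  IsRepOf.unique d.hF (d.isRepOf_D τ w) (d.ell_D τ w) h

/-- `D_0^τ = E_τ`. -/
theorem D_zero (τ : T) : d.D τ 0 = d.E τ := by
  symm
  apply d.eq_D
  refine ⟨d.E_nonneg τ, by rw [sub_self]; exact zero_mem _, ?_⟩
  rw [map_zero]
  have : (⟨d.E τ - d.E τ, by rw [sub_self]; exact zero_mem _⟩ :
      Divisor.degZero (K := K) (F := F)) = 0 := Subtype.ext (sub_self _)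
  rw [this]
  rfl

theorem isGoodDiv_E (τ : T) : IsGoodDiv d.P (d.E τ) := by
  rw [← d.D_zero τ]
  exact d.isGoodDiv_D τ 0

/-- **equivariance of the divisors**: `D_{σ w}^{σ τ} = σ • D_w^τ`. -/
theorem D_equiv (σ : G) (τ : T) (w : W) :
    d.D (d.perm σ τ) (d.act σ w) = d.gal σ • d.D τ w := by
  have h := d.isRepOf_D (d.perm σ τ) (d.act σ w)
  rw [d.cls_act, d.E_perm] at h
  exact IsRepOf.smul_eq d.hF (d.gal σ) (d.isRepOf_D τ w) (d.ell_D τ w) h

/-! ### `Γ` -/

/-- the space `L(T₀ P - D_w^τ)`. -/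
def Wsp (τ : T) (w : W) : Submodule K F :=
  riemannRochSpace (Finsupp.single d.P d.T₀ - d.D τ w)

theorem exists_echelon_Wsp (τ : T) (w : W) :
    ∃ Γ : Matrix (Fin d.n₁) (Fin d.r) K, Γ.submatrix d.I₁ id = 1 ∧
      colSpan d.b₁ Γ = d.Wsp τ w := by
  have hg : (0 : ℤ) ≤ (genusFF K F : ℤ) := Int.natCast_nonneg _
  refine exists_echelon_of_disjoint d.hb₁ (d.Wsp τ w) ?_ d.I₁ ?_ ?_
  · rw [d.span₁]
    exact riemannRochSpace_mono (sub_le_self _ (d.D_nonneg τ w))
  · rw [d.chart₁]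
    exact (d.isGoodDiv_D τ w).inf_eq_bot d.hF (d.D_nonneg τ w) d.T₀
  · have e1 := ell_of_degree_gt d.hF (D := Finsupp.single d.P d.T₀ - d.D τ w)
      (by rw [map_sub, degree_single_one d.hF, d.degree_D]; have := d.hT₀; omega)
    rw [map_sub, degree_single_one d.hF, d.degree_D] at e1
    have := d.hr
    unfold ell at e1
    unfold Wsp
    omega

/-- **the echelon matrix of `L(T₀ P - D_w^τ)`**. -/
def Γ (τ : T) (w : W) : Matrix (Fin d.n₁) (Fin d.r) K :=
  echelonOf d.b₁ d.I₁ (d.Wsp τ w)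

theorem Γ_ech (τ : T) (w : W) : (d.Γ τ w).submatrix d.I₁ id = 1 :=
  (echelonOf_spec (d.exists_echelon_Wsp τ w)).1

theorem colSpan_Γ (τ : T) (w : W) :
    colSpan d.b₁ (d.Γ τ w) = riemannRochSpace (Finsupp.single d.P d.T₀ - d.D τ w) :=
  (echelonOf_spec (d.exists_echelon_Wsp τ w)).2

/-- characterisation of `Γ τ w`. -/
theorem Γ_eq {τ : T} {w : W} {Γ' : Matrix (Fin d.n₁) (Fin d.r) K}
    (h1 : Γ'.submatrix d.I₁ id = 1)
    (h2 : colSpan d.b₁ Γ' = riemannRochSpace (Finsupp.single d.P d.T₀ - d.D τ w)) :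
    d.Γ τ w = Γ' :=
  echelonOf_eq d.hb₁ h1 h2

/-- **equivariance of `Γ`**. -/
theorem Γ_equiv (σ : G) (τ : T) (w : W) :
    d.Γ (d.perm σ τ) (d.act σ w) = (d.Γ τ w).map (SemilinearAut.baseAut (d.gal σ)) := by
  refine d.Γ_eq (submatrix_map_eq_one _ (map_zero (SemilinearAut.baseAut (d.gal σ)))
    (map_one (SemilinearAut.baseAut (d.gal σ))) (d.Γ_ech τ w)) ?_
  rw [colSpan_map_eq_rr (d.gal σ) d.b₁ (d.gal_b₁ σ) (d.Γ τ w) _ (d.colSpan_Γ τ w), d.D_equiv,
    smul_sub, SemilinearAut.smul_single, d.gal_P]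

theorem Γ_equiv_apply (σ : G) (τ : T) (w : W) (i : Fin d.n₁) (a : Fin d.r) :
    d.Γ (d.perm σ τ) (d.act σ w) i a = SemilinearAut.baseAut (d.gal σ) (d.Γ τ w i a) := by
  rw [d.Γ_equiv]
  rfl

/-! ### `X` and `Lx` -/

/-- the space `L(2 T₀ P - E_τ)`. -/
def Xsp (τ : T) : Submodule K F :=
  riemannRochSpace (Finsupp.single d.P (2 * d.T₀) - d.E τ)

theorem exists_echelon_Xsp (τ : T) :
    ∃ X : Matrix (Fin d.n₂) (Fin d.e₂) K, X.submatrix d.I₂ id = 1 ∧
      colSpan d.b₂ X = d.Xsp τ := by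
  have hg : (0 : ℤ) ≤ (genusFF K F : ℤ) := Int.natCast_nonneg _
  refine exists_echelon_of_disjoint d.hb₂ (d.Xsp τ) ?_ d.I₂ ?_ ?_
  · rw [d.span₂]
    exact riemannRochSpace_mono (sub_le_self _ (d.E_nonneg τ))
  · rw [d.chart₂]
    exact (d.isGoodDiv_E τ).inf_eq_bot d.hF (d.E_nonneg τ) (2 * d.T₀)
  · have e1 := ell_of_degree_gt d.hF (D := Finsupp.single d.P (2 * d.T₀) - d.E τ)
      (by rw [map_sub, degree_single_one d.hF, d.E_deg]; have := d.hT₀; have := d.he₂; omega)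
    rw [map_sub, degree_single_one d.hF, d.E_deg] at e1
    have := d.he₂
    unfold ell at e1
    unfold Xsp
    omega

/-- **the echelon matrix of `L(2 T₀ P - E_τ)`**. -/
def X (τ : T) : Matrix (Fin d.n₂) (Fin d.e₂) K :=
  echelonOf d.b₂ d.I₂ (d.Xsp τ)

theorem X_ech (τ : T) : (d.X τ).submatrix d.I₂ id = 1 :=
  (echelonOf_spec (d.exists_echelon_Xsp τ)).1

theorem colSpan_X (τ : T) :
    colSpan d.b₂ (d.X τ) = riemannRochSpace (Finsupp.single d.P (2 * d.T₀) - d.E τ) :=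
  (echelonOf_spec (d.exists_echelon_Xsp τ)).2

theorem X_eq {τ : T} {X' : Matrix (Fin d.n₂) (Fin d.e₂) K}
    (h1 : X'.submatrix d.I₂ id = 1)
    (h2 : colSpan d.b₂ X' = riemannRochSpace (Finsupp.single d.P (2 * d.T₀) - d.E τ)) :
    d.X τ = X' :=
  echelonOf_eq d.hb₂ h1 h2

/-- **equivariance of `X`**. -/
theorem X_equiv (σ : G) (τ : T) :
    d.X (d.perm σ τ) = (d.X τ).map (SemilinearAut.baseAut (d.gal σ)) := by
  refine d.X_eq (submatrix_map_eq_one _ (map_zero (SemilinearAut.baseAut (d.gal σ)))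
    (map_one (SemilinearAut.baseAut (d.gal σ))) (d.X_ech τ)) ?_
  rw [colSpan_map_eq_rr (d.gal σ) d.b₂ (d.gal_b₂ σ) (d.X τ) _ (d.colSpan_X τ), d.E_perm,
    smul_sub, SemilinearAut.smul_single, d.gal_P]

theorem X_equiv_apply (σ : G) (τ : T) (i : Fin d.n₂) (a : Fin d.e₂) :
    d.X (d.perm σ τ) i a = SemilinearAut.baseAut (d.gal σ) (d.X τ i a) := by
  rw [d.X_equiv]
  rfl

/-- the left inverse of `X τ`: the pivot selector (independent of `τ`). -/
def Lx (_τ : T) : Matrix (Fin d.e₂) (Fin d.n₂) K := pivotSel K d.I₂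

theorem Lx_mul_X (τ : T) : d.Lx τ * d.X τ = 1 := by
  unfold Lx
  rw [pivotSel_mul, d.X_ech]

theorem Lx_apply (τ : T) (a : Fin d.e₂) (i : Fin d.n₂) :
    d.Lx τ a i = if i = d.I₂ a then 1 else 0 := rfl

theorem Lx_equiv_apply (σ : G) (τ : T) (a : Fin d.e₂) (i : Fin d.n₂) :
    d.Lx (d.perm σ τ) a i = SemilinearAut.baseAut (d.gal σ) (d.Lx τ a i) := by
  rw [Lx_apply, Lx_apply]
  split_ifs
  · rw [map_one]
  · rw [map_zero]

/-- the entries of `Lx` are integral over any subring. -/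
theorem Lx_int (R : Type*) [CommRing R] [Algebra R K] (τ : T) (a : Fin d.e₂) (i : Fin d.n₂) :
    IsIntegral R (d.Lx τ a i) := by
  rw [Lx_apply]
  split_ifs
  · exact isIntegral_one
  · exact isIntegral_zero

/-- `Γ τ 0` is the echelon matrix of `L(T₀ P - E_τ)`. -/
theorem colSpan_Γ_zero (τ : T) :
    colSpan d.b₁ (d.Γ τ 0) = riemannRochSpace (Finsupp.single d.P d.T₀ - d.E τ) := by
  rw [d.colSpan_Γ, d.D_zero]

end EchData

end Fermat.Agent.FFGeom
end
end MergeWrap_Lib_FF_GeomEch
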