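import Mathlib
import Fermat.Agent.MUL.Lib.RR.MultGeneral
import Fermat.Agent.MUL.Orig.Lib.FF.KMRingDefs
import Fermat.Agent.MUL.Lib.FF.GoodEll.Chart
import Fermat.Agent.MUL.Orig.Lib.FF.KMRank

section MergeWrap_Lib_FF_KMField -- from Lib/FF/KMField.lean

set_option autoImplicit false

/-!
# FF / S19, route R-G: the Khuri-Makdisi steps over a field (helper20)

Field-level input of the "Grassmannian closure" route: for a function field `F / K`
(`IsRRField K F`, any characteristic, `K` infinite where the multiplication lemma is used) the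
operations of Khuri-Makdisi's linear algebra on the spaces `L(T - D)` are computed by
Riemann-Roch.  Everything is an equality of `K`-subspaces of `F`.

* `colon U V = {a | a • U ⊆ V}`, `dilate u V = u • V`;
* `colon_riemannRochSpace` : `(L(C) : L(A)) = L(C - A)` for `deg A ≥ 2 g`;
* `dilate_riemannRochSpace` : `u • L(C) = L(C - div u)`;
* `colon_dilate` : `(u • L(C) : L(A)) = L(C - div u - A)`;
* `km_line` : `(u • L(2T - E) : L(T - Dx) L(T - Dy)) = L(2T - E - (div u + 2T - Dx - Dy))`
  `= u • L(Dx + Dy - E)`, of dimension `ℓ(Dx + Dy - E)`;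
* `km_add` : for `t ≠ 0`, `u ≠ 0`:
  `(t • L(2T) : (u • L(3T - E) : L(T - Dx) L(T - Dy))) = L(T - (Dx + Dy - E + div t - div u))`;
* `km_sum` : if moreover `ℓ(Dx + Dy - E) = 1`, `t` is in the line of `km_line` and `Dz ≥ 0` is
  linearly equivalent to `Dx + Dy - E`, the result is `L(T - Dz)`;
* `km_neg_line`, `km_neg`, `km_neg_sum` : the same for the inverse
  (`Dz ∼ 2E - Dx`), no auxiliary `u`;
* `eq_of_effective_of_ell_eq_one` : uniqueness of the effective divisor in a class with `ℓ = 1`;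
* `finrank_*` : the dimensions of all the spaces that occur (the "constant rank" inputs).
-/

noncomputable section

open AlgebraicCurve

namespace Fermat.Agent.KMField

open Fermat.Agent.RR Fermat.Agent.RRMult

variable {K F : Type*} [Field K] [Field F] [Algebra K F]

/-! ### transporters and dilations of subspaces of `F` -/

/-- the transporter `(V : U) = {a | a • U ⊆ V}`. -/
def colon (U V : Submodule K F) : Submodule K F where
  carrier := {a | ∀ w ∈ U, a * w ∈ V}
  zero_mem' := by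
    intro w _
    rw [zero_mul]
    exact V.zero_mem
  add_mem' := by
    intro a b ha hb w hw
    rw [add_mul]
    exact V.add_mem (ha w hw) (hb w hw)
  smul_mem' := by
    intro c a ha w hw
    rw [smul_mul_assoc]
    exact V.smul_mem c (ha w hw)

theorem mem_colon {U V : Submodule K F} {a : F} : a ∈ colon U V ↔ ∀ w ∈ U, a * w ∈ V :=
  Iff.rfl

/-- the transporter can be tested on generators. -/
theorem mem_colon_span {S : Set F} {V : Submodule K F} {a : F} :
    a ∈ colon (Submodule.span K S) V ↔ ∀ w ∈ S, a * w ∈ V := by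
  constructor
  · intro ha w hw
    exact ha w (Submodule.subset_span hw)
  · intro ha w hw
    induction hw using Submodule.span_induction with
    | mem x hx => exact ha x hx
    | zero =>
      rw [mul_zero]
      exact V.zero_mem
    | add x y _ _ hx hy =>
      rw [mul_add]
      exact V.add_mem hx hy
    | smul c x _ hx =>
      rw [mul_smul_comm]
      exact V.smul_mem c hx

theorem colon_mono_right {U V V' : Submodule K F} (hV : V ≤ V') : colon U V ≤ colon U V' :=
  fun _ ha w hw => hV (ha w hw)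

theorem colon_anti_left {U U' V : Submodule K F} (hU : U ≤ U') : colon U' V ≤ colon U V :=
  fun _ ha w hw => ha w (hU hw)

/-- the dilation `u • V`. -/
def dilate (u : F) (V : Submodule K F) : Submodule K F :=
  V.map (LinearMap.mulLeft K u)

theorem mem_dilate {u : F} {V : Submodule K F} {x : F} :
    x ∈ dilate u V ↔ ∃ c ∈ V, u * c = x := by
  unfold dilate
  rw [Submodule.mem_map]
  rfl

theorem mul_mem_dilate {u : F} {V : Submodule K F} {c : F} (hc : c ∈ V) : u * c ∈ dilate u V :=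
  mem_dilate.mpr ⟨c, hc, rfl⟩

theorem mem_dilate_iff {u : F} (hu : u ≠ 0) {V : Submodule K F} {x : F} :
    x ∈ dilate u V ↔ u⁻¹ * x ∈ V := by
  rw [mem_dilate]
  constructor
  · rintro ⟨c, hc, rfl⟩
    rwa [← mul_assoc, inv_mul_cancel₀ hu, one_mul]
  · intro hx
    exact ⟨u⁻¹ * x, hx, by rw [← mul_assoc, mul_inv_cancel₀ hu, one_mul]⟩

@[simp]
theorem dilate_one (V : Submodule K F) : dilate (1 : F) V = V := by
  ext x
  rw [mem_dilate_iff one_ne_zero, inv_one, one_mul]

/-- multiplication by `u ≠ 0` is a linear isomorphism `V ≃ u • V`. -/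
def dilateEquiv {u : F} (hu : u ≠ 0) (V : Submodule K F) : V ≃ₗ[K] dilate u V :=
  Submodule.equivMapOfInjective (LinearMap.mulLeft K u)
    (fun a b hab => mul_left_cancel₀ hu (by simpa using hab)) V

theorem finrank_dilate {u : F} (hu : u ≠ 0) (V : Submodule K F) :
    Module.finrank K (dilate u V) = Module.finrank K V :=
  (dilateEquiv hu V).finrank_eq.symm

/-! ### Riemann-Roch spaces -/

/-- `u • L(C) = L(C - div u)`. -/
theorem dilate_riemannRochSpace (h : IsRRField K F) (C : Divisor K F) {u : F} (hu : u ≠ 0) :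
    dilate u (riemannRochSpace C) = riemannRochSpace (C - divOf h u) := by
  ext x
  rw [mem_dilate_iff hu, mem_riemannRochSpace_iff, mem_riemannRochSpace_iff]
  refine forall_congr' fun v => ?_
  rcases eq_or_ne x 0 with hx | hx
  · subst hx
    simp
  · have h1 : u⁻¹ * x ≠ 0 := mul_ne_zero (inv_ne_zero hu) hx
    rw [v.ord_mul (inv_ne_zero hu) hx, v.ord_inv, Finsupp.sub_apply, divOf_apply]
    constructor
    · intro hh
      right
      have := hh.resolve_left h1
      omega
    · intro hh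
      right
      have := hh.resolve_left hx
      omega

/-- the colon lemma as an equality of subspaces: `(L(C) : L(A)) = L(C - A)` for `deg A ≥ 2 g`. -/
theorem colon_riemannRochSpace (h : IsRRField K F) {A : Divisor K F} (C : Divisor K F)
    (hA : 2 * (genusFF K F : ℤ) ≤ Divisor.degree A) :
    colon (riemannRochSpace A) (riemannRochSpace C) = riemannRochSpace (C - A) := by
  ext a
  rw [mem_colon, mem_iff_forall_mul_mem h hA (A := C - A) (f := a), sub_add_cancel]

/-- the twisted colon lemma: `(u • L(C) : L(A)) = L(C - div u - A)` for `deg A ≥ 2 g`. -/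
theorem colon_dilate (h : IsRRField K F) {A : Divisor K F} (C : Divisor K F)
    (hA : 2 * (genusFF K F : ℤ) ≤ Divisor.degree A) {u : F} (hu : u ≠ 0) :
    colon (riemannRochSpace A) (dilate u (riemannRochSpace C))
      = riemannRochSpace (C - divOf h u - A) := by
  rw [dilate_riemannRochSpace h C hu, colon_riemannRochSpace h _ hA]

/-- for `u ∈ L(A)`, `u ≠ 0`, the divisor of zeros of `u` relative to `A` is effective. -/
theorem residual_nonneg (h : IsRRField K F) {A : Divisor K F} {u : F} (hu : u ≠ 0)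
    (huA : u ∈ riemannRochSpace A) : 0 ≤ divOf h u + A := by
  have := (mem_riemannRochSpace_iff_le h hu).mp huA
  exact neg_le_iff_add_nonneg.mp this

theorem degree_residual (h : IsRRField K F) (A : Divisor K F) (u : F) :
    Divisor.degree (divOf h u + A) = Divisor.degree A := by
  rw [map_add, degree_divOf, zero_add]

/-- `ℓ(D) = deg D + 1 - g` for `deg D ≥ 2 g - 1`, as a `finrank`. -/
theorem finrank_riemannRochSpace (h : IsRRField K F) {D : Divisor K F}
    (hD : 2 * (genusFF K F : ℤ) - 2 < Divisor.degree D) :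
    (Module.finrank K (riemannRochSpace D) : ℤ) = Divisor.degree D + 1 - (genusFF K F : ℤ) :=
  ell_of_degree_gt h hD

/-- uniqueness of the effective divisor in a class with `ℓ = 1`. -/
theorem eq_of_effective_of_ell_eq_one (h : IsRRField K F) {Z D₁ D₂ : Divisor K F}
    (hell : ell Z = 1) (h1 : 0 ≤ D₁) (h2 : 0 ≤ D₂) {f₁ f₂ : F} (hf₁ : f₁ ≠ 0) (hf₂ : f₂ ≠ 0)
    (e1 : D₁ = Z + divOf h f₁) (e2 : D₂ = Z + divOf h f₂) : D₁ = D₂ := by
  have m1 : f₁ ∈ riemannRochSpace Z := by
    rw [mem_riemannRochSpace_iff_le h hf₁]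
    have := h1
    rw [e1] at this
    exact neg_le_iff_add_nonneg'.mpr this
  have m2 : f₂ ∈ riemannRochSpace Z := by
    rw [mem_riemannRochSpace_iff_le h hf₂]
    have := h2
    rw [e2] at this
    exact neg_le_iff_add_nonneg'.mpr this
  have hne : (⟨f₁, m1⟩ : riemannRochSpace Z) ≠ 0 := by
    intro h0
    exact hf₁ (congrArg Subtype.val h0)
  obtain ⟨c, hc⟩ := (finrank_eq_one_iff_of_nonzero' (⟨f₁, m1⟩ : riemannRochSpace Z) hne).mp hell
    ⟨f₂, m2⟩
  have hc' : c • f₁ = f₂ := congrArg Subtype.val hc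
  have hc0 : c ≠ 0 := by
    rintro rfl
    rw [zero_smul] at hc'
    exact hf₂ hc'.symm
  have hdiv : divOf h f₂ = divOf h f₁ := by
    ext v
    rw [divOf_apply, divOf_apply, ← hc', Algebra.smul_def,
      v.ord_mul ((map_ne_zero (algebraMap K F)).mpr hc0) hf₁]
    have hcv : v.ord (algebraMap K F c) = 0 := by
      have hmem := algebraMap_mem_riemannRochSpace_zero (K := K) (F := F) c
      have hmem' := algebraMap_mem_riemannRochSpace_zero (K := K) (F := F) c⁻¹
      have a1 := (mem_riemannRochSpace_iff.mp hmem v).resolve_left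
        ((map_ne_zero (algebraMap K F)).mpr hc0)
      have a2 := (mem_riemannRochSpace_iff.mp hmem' v).resolve_left
        ((map_ne_zero (algebraMap K F)).mpr (inv_ne_zero hc0))
      rw [map_inv₀, v.ord_inv] at a2
      simp only [Finsupp.coe_zero, Pi.zero_apply, neg_zero] at a1 a2
      omega
    rw [hcv, zero_add]
  rw [e1, e2, hdiv]

/-! ### Khuri-Makdisi addition -/

section Add

variable {T Dx Dy E : Divisor K F}

/-- the product step: `L(T - Dx) L(T - Dy) = L(2T - Dx - Dy)`. -/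
theorem km_mul (h : IsRRField K F) [Infinite K]
    (hx : 3 * (genusFF K F : ℤ) ≤ Divisor.degree (T - Dx))
    (hy : 3 * (genusFF K F : ℤ) ≤ Divisor.degree (T - Dy)) :
    mulSpan (T - Dx) (T - Dy) = riemannRochSpace (2 • T - Dx - Dy) := by
  rw [mulSpan_eq h hx hy]
  congr 1
  rw [two_nsmul]
  abel

theorem km_mul_degree (hx : 3 * (genusFF K F : ℤ) ≤ Divisor.degree (T - Dx))
    (hy : 3 * (genusFF K F : ℤ) ≤ Divisor.degree (T - Dy)) :
    6 * (genusFF K F : ℤ) ≤ Divisor.degree (2 • T - Dx - Dy) := by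
  have e : 2 • T - Dx - Dy = (T - Dx) + (T - Dy) := by
    rw [two_nsmul]
    abel
  rw [e, map_add]
  linarith

/-- the dimension of the product space. -/
theorem finrank_km_mul (h : IsRRField K F) [Infinite K]
    (hx : 3 * (genusFF K F : ℤ) ≤ Divisor.degree (T - Dx))
    (hy : 3 * (genusFF K F : ℤ) ≤ Divisor.degree (T - Dy)) :
    (Module.finrank K (mulSpan (T - Dx) (T - Dy)) : ℤ)
      = Divisor.degree (2 • T - Dx - Dy) + 1 - (genusFF K F : ℤ) := by
  rw [km_mul h hx hy]
  refine finrank_riemannRochSpace h ?_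
  have := km_mul_degree (K := K) (F := F) hx hy
  have hg : (0 : ℤ) ≤ (genusFF K F : ℤ) := Int.natCast_nonneg _
  linarith

/-- the general colon step against the product space:
`(u • L(C) : L(T - Dx) L(T - Dy)) = L(C - (div u + 2T - Dx - Dy))`. -/
theorem km_colon (h : IsRRField K F) [Infinite K]
    (hx : 3 * (genusFF K F : ℤ) ≤ Divisor.degree (T - Dx))
    (hy : 3 * (genusFF K F : ℤ) ≤ Divisor.degree (T - Dy)) (C : Divisor K F)
    {u : F} (hu : u ≠ 0) :
    colon (mulSpan (T - Dx) (T - Dy)) (dilate u (riemannRochSpace C))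
      = riemannRochSpace (C - (divOf h u + (2 • T - Dx - Dy))) := by
  have hdeg := km_mul_degree (K := K) (F := F) hx hy
  have hg : (0 : ℤ) ≤ (genusFF K F : ℤ) := Int.natCast_nonneg _
  rw [km_mul h hx hy, colon_dilate h C (by linarith) hu]
  congr 1
  abel

/-- the colon step lands in the fixed ambient space `L(C)` when `u` is in the product space. -/
theorem km_colon_le (h : IsRRField K F) [Infinite K]
    (hx : 3 * (genusFF K F : ℤ) ≤ Divisor.degree (T - Dx))
    (hy : 3 * (genusFF K F : ℤ) ≤ Divisor.degree (T - Dy)) (C : Divisor K F)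
    {u : F} (hu : u ≠ 0) (huU : u ∈ mulSpan (T - Dx) (T - Dy)) :
    colon (mulSpan (T - Dx) (T - Dy)) (dilate u (riemannRochSpace C)) ≤ riemannRochSpace C := by
  rw [km_colon h hx hy C hu]
  refine riemannRochSpace_mono ?_
  have h0 : 0 ≤ divOf h u + (2 • T - Dx - Dy) :=
    residual_nonneg h hu (by rwa [km_mul h hx hy] at huU)
  exact sub_le_self C h0

/-- the line step: `(u • L(2T - E) : L(T - Dx) L(T - Dy)) = u • L(Dx + Dy - E)`. -/
theorem km_line (h : IsRRField K F) [Infinite K]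
    (hx : 3 * (genusFF K F : ℤ) ≤ Divisor.degree (T - Dx))
    (hy : 3 * (genusFF K F : ℤ) ≤ Divisor.degree (T - Dy))
    {u : F} (hu : u ≠ 0) :
    colon (mulSpan (T - Dx) (T - Dy)) (dilate u (riemannRochSpace (2 • T - E)))
      = dilate u (riemannRochSpace (Dx + Dy - E)) := by
  rw [km_colon h hx hy _ hu, dilate_riemannRochSpace h _ hu]
  congr 1
  abel

/-- the dimension of the line step is `ℓ(Dx + Dy - E)`. -/
theorem finrank_km_line (h : IsRRField K F) [Infinite K]
    (hx : 3 * (genusFF K F : ℤ) ≤ Divisor.degree (T - Dx))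
    (hy : 3 * (genusFF K F : ℤ) ≤ Divisor.degree (T - Dy))
    {u : F} (hu : u ≠ 0) :
    Module.finrank K
        (colon (mulSpan (T - Dx) (T - Dy)) (dilate u (riemannRochSpace (2 • T - E))))
      = ell (Dx + Dy - E) := by
  rw [km_line h hx hy hu, finrank_dilate hu]
  rfl

/-- an element `t ≠ 0` of the line has an effective residual divisor
`Dx + Dy - E + div t - div u`. -/
theorem km_residual_nonneg (h : IsRRField K F) [Infinite K]
    (hx : 3 * (genusFF K F : ℤ) ≤ Divisor.degree (T - Dx))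
    (hy : 3 * (genusFF K F : ℤ) ≤ Divisor.degree (T - Dy))
    {u t : F} (hu : u ≠ 0) (ht : t ≠ 0)
    (htQ : t ∈ colon (mulSpan (T - Dx) (T - Dy)) (dilate u (riemannRochSpace (2 • T - E)))) :
    0 ≤ Dx + Dy - E + divOf h t - divOf h u := by
  rw [km_line h hx hy hu, dilate_riemannRochSpace h _ hu] at htQ
  have := residual_nonneg h ht htQ
  have e : divOf h t + (Dx + Dy - E - divOf h u) = Dx + Dy - E + divOf h t - divOf h u := by
    abel
  rwa [e] at this

/-- the auxiliary space `(u • L(3T - E) : L(T - Dx) L(T - Dy)) = L(T + Dx + Dy - E - div u)`. -/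
theorem km_aux (h : IsRRField K F) [Infinite K]
    (hx : 3 * (genusFF K F : ℤ) ≤ Divisor.degree (T - Dx))
    (hy : 3 * (genusFF K F : ℤ) ≤ Divisor.degree (T - Dy))
    {u : F} (hu : u ≠ 0) :
    colon (mulSpan (T - Dx) (T - Dy)) (dilate u (riemannRochSpace (3 • T - E)))
      = riemannRochSpace (T + Dx + Dy - E - divOf h u) := by
  rw [km_colon h hx hy _ hu]
  congr 1
  rw [three_nsmul, two_nsmul]
  abel

theorem km_aux_degree (h : IsRRField K F) (u : F) :
    Divisor.degree (T + Dx + Dy - E - divOf h u) = Divisor.degree (T + Dx + Dy - E) := by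
  rw [map_sub _ _ (divOf h u), degree_divOf, sub_zero]

/-- the dimension of the auxiliary space. -/
theorem finrank_km_aux (h : IsRRField K F) [Infinite K]
    (hx : 3 * (genusFF K F : ℤ) ≤ Divisor.degree (T - Dx))
    (hy : 3 * (genusFF K F : ℤ) ≤ Divisor.degree (T - Dy))
    (hE : 2 * (genusFF K F : ℤ) ≤ Divisor.degree (T + Dx + Dy - E))
    {u : F} (hu : u ≠ 0) :
    (Module.finrank K
        (colon (mulSpan (T - Dx) (T - Dy)) (dilate u (riemannRochSpace (3 • T - E)))) : ℤ)
      = Divisor.degree (T + Dx + Dy - E) + 1 - (genusFF K F : ℤ) := by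
  rw [km_aux h hx hy hu, finrank_riemannRochSpace h (by rw [km_aux_degree]; linarith),
    km_aux_degree]

/-- **Khuri-Makdisi addition over a field**: for `u ≠ 0`, `t ≠ 0`,
`(t • L(2T) : (u • L(3T - E) : L(T - Dx) L(T - Dy))) = L(T - (Dx + Dy - E + div t - div u))`. -/
theorem km_add (h : IsRRField K F) [Infinite K]
    (hx : 3 * (genusFF K F : ℤ) ≤ Divisor.degree (T - Dx))
    (hy : 3 * (genusFF K F : ℤ) ≤ Divisor.degree (T - Dy))
    (hE : 2 * (genusFF K F : ℤ) ≤ Divisor.degree (T + Dx + Dy - E))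
    {u t : F} (hu : u ≠ 0) (ht : t ≠ 0) :
    colon (colon (mulSpan (T - Dx) (T - Dy)) (dilate u (riemannRochSpace (3 • T - E))))
        (dilate t (riemannRochSpace (2 • T)))
      = riemannRochSpace (T - (Dx + Dy - E + divOf h t - divOf h u)) := by
  rw [km_aux h hx hy hu, colon_dilate h _ (by rw [km_aux_degree]; exact hE) ht]
  congr 1
  rw [two_nsmul]
  abel

/-- **Khuri-Makdisi sum**: if `ℓ(Dx + Dy - E) = 1`, `Dz ≥ 0` is linearly equivalent to
`Dx + Dy - E`, `u ≠ 0` and `t ≠ 0` is in the line `(u • L(2T - E) : L(T - Dx) L(T - Dy))`, then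
`(t • L(2T) : (u • L(3T - E) : L(T - Dx) L(T - Dy))) = L(T - Dz)`. -/
theorem km_sum (h : IsRRField K F) [Infinite K]
    (hx : 3 * (genusFF K F : ℤ) ≤ Divisor.degree (T - Dx))
    (hy : 3 * (genusFF K F : ℤ) ≤ Divisor.degree (T - Dy))
    (hE : 2 * (genusFF K F : ℤ) ≤ Divisor.degree (T + Dx + Dy - E))
    (hell : ell (Dx + Dy - E) = 1)
    {Dz : Divisor K F} (hDz : 0 ≤ Dz) {f : F} (hf : f ≠ 0)
    (hDzf : Dz = Dx + Dy - E + divOf h f)
    {u t : F} (hu : u ≠ 0) (ht : t ≠ 0)
    (htQ : t ∈ colon (mulSpan (T - Dx) (T - Dy)) (dilate u (riemannRochSpace (2 • T - E)))) :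
    colon (colon (mulSpan (T - Dx) (T - Dy)) (dilate u (riemannRochSpace (3 • T - E))))
        (dilate t (riemannRochSpace (2 • T)))
      = riemannRochSpace (T - Dz) := by
  rw [km_add h hx hy hE hu ht]
  have h0 := km_residual_nonneg h hx hy hu ht htQ
  have htu : t * u⁻¹ ≠ 0 := mul_ne_zero ht (inv_ne_zero hu)
  have e : Dx + Dy - E + divOf h t - divOf h u = Dx + Dy - E + divOf h (t * u⁻¹) := by
    rw [divOf_mul h ht (inv_ne_zero hu), divOf_inv]
    abel
  rw [e] at h0 ⊢
  rw [eq_of_effective_of_ell_eq_one h hell h0 hDz htu hf rfl hDzf]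

/-- the dimension of the result of the addition. -/
theorem finrank_km_add (h : IsRRField K F) [Infinite K]
    (hx : 3 * (genusFF K F : ℤ) ≤ Divisor.degree (T - Dx))
    (hy : 3 * (genusFF K F : ℤ) ≤ Divisor.degree (T - Dy))
    (hE : 2 * (genusFF K F : ℤ) ≤ Divisor.degree (T + Dx + Dy - E))
    (hT : 2 * (genusFF K F : ℤ) - 2 < Divisor.degree (T - (Dx + Dy - E)))
    {u t : F} (hu : u ≠ 0) (ht : t ≠ 0) :
    (Module.finrank K
        (colon (colon (mulSpan (T - Dx) (T - Dy)) (dilate u (riemannRochSpace (3 • T - E))))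
          (dilate t (riemannRochSpace (2 • T)))) : ℤ)
      = Divisor.degree (T - (Dx + Dy - E)) + 1 - (genusFF K F : ℤ) := by
  have hd : Divisor.degree (T - (Dx + Dy - E + divOf h t - divOf h u))
      = Divisor.degree (T - (Dx + Dy - E)) := by
    simp only [map_sub, map_add, degree_divOf]
    ring
  rw [km_add h hx hy hE hu ht, finrank_riemannRochSpace h (by rw [hd]; exact hT), hd]

end Add

/-! ### Khuri-Makdisi negation -/

section Neg

variable {T Dx E : Divisor K F}

/-- the product step of the negation: `L(T - Dx) L(T + 2E) = L(2T + 2E - Dx)`. -/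
theorem km_neg_mul (h : IsRRField K F) [Infinite K]
    (hx : 3 * (genusFF K F : ℤ) ≤ Divisor.degree (T - Dx))
    (hE : 3 * (genusFF K F : ℤ) ≤ Divisor.degree (T + 2 • E)) :
    mulSpan (T - Dx) (T + 2 • E) = riemannRochSpace (2 • T + 2 • E - Dx) := by
  rw [mulSpan_eq h hx hE]
  congr 1
  rw [two_nsmul, two_nsmul]
  abel

/-- the line step of the negation: `(L(T - Dx) L(T + 2E) : L(2T)) = L(2E - Dx)`. -/
theorem km_neg_line (h : IsRRField K F) [Infinite K]
    (hx : 3 * (genusFF K F : ℤ) ≤ Divisor.degree (T - Dx))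
    (hE : 3 * (genusFF K F : ℤ) ≤ Divisor.degree (T + 2 • E))
    (hT : 2 * (genusFF K F : ℤ) ≤ Divisor.degree (2 • T)) :
    colon (riemannRochSpace (2 • T)) (mulSpan (T - Dx) (T + 2 • E))
      = riemannRochSpace (2 • E - Dx) := by
  rw [km_neg_mul h hx hE, colon_riemannRochSpace h _ hT]
  congr 1
  abel

/-- the line of the negation lies in the fixed ambient space `L(2E)` when `Dx ≥ 0`. -/
theorem km_neg_line_le (h : IsRRField K F) [Infinite K]
    (hx : 3 * (genusFF K F : ℤ) ≤ Divisor.degree (T - Dx))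
    (hE : 3 * (genusFF K F : ℤ) ≤ Divisor.degree (T + 2 • E))
    (hT : 2 * (genusFF K F : ℤ) ≤ Divisor.degree (2 • T)) (hDx : 0 ≤ Dx) :
    colon (riemannRochSpace (2 • T)) (mulSpan (T - Dx) (T + 2 • E))
      ≤ riemannRochSpace (2 • E) := by
  rw [km_neg_line h hx hE hT]
  exact riemannRochSpace_mono (sub_le_self _ hDx)

theorem finrank_km_neg_line (h : IsRRField K F) [Infinite K]
    (hx : 3 * (genusFF K F : ℤ) ≤ Divisor.degree (T - Dx))
    (hE : 3 * (genusFF K F : ℤ) ≤ Divisor.degree (T + 2 • E))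
    (hT : 2 * (genusFF K F : ℤ) ≤ Divisor.degree (2 • T)) :
    Module.finrank K (colon (riemannRochSpace (2 • T)) (mulSpan (T - Dx) (T + 2 • E)))
      = ell (2 • E - Dx) := by
  rw [km_neg_line h hx hE hT]
  rfl

/-- **Khuri-Makdisi negation over a field**: for `t ≠ 0`,
`(t • L(2T - 2E) : L(T - Dx)) = L(T - (2E - Dx + div t))`. -/
theorem km_neg (h : IsRRField K F) (hx : 2 * (genusFF K F : ℤ) ≤ Divisor.degree (T - Dx))
    {t : F} (ht : t ≠ 0) :
    colon (riemannRochSpace (T - Dx)) (dilate t (riemannRochSpace (2 • T - 2 • E)))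
      = riemannRochSpace (T - (2 • E - Dx + divOf h t)) := by
  rw [colon_dilate h _ hx ht]
  congr 1
  rw [two_nsmul, two_nsmul]
  abel

/-- **Khuri-Makdisi inverse**: if `ℓ(2E - Dx) = 1`, `Dz ≥ 0` is linearly equivalent to
`2E - Dx` and `t ≠ 0` is in the line `(L(T - Dx) L(T + 2E) : L(2T))`, then
`(t • L(2T - 2E) : L(T - Dx)) = L(T - Dz)`. -/
theorem km_neg_sum (h : IsRRField K F) [Infinite K]
    (hx : 3 * (genusFF K F : ℤ) ≤ Divisor.degree (T - Dx))
    (hE : 3 * (genusFF K F : ℤ) ≤ Divisor.degree (T + 2 • E))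
    (hT : 2 * (genusFF K F : ℤ) ≤ Divisor.degree (2 • T))
    (hell : ell (2 • E - Dx) = 1)
    {Dz : Divisor K F} (hDz : 0 ≤ Dz) {f : F} (hf : f ≠ 0)
    (hDzf : Dz = 2 • E - Dx + divOf h f)
    {t : F} (ht : t ≠ 0)
    (htQ : t ∈ colon (riemannRochSpace (2 • T)) (mulSpan (T - Dx) (T + 2 • E))) :
    colon (riemannRochSpace (T - Dx)) (dilate t (riemannRochSpace (2 • T - 2 • E)))
      = riemannRochSpace (T - Dz) := by
  have hg : (0 : ℤ) ≤ (genusFF K F : ℤ) := Int.natCast_nonneg _
  rw [km_neg h (by linarith) ht]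
  rw [km_neg_line h hx hE hT] at htQ
  have h0 : 0 ≤ 2 • E - Dx + divOf h t := by
    have := residual_nonneg h ht htQ
    rwa [add_comm] at this
  rw [eq_of_effective_of_ell_eq_one h hell h0 hDz ht hf rfl hDzf]

end Neg

/-! ### the choice-free form (steps (S1)-(S4) of the R-G blueprint)

`u : ι → F` is a family of generators of `U = L(T - D₁) L(T - D₂)` (for instance the products of
two bases), `X = L(2T - E)`.  The space
`crossSpace X u = {z : ι → X | z α u β = z β u α}` is `{(h u α)_α | h ∈ L(D₁ + D₂ - E)}`, a line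
when `ℓ(D₁ + D₂ - E) = 1`; for `z ≠ 0` in it, `span z = L(2T - D₃ - E)` and
`(span z : L(T - E)) = L(T - D₃)`, `D₃ ≥ 0` the divisor with `D₃ + E ∼ D₁ + D₂`. -/

section Cross

variable {ι : Type*}

/-- the space `{z : ι → X | z α * u β = z β * u α}` of step (S2). -/
def crossSpace (X : Submodule K F) (u : ι → F) : Submodule K (ι → F) where
  carrier := {z | (∀ α, z α ∈ X) ∧ ∀ α β, z α * u β = z β * u α}
  zero_mem' := by
    refine ⟨fun α => X.zero_mem, fun α β => ?_⟩
    simp
  add_mem' := by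
    rintro z z' ⟨hz, hzz⟩ ⟨hz', hzz'⟩
    refine ⟨fun α => X.add_mem (hz α) (hz' α), fun α β => ?_⟩
    simp only [Pi.add_apply, add_mul, hzz α β, hzz' α β]
  smul_mem' := by
    rintro c z ⟨hz, hzz⟩
    refine ⟨fun α => X.smul_mem c (hz α), fun α β => ?_⟩
    simp only [Pi.smul_apply, smul_mul_assoc, hzz α β]

theorem mem_crossSpace {X : Submodule K F} {u : ι → F} {z : ι → F} :
    z ∈ crossSpace X u ↔ (∀ α, z α ∈ X) ∧ ∀ α β, z α * u β = z β * u α :=
  Iff.rfl

/-- the linear map `h ↦ (h u α)_α`. -/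
def crossMap (u : ι → F) : F →ₗ[K] (ι → F) where
  toFun h := fun α => h * u α
  map_add' a b := by
    funext α
    simp [add_mul]
  map_smul' c a := by
    funext α
    simp

@[simp]
theorem crossMap_apply (u : ι → F) (h : F) (α : ι) : crossMap (K := K) u h α = h * u α := rfl

theorem crossMap_injective {u : ι → F} (hu : ∃ β, u β ≠ 0) :
    Function.Injective (crossMap (K := K) u) := by
  obtain ⟨β, hβ⟩ := hu
  intro a b hab
  have := congrFun hab β
  simp only [crossMap_apply] at this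
  exact mul_right_cancel₀ hβ this

theorem crossMap_mem {X : Submodule K F} {u : ι → F} {h : F}
    (hh : h ∈ colon (Submodule.span K (Set.range u)) X) : crossMap (K := K) u h ∈ crossSpace X u := by
  refine ⟨fun α => hh _ (Submodule.subset_span ⟨α, rfl⟩), fun α β => ?_⟩
  simp only [crossMap_apply]
  ring

/-- step (S2), pure algebra: the cross space is the image of the transporter `(X : span u)`. -/
theorem crossSpace_eq_map {X : Submodule K F} {u : ι → F} (hu : ∃ β, u β ≠ 0) :
    crossSpace X u = (colon (Submodule.span K (Set.range u)) X).map (crossMap u) := by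
  obtain ⟨β, hβ⟩ := hu
  apply le_antisymm
  · rintro z ⟨hz, hzz⟩
    refine ⟨z β * (u β)⁻¹, ?_, ?_⟩
    · rw [SetLike.mem_coe, mem_colon_span]
      rintro w ⟨α, rfl⟩
      have : z β * (u β)⁻¹ * u α = z α := by
        rw [mul_right_comm, ← hzz α β, mul_assoc, mul_inv_cancel₀ hβ, mul_one]
      rw [this]
      exact hz α
    · funext α
      simp only [crossMap_apply]
      rw [mul_right_comm, ← hzz α β, mul_assoc, mul_inv_cancel₀ hβ, mul_one]
  · rintro z ⟨h, hh, rfl⟩
    exact crossMap_mem hh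

/-- the linear isomorphism `(X : span u) ≃ crossSpace X u`, `h ↦ (h u α)_α`. -/
def crossEquiv {X : Submodule K F} {u : ι → F} (hu : ∃ β, u β ≠ 0) :
    colon (Submodule.span K (Set.range u)) X ≃ₗ[K] crossSpace X u :=
  (Submodule.equivMapOfInjective (crossMap u) (crossMap_injective hu) _).trans
    (LinearEquiv.ofEq _ _ (crossSpace_eq_map hu).symm)

theorem crossEquiv_apply {X : Submodule K F} {u : ι → F} (hu : ∃ β, u β ≠ 0)
    (h : colon (Submodule.span K (Set.range u)) X) (α : ι) :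
    (crossEquiv hu h : ι → F) α = (h : F) * u α := rfl

theorem finrank_crossSpace {X : Submodule K F} {u : ι → F} (hu : ∃ β, u β ≠ 0) :
    Module.finrank K (crossSpace X u)
      = Module.finrank K (colon (Submodule.span K (Set.range u)) X) :=
  (crossEquiv hu).finrank_eq.symm

/-- every element of the cross space is `(h u α)_α` for a unique `h` in the transporter. -/
theorem exists_eq_crossMap {X : Submodule K F} {u : ι → F} (hu : ∃ β, u β ≠ 0) {z : ι → F}
    (hz : z ∈ crossSpace X u) :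
    ∃ h ∈ colon (Submodule.span K (Set.range u)) X, z = fun α => h * u α := by
  rw [crossSpace_eq_map hu] at hz
  obtain ⟨h, hh, rfl⟩ := hz
  exact ⟨h, hh, rfl⟩

/-- the span of `(h u α)_α` is `h • span u`. -/
theorem span_range_mul (u : ι → F) (h : F) :
    Submodule.span K (Set.range fun α => h * u α) = dilate h (Submodule.span K (Set.range u)) := by
  unfold dilate
  rw [Submodule.map_span, ← Set.range_comp]
  rfl

/-- `mulSpan A B` is the product of the two subspaces. -/
theorem mulSpan_eq_mul (A B : Divisor K F) :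
    mulSpan A B = riemannRochSpace A * riemannRochSpace B := by
  rw [Submodule.mul_eq_span_mul_set]
  unfold mulSpan
  congr 1
  ext x
  constructor
  · rintro ⟨a, ha, b, hb, rfl⟩
    exact Set.mem_mul.mpr ⟨a, ha, b, hb, rfl⟩
  · intro hx
    obtain ⟨a, ha, b, hb, rfl⟩ := Set.mem_mul.mp hx
    exact ⟨a, ha, b, hb, rfl⟩

/-- products of generators generate `mulSpan`. -/
theorem span_range_mul_eq_mulSpan {ι₁ ι₂ : Type*} {A B : Divisor K F} {w : ι₁ → F} {w' : ι₂ → F}
    (hw : Submodule.span K (Set.range w) = riemannRochSpace A)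
    (hw' : Submodule.span K (Set.range w') = riemannRochSpace B) :
    Submodule.span K (Set.range fun p : ι₁ × ι₂ => w p.1 * w' p.2) = mulSpan A B := by
  rw [mulSpan_eq_mul, ← hw, ← hw', Submodule.span_mul_span]
  congr 1
  ext x
  simp only [Set.mem_range, Prod.exists, Set.mem_mul]
  constructor
  · rintro ⟨a, b, rfl⟩
    exact ⟨w a, ⟨a, rfl⟩, w' b, ⟨b, rfl⟩, rfl⟩
  · rintro ⟨_, ⟨a, rfl⟩, _, ⟨b, rfl⟩, rfl⟩
    exact ⟨a, b, rfl⟩

variable {T D₁ D₂ D₃ E : Divisor K F}

/-- the product space is not zero. -/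
theorem exists_ne_zero_of_span_eq (h : IsRRField K F) [Infinite K]
    (hx : 3 * (genusFF K F : ℤ) ≤ Divisor.degree (T - D₁))
    (hy : 3 * (genusFF K F : ℤ) ≤ Divisor.degree (T - D₂))
    {u : ι → F} (hu : Submodule.span K (Set.range u) = mulSpan (T - D₁) (T - D₂)) :
    ∃ β, u β ≠ 0 := by
  by_contra hcon
  simp only [not_exists, not_not] at hcon
  have h0 : Submodule.span K (Set.range u) = ⊥ := by
    rw [Submodule.span_eq_bot]
    rintro _ ⟨β, rfl⟩
    exact hcon β
  have h1 := finrank_km_mul h hx hy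
  rw [← hu, h0, finrank_bot] at h1
  have h2 := km_mul_degree (K := K) (F := F) hx hy
  have hg : (0 : ℤ) ≤ (genusFF K F : ℤ) := Int.natCast_nonneg _
  push_cast at h1
  linarith

/-- step (S2): the transporter is `L(D₁ + D₂ - E)`. -/
theorem km_colon_free (h : IsRRField K F) [Infinite K]
    (hx : 3 * (genusFF K F : ℤ) ≤ Divisor.degree (T - D₁))
    (hy : 3 * (genusFF K F : ℤ) ≤ Divisor.degree (T - D₂))
    {u : ι → F} (hu : Submodule.span K (Set.range u) = mulSpan (T - D₁) (T - D₂)) :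
    colon (Submodule.span K (Set.range u)) (riemannRochSpace (2 • T - E))
      = riemannRochSpace (D₁ + D₂ - E) := by
  have := km_line h hx hy (E := E) (one_ne_zero (α := F))
  rw [dilate_one, dilate_one] at this
  rw [hu, this]

/-- step (S2): the cross space `Hm` is `{(h u α)_α | h ∈ L(D₁ + D₂ - E)}`. -/
theorem km_cross_eq (h : IsRRField K F) [Infinite K]
    (hx : 3 * (genusFF K F : ℤ) ≤ Divisor.degree (T - D₁))
    (hy : 3 * (genusFF K F : ℤ) ≤ Divisor.degree (T - D₂))
    {u : ι → F} (hu : Submodule.span K (Set.range u) = mulSpan (T - D₁) (T - D₂)) :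
    crossSpace (riemannRochSpace (2 • T - E)) u
      = (riemannRochSpace (D₁ + D₂ - E)).map (crossMap u) := by
  rw [crossSpace_eq_map (exists_ne_zero_of_span_eq h hx hy hu), km_colon_free h hx hy hu]

/-- step (S2): `dim Hm = ℓ(D₁ + D₂ - E)`. -/
theorem finrank_km_cross (h : IsRRField K F) [Infinite K]
    (hx : 3 * (genusFF K F : ℤ) ≤ Divisor.degree (T - D₁))
    (hy : 3 * (genusFF K F : ℤ) ≤ Divisor.degree (T - D₂))
    {u : ι → F} (hu : Submodule.span K (Set.range u) = mulSpan (T - D₁) (T - D₂)) :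
    Module.finrank K (crossSpace (riemannRochSpace (2 • T - E)) u) = ell (D₁ + D₂ - E) := by
  rw [finrank_crossSpace (exists_ne_zero_of_span_eq h hx hy hu), km_colon_free h hx hy hu]
  rfl

/-- `ℓ` only depends on the class: `ℓ(D₃) = ℓ(D₁ + D₂ - E)` if `D₃ = D₁ + D₂ - E + div f`. -/
theorem ell_eq_of_linEquiv (h : IsRRField K F) {f : F} (hf : f ≠ 0)
    (hD₃f : D₃ = D₁ + D₂ - E + divOf h f) : ell D₃ = ell (D₁ + D₂ - E) := by
  rw [hD₃f]
  exact ell_add_divOf h _ hf

/-- step (S2): `dim Hm = 1` when `ℓ(D₃) = 1`. -/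
theorem finrank_km_cross_eq_one (h : IsRRField K F) [Infinite K]
    (hx : 3 * (genusFF K F : ℤ) ≤ Divisor.degree (T - D₁))
    (hy : 3 * (genusFF K F : ℤ) ≤ Divisor.degree (T - D₂))
    (hell : ell D₃ = 1) {f : F} (hf : f ≠ 0) (hD₃f : D₃ = D₁ + D₂ - E + divOf h f)
    {u : ι → F} (hu : Submodule.span K (Set.range u) = mulSpan (T - D₁) (T - D₂)) :
    Module.finrank K (crossSpace (riemannRochSpace (2 • T - E)) u) = 1 := by
  rw [finrank_km_cross h hx hy hu, ← ell_eq_of_linEquiv h hf hD₃f, hell]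

/-- step (S3): for `z ≠ 0` in `Hm`, `span z = L(2T - D₃ - E)`. -/
theorem km_span_cross (h : IsRRField K F) [Infinite K]
    (hx : 3 * (genusFF K F : ℤ) ≤ Divisor.degree (T - D₁))
    (hy : 3 * (genusFF K F : ℤ) ≤ Divisor.degree (T - D₂))
    (hell : ell D₃ = 1) (hD₃ : 0 ≤ D₃) {f : F} (hf : f ≠ 0)
    (hD₃f : D₃ = D₁ + D₂ - E + divOf h f)
    {u : ι → F} (hu : Submodule.span K (Set.range u) = mulSpan (T - D₁) (T - D₂))
    {z : ι → F} (hz : z ∈ crossSpace (riemannRochSpace (2 • T - E)) u) (hz0 : z ≠ 0) :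
    Submodule.span K (Set.range z) = riemannRochSpace (2 • T - D₃ - E) := by
  rw [km_cross_eq h hx hy hu] at hz
  obtain ⟨a, ha, rfl⟩ := hz
  have ha0 : a ≠ 0 := by
    rintro rfl
    exact hz0 (map_zero _)
  have hres : 0 ≤ D₁ + D₂ - E + divOf h a := by
    have := residual_nonneg h ha0 ha
    rwa [add_comm] at this
  have hD : D₁ + D₂ - E + divOf h a = D₃ :=
    eq_of_effective_of_ell_eq_one h (by rw [← ell_eq_of_linEquiv h hf hD₃f]; exact hell)
      hres hD₃ ha0 hf rfl hD₃f
  have e1 : (crossMap (K := K) u a : ι → F) = fun α => a * u α := rfl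
  rw [e1, span_range_mul, hu, km_mul h hx hy, dilate_riemannRochSpace h _ ha0]
  congr 1
  rw [← hD]
  abel

/-- step (S3): the dimension of `Y = span z`. -/
theorem finrank_km_span_cross (h : IsRRField K F) [Infinite K]
    (hx : 3 * (genusFF K F : ℤ) ≤ Divisor.degree (T - D₁))
    (hy : 3 * (genusFF K F : ℤ) ≤ Divisor.degree (T - D₂))
    (hell : ell D₃ = 1) (hD₃ : 0 ≤ D₃) {f : F} (hf : f ≠ 0)
    (hD₃f : D₃ = D₁ + D₂ - E + divOf h f)
    {u : ι → F} (hu : Submodule.span K (Set.range u) = mulSpan (T - D₁) (T - D₂))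
    {z : ι → F} (hz : z ∈ crossSpace (riemannRochSpace (2 • T - E)) u) (hz0 : z ≠ 0) :
    (Module.finrank K (Submodule.span K (Set.range z)) : ℤ)
      = Divisor.degree (2 • T - D₁ - D₂) + 1 - (genusFF K F : ℤ) := by
  have hd : Divisor.degree (2 • T - D₃ - E) = Divisor.degree (2 • T - D₁ - D₂) := by
    rw [hD₃f]
    simp only [map_sub, map_add, degree_divOf]
    ring
  have h2 := km_mul_degree (K := K) (F := F) hx hy
  have hg : (0 : ℤ) ≤ (genusFF K F : ℤ) := Int.natCast_nonneg _
  rw [km_span_cross h hx hy hell hD₃ hf hD₃f hu hz hz0,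
    finrank_riemannRochSpace h (by rw [hd]; linarith), hd]

/-- step (S4): `(L(2T - D₃ - E) : L(T - E)) = L(T - D₃)`. -/
theorem km_colon_final (h : IsRRField K F)
    (hE : 2 * (genusFF K F : ℤ) ≤ Divisor.degree (T - E)) (D : Divisor K F) :
    colon (riemannRochSpace (T - E)) (riemannRochSpace (2 • T - D - E))
      = riemannRochSpace (T - D) := by
  rw [colon_riemannRochSpace h _ hE]
  congr 1
  rw [two_nsmul]
  abel

/-- **pointwise Khuri-Makdisi addition, choice-free** ((S1)-(S4) of the R-G blueprint):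
if `D₃ ≥ 0`, `ℓ(D₃) = 1`, `D₃ + E ∼ D₁ + D₂`, `u` generates `L(T - D₁) L(T - D₂)` and `z ≠ 0`
satisfies `z α ∈ L(2T - E)`, `z α u β = z β u α`, then
`{s | s • L(T - E) ⊆ span z} = L(T - D₃)`. -/
theorem km_sum_cross (h : IsRRField K F) [Infinite K]
    (hx : 3 * (genusFF K F : ℤ) ≤ Divisor.degree (T - D₁))
    (hy : 3 * (genusFF K F : ℤ) ≤ Divisor.degree (T - D₂))
    (hE : 2 * (genusFF K F : ℤ) ≤ Divisor.degree (T - E))
    (hell : ell D₃ = 1) (hD₃ : 0 ≤ D₃) {f : F} (hf : f ≠ 0)
    (hD₃f : D₃ = D₁ + D₂ - E + divOf h f)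
    {u : ι → F} (hu : Submodule.span K (Set.range u) = mulSpan (T - D₁) (T - D₂))
    {z : ι → F} (hz : z ∈ crossSpace (riemannRochSpace (2 • T - E)) u) (hz0 : z ≠ 0) :
    colon (riemannRochSpace (T - E)) (Submodule.span K (Set.range z))
      = riemannRochSpace (T - D₃) := by
  rw [km_span_cross h hx hy hell hD₃ hf hD₃f hu hz hz0, km_colon_final h hE]

/-- the result lies in the ambient space `L(T)`. -/
theorem km_sum_cross_le (h : IsRRField K F) [Infinite K]
    (hx : 3 * (genusFF K F : ℤ) ≤ Divisor.degree (T - D₁))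
    (hy : 3 * (genusFF K F : ℤ) ≤ Divisor.degree (T - D₂))
    (hE : 2 * (genusFF K F : ℤ) ≤ Divisor.degree (T - E))
    (hell : ell D₃ = 1) (hD₃ : 0 ≤ D₃) {f : F} (hf : f ≠ 0)
    (hD₃f : D₃ = D₁ + D₂ - E + divOf h f)
    {u : ι → F} (hu : Submodule.span K (Set.range u) = mulSpan (T - D₁) (T - D₂))
    {z : ι → F} (hz : z ∈ crossSpace (riemannRochSpace (2 • T - E)) u) (hz0 : z ≠ 0) :
    colon (riemannRochSpace (T - E)) (Submodule.span K (Set.range z)) ≤ riemannRochSpace T := by
  rw [km_sum_cross h hx hy hE hell hD₃ hf hD₃f hu hz hz0]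
  exact riemannRochSpace_mono (sub_le_self T hD₃)

/-- the ambient spaces of the steps: `U ⊆ L(2T)` for `D₁, D₂ ≥ 0`. -/
theorem km_mul_le (h : IsRRField K F) [Infinite K]
    (hx : 3 * (genusFF K F : ℤ) ≤ Divisor.degree (T - D₁))
    (hy : 3 * (genusFF K F : ℤ) ≤ Divisor.degree (T - D₂)) (h1 : 0 ≤ D₁) (h2 : 0 ≤ D₂) :
    mulSpan (T - D₁) (T - D₂) ≤ riemannRochSpace (2 • T) := by
  rw [km_mul h hx hy]
  refine riemannRochSpace_mono ?_
  have : 2 • T - D₁ - D₂ = 2 • T - (D₁ + D₂) := by abel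
  rw [this]
  exact sub_le_self _ (add_nonneg h1 h2)

end Cross

end Fermat.Agent.KMField
end
end MergeWrap_Lib_FF_KMField

section MergeWrap_Lib_FF_KMBridge -- from Lib/FF/KMBridge.lean

set_option autoImplicit false

/-!
# FF / S19, route R-G: bridge `KMGood ⇐ KMField` (helper20)

`F / K` a function field (`IsRRField K F`, `K` infinite, any characteristic), `d : KMData K …`
coordinate data of one Khuri-Makdisi step, `c : KMCoord T D₁ D₂ E d` the dictionary:
bases `b₁`, `b₂`, `b₄` of `V1 = L(T)`, `V2 = L(2T)` and of a subspace containing the products of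
`V2`, with structure constants `d.m₁`, `d.m₂`, such that the columns of `d.Γx`, `d.Γy`, `d.E₁`,
`d.E₂` generate `L(T - D₁)`, `L(T - D₂)`, `L(T - E)`, `L(2T - E)`.

`kmGood_of_coord` : if `D₃ ≥ 0`, `ℓ(D₃) = 1`, `D₃ + E ∼ D₁ + D₂` (and the degrees are large) then
`KMGood d ρ I₀` with `ρ = ℓ(2T - D₁ - D₂)`, `r₃ = ℓ(T - D₃)`, for every `I₀` satisfying the chart
condition; moreover `d.W₃` is `L(T - D₃)` in coordinates (`map_W₃`).
-/

noncomputable section

open AlgebraicCurve

namespace Fermat.Agent.KMBridge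

open Fermat.Agent.RR Fermat.Agent.RRMult Fermat.Agent.KMField Fermat.Agent.KMRing

variable {K F : Type*} [Field K] [Field F] [Algebra K F]
variable {n₁ n₂ n₄ rx ry e₁ e₂ : ℕ}

/-- the coordinate map `v ↦ ∑ i, v i • b i`. -/
abbrev coord {n : ℕ} (b : Fin n → F) : (Fin n → K) →ₗ[K] F := Fintype.linearCombination K b

theorem coord_apply {n : ℕ} (b : Fin n → F) (v : Fin n → K) :
    coord (K := K) b v = ∑ i, v i • b i := Fintype.linearCombination_apply K b v

/-- the dictionary between the coordinate data `d` and the function field. -/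
structure KMCoord (T D₁ D₂ E : Divisor K F) (d : KMData K n₁ n₂ n₄ rx ry e₁ e₂) where
  /-- basis of `V1 = L(T)` -/
  b₁ : Fin n₁ → F
  /-- basis of `V2 = L(2T)` -/
  b₂ : Fin n₂ → F
  /-- basis of (a space containing) `V2 · V2` -/
  b₄ : Fin n₄ → F
  li₁ : LinearIndependent K b₁
  li₂ : LinearIndependent K b₂
  li₄ : LinearIndependent K b₄
  span₁ : Submodule.span K (Set.range b₁) = riemannRochSpace T
  span₂ : Submodule.span K (Set.range b₂) = riemannRochSpace (2 • T)
  hm₁ : ∀ i j, b₁ i * b₁ j = ∑ k, d.m₁ i j k • b₂ k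
  hm₂ : ∀ i j, b₂ i * b₂ j = ∑ k, d.m₂ i j k • b₄ k
  hΓx : Submodule.span K (Set.range fun a => coord (K := K) b₁ fun i => d.Γx i a)
    = riemannRochSpace (T - D₁)
  hΓy : Submodule.span K (Set.range fun a => coord (K := K) b₁ fun i => d.Γy i a)
    = riemannRochSpace (T - D₂)
  hE₁ : Submodule.span K (Set.range fun a => coord (K := K) b₁ fun i => d.E₁ i a)
    = riemannRochSpace (T - E)
  hE₂ : Submodule.span K (Set.range fun a => coord (K := K) b₂ fun i => d.E₂ i a)
    = riemannRochSpace (2 • T - E)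

namespace KMCoord

variable {T D₁ D₂ D₃ E : Divisor K F} {d : KMData K n₁ n₂ n₄ rx ry e₁ e₂}
  (c : KMCoord T D₁ D₂ E d)

theorem inj₁ : Function.Injective (coord (K := K) c.b₁) :=
  linearIndependent_iff_injective_fintypeLinearCombination.mp c.li₁

theorem inj₂ : Function.Injective (coord (K := K) c.b₂) :=
  linearIndependent_iff_injective_fintypeLinearCombination.mp c.li₂

theorem inj₄ : Function.Injective (coord (K := K) c.b₄) :=
  linearIndependent_iff_injective_fintypeLinearCombination.mp c.li₄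

theorem range₁ : LinearMap.range (coord (K := K) c.b₁) = riemannRochSpace T := by
  rw [← c.span₁]
  exact Fintype.range_linearCombination K c.b₁

theorem range₂ : LinearMap.range (coord (K := K) c.b₂) = riemannRochSpace (2 • T) := by
  rw [← c.span₂]
  exact Fintype.range_linearCombination K c.b₂

/-- the multiplication `V1 × V1 → V2` in coordinates. -/
theorem coord_mul₁ (v w : Fin n₁ → K) :
    coord (K := K) c.b₂ (d.mul₁ v w) = coord (K := K) c.b₁ v * coord (K := K) c.b₁ w := by
  rw [coord_apply, coord_apply, coord_apply, Finset.sum_mul_sum]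
  simp only [KMData.mul₁_apply, Finset.sum_smul]
  rw [Finset.sum_comm]
  refine Finset.sum_congr rfl fun i _ => ?_
  rw [Finset.sum_comm]
  refine Finset.sum_congr rfl fun j _ => ?_
  rw [smul_mul_smul_comm, c.hm₁ i j, Finset.smul_sum]
  refine Finset.sum_congr rfl fun k _ => ?_
  rw [smul_smul]
  congr 1
  ring

/-- the multiplication `V2 × V2 → V4` in coordinates. -/
theorem coord_mul₂ (v w : Fin n₂ → K) :
    coord (K := K) c.b₄ (d.mul₂ v w) = coord (K := K) c.b₂ v * coord (K := K) c.b₂ w := by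
  rw [coord_apply, coord_apply, coord_apply, Finset.sum_mul_sum]
  simp only [KMData.mul₂_apply, Finset.sum_smul]
  rw [Finset.sum_comm]
  refine Finset.sum_congr rfl fun i _ => ?_
  rw [Finset.sum_comm]
  refine Finset.sum_congr rfl fun j _ => ?_
  rw [smul_mul_smul_comm, c.hm₂ i j, Finset.smul_sum]
  refine Finset.sum_congr rfl fun k _ => ?_
  rw [smul_smul]
  congr 1
  ring

/-- the generators `u α` of `U = L(T - D₁) L(T - D₂)` in the function field. -/
def uF (α : Fin rx × Fin ry) : F := coord (K := K) c.b₂ (d.u α)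

theorem uF_eq (α : Fin rx × Fin ry) :
    c.uF α = (coord (K := K) c.b₁ fun i => d.Γx i α.1) * (coord (K := K) c.b₁ fun i => d.Γy i α.2) :=
  c.coord_mul₁ _ _

theorem span_uF : Submodule.span K (Set.range c.uF) = mulSpan (T - D₁) (T - D₂) := by
  have := span_range_mul_eq_mulSpan (K := K) c.hΓx c.hΓy
  rw [← this]
  congr 1
  ext x
  simp only [Set.mem_range]
  constructor
  · rintro ⟨α, rfl⟩
    exact ⟨α, (c.uF_eq α).symm⟩
  · rintro ⟨α, rfl⟩
    exact ⟨α, c.uF_eq α⟩

/-- the image of the column space of a matrix under the coordinate map. -/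
theorem map_range_mulVecLin {n e : ℕ} (b : Fin n → F) (M : Matrix (Fin n) (Fin e) K) :
    (LinearMap.range M.mulVecLin).map (coord (K := K) b)
      = Submodule.span K (Set.range fun a => coord (K := K) b fun i => M i a) := by
  rw [Matrix.range_mulVecLin, Submodule.map_span, ← Set.range_comp]
  rfl

theorem map_X : d.X.map (coord (K := K) c.b₂) = riemannRochSpace (2 • T - E) := by
  rw [← c.hE₂]
  exact map_range_mulVecLin c.b₂ d.E₂

theorem mem_X_iff (v : Fin n₂ → K) :
    v ∈ d.X ↔ coord (K := K) c.b₂ v ∈ riemannRochSpace (2 • T - E) := by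
  rw [← c.map_X]
  constructor
  · intro hv
    exact Submodule.mem_map_of_mem hv
  · rintro ⟨w, hw, hwv⟩
    rwa [← c.inj₂ hwv]

/-- the coordinate map on families. -/
def coordFam : (Fin rx × Fin ry → Fin n₂ → K) →ₗ[K] (Fin rx × Fin ry → F) where
  toFun z := fun α => coord (K := K) c.b₂ (z α)
  map_add' z z' := by
    funext α
    simp
  map_smul' a z := by
    funext α
    simp

@[simp]
theorem coordFam_apply (z : Fin rx × Fin ry → Fin n₂ → K) (α : Fin rx × Fin ry) :
    c.coordFam z α = coord (K := K) c.b₂ (z α) := rfl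

theorem coordFam_injective : Function.Injective c.coordFam := by
  intro z z' hzz
  funext α
  exact c.inj₂ (congrFun hzz α)

/-- the cross space in coordinates is the cross space of the function field. -/
theorem map_cross :
    d.cross.map c.coordFam = crossSpace (riemannRochSpace (2 • T - E)) c.uF := by
  apply le_antisymm
  · rintro _ ⟨z, hz, rfl⟩
    obtain ⟨hzX, hzz⟩ := hz
    refine ⟨fun α => (c.mem_X_iff (z α)).mp (hzX α), fun α β => ?_⟩
    simp only [coordFam_apply, uF]
    rw [← c.coord_mul₂, ← c.coord_mul₂, hzz α β]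
  · rintro z' ⟨hz'X, hz'z⟩
    have hex : ∀ α, ∃ v : Fin n₂ → K, v ∈ d.X ∧ coord (K := K) c.b₂ v = z' α := by
      intro α
      have := hz'X α
      rw [← c.map_X] at this
      obtain ⟨v, hv, hvz⟩ := this
      exact ⟨v, hv, hvz⟩
    choose z hzX hz using hex
    refine ⟨z, ⟨hzX, fun α β => ?_⟩, ?_⟩
    · apply c.inj₄
      rw [c.coord_mul₂, c.coord_mul₂, hz α, hz β]
      exact hz'z α β
    · funext α
      exact hz α

theorem finrank_cross_eq :
    Module.finrank K d.cross
      = Module.finrank K (crossSpace (riemannRochSpace (2 • T - E)) c.uF) := by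
  rw [← c.map_cross]
  exact (Submodule.equivMapOfInjective c.coordFam c.coordFam_injective d.cross).finrank_eq

/-- `Y` in coordinates: the span of all members of all elements of the cross space. -/
theorem map_Y :
    d.Y.map (coord (K := K) c.b₂)
      = Submodule.span K {v | ∃ z ∈ crossSpace (riemannRochSpace (2 • T - E)) c.uF, ∃ α, v = z α} := by
  unfold KMData.Y
  rw [Submodule.map_span]
  congr 1
  ext v
  constructor
  · rintro ⟨w, ⟨z, hz, α, rfl⟩, rfl⟩
    refine ⟨c.coordFam z, ?_, α, rfl⟩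
    rw [← c.map_cross]
    exact Submodule.mem_map_of_mem hz
  · rintro ⟨z', hz', α, rfl⟩
    rw [← c.map_cross] at hz'
    obtain ⟨z, hz, rfl⟩ := hz'
    exact ⟨z α, ⟨z, hz, α, rfl⟩, rfl⟩

section RR

/-- the Riemann-Roch hypotheses of one Khuri-Makdisi addition step: degrees, `D₃ ≥ 0`,
`ℓ(D₃) = 1` and `D₃ + E ∼ D₁ + D₂`. -/
structure KMHyp (h : IsRRField K F) (T D₁ D₂ D₃ E : Divisor K F) : Prop where
  hx : 3 * (genusFF K F : ℤ) ≤ Divisor.degree (T - D₁)
  hy : 3 * (genusFF K F : ℤ) ≤ Divisor.degree (T - D₂)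
  hE : 2 * (genusFF K F : ℤ) ≤ Divisor.degree (T - E)
  hell : ell D₃ = 1
  hD₃ : 0 ≤ D₃
  equiv : ∃ f : F, f ≠ 0 ∧ D₃ = D₁ + D₂ - E + divOf h f

theorem finrank_cross (c : KMCoord T D₁ D₂ E d) (h : IsRRField K F) [Infinite K]
    (H : KMHyp h T D₁ D₂ D₃ E) :
    Module.finrank K d.cross = 1 := by
  obtain ⟨f, hf, hD₃f⟩ := H.equiv
  rw [c.finrank_cross_eq]
  exact finrank_km_cross_eq_one h H.hx H.hy H.hell hf hD₃f c.span_uF

/-- `Y` is `L(2T - D₃ - E)` in coordinates. -/
theorem map_Y_eq (h : IsRRField K F) [Infinite K] (H : KMHyp h T D₁ D₂ D₃ E) :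
    d.Y.map (coord (K := K) c.b₂) = riemannRochSpace (2 • T - D₃ - E) := by
  obtain ⟨f, hf, hD₃f⟩ := H.equiv
  rw [c.map_Y]
  apply le_antisymm
  · rw [Submodule.span_le]
    rintro v ⟨z, hz, α, rfl⟩
    by_cases hz0 : z = 0
    · rw [hz0]
      exact Submodule.zero_mem _
    · rw [← km_span_cross h H.hx H.hy H.hell H.hD₃ hf hD₃f c.span_uF hz hz0]
      exact Submodule.subset_span ⟨α, rfl⟩
  · -- the cross space is not zero
    have h1 := finrank_km_cross_eq_one h H.hx H.hy H.hell hf hD₃f c.span_uF (E := E)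
    have hne : crossSpace (riemannRochSpace (2 • T - E)) c.uF ≠ ⊥ := by
      intro hbot
      rw [hbot, finrank_bot] at h1
      exact zero_ne_one h1
    obtain ⟨z, hz, hz0⟩ := Submodule.exists_mem_ne_zero_of_ne_bot hne
    rw [← km_span_cross h H.hx H.hy H.hell H.hD₃ hf hD₃f c.span_uF hz hz0, Submodule.span_le]
    rintro _ ⟨α, rfl⟩
    exact Submodule.subset_span ⟨z, hz, α, rfl⟩

theorem finrank_Y (c : KMCoord T D₁ D₂ E d) (h : IsRRField K F) [Infinite K]
    (H : KMHyp h T D₁ D₂ D₃ E) :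
    (Module.finrank K d.Y : ℤ)
      = Divisor.degree (2 • T - D₁ - D₂) + 1 - (genusFF K F : ℤ) := by
  obtain ⟨f, hf, hD₃f⟩ := H.equiv
  have e := (Submodule.equivMapOfInjective (coord (K := K) c.b₂) c.inj₂ d.Y).finrank_eq
  rw [e, c.map_Y_eq h H]
  have hd : Divisor.degree (2 • T - D₃ - E) = Divisor.degree (2 • T - D₁ - D₂) := by
    rw [hD₃f]
    simp only [map_sub, map_add, degree_divOf]
    ring
  have h2 := km_mul_degree (K := K) (F := F) H.hx H.hy
  have hg : (0 : ℤ) ≤ (genusFF K F : ℤ) := Int.natCast_nonneg _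
  rw [finrank_riemannRochSpace h (by rw [hd]; linarith), hd]

theorem mem_Y_iff (h : IsRRField K F) [Infinite K] (H : KMHyp h T D₁ D₂ D₃ E)
    (v : Fin n₂ → K) :
    v ∈ d.Y ↔ coord (K := K) c.b₂ v ∈ riemannRochSpace (2 • T - D₃ - E) := by
  rw [← c.map_Y_eq h H]
  constructor
  · intro hv
    exact Submodule.mem_map_of_mem hv
  · rintro ⟨w, hw, hwv⟩
    rwa [← c.inj₂ hwv]

/-- membership in `W₃` in the function field. -/
theorem mem_W₃_iff (h : IsRRField K F) [Infinite K] (H : KMHyp h T D₁ D₂ D₃ E)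
    (s : Fin n₁ → K) :
    s ∈ d.W₃ ↔ coord (K := K) c.b₁ s ∈ riemannRochSpace (T - D₃) := by
  rw [← km_colon_final h H.hE D₃, ← c.hE₁, mem_colon_span, KMData.mem_W₃]
  constructor
  · rintro hs _ ⟨i, rfl⟩
    have := (c.mem_Y_iff h H _).mp (hs i)
    rwa [c.coord_mul₁] at this
  · intro hs i
    rw [c.mem_Y_iff h H, c.coord_mul₁]
    exact hs _ ⟨i, rfl⟩

/-- `W₃` is `L(T - D₃)` in coordinates. -/
theorem map_W₃ (h : IsRRField K F) [Infinite K] (H : KMHyp h T D₁ D₂ D₃ E) :
    d.W₃.map (coord (K := K) c.b₁) = riemannRochSpace (T - D₃) := by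
  apply le_antisymm
  · rintro _ ⟨s, hs, rfl⟩
    exact (c.mem_W₃_iff h H s).mp hs
  · intro y hy
    have hyT : y ∈ LinearMap.range (coord (K := K) c.b₁) := by
      rw [c.range₁]
      exact riemannRochSpace_mono (sub_le_self T H.hD₃) hy
    obtain ⟨s, rfl⟩ := hyT
    exact Submodule.mem_map_of_mem ((c.mem_W₃_iff h H s).mpr hy)

theorem finrank_W₃ (c : KMCoord T D₁ D₂ E d) (h : IsRRField K F) [Infinite K]
    (H : KMHyp h T D₁ D₂ D₃ E)
    (hT : 2 * (genusFF K F : ℤ) - 2 < Divisor.degree (T - D₃)) :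
    (Module.finrank K d.W₃ : ℤ) = Divisor.degree (T - D₃) + 1 - (genusFF K F : ℤ) := by
  have e := (Submodule.equivMapOfInjective (coord (K := K) c.b₁) c.inj₁ d.W₃).finrank_eq
  rw [e, c.map_W₃ h H, finrank_riemannRochSpace h hT]

/-- **the bridge**: the pointwise rank statements `KMGood` from Riemann-Roch. -/
theorem kmGood (c : KMCoord T D₁ D₂ E d) (h : IsRRField K F) [Infinite K]
    (H : KMHyp h T D₁ D₂ D₃ E)
    (hT : 2 * (genusFF K F : ℤ) - 2 < Divisor.degree (T - D₃))
    {ρ r₃ : ℕ} (hρ : (ρ : ℤ) = Divisor.degree (2 • T - D₁ - D₂) + 1 - (genusFF K F : ℤ))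
    (hr₃ : (r₃ : ℤ) = Divisor.degree (T - D₃) + 1 - (genusFF K F : ℤ))
    (I₀ : Fin r₃ → Fin n₁)
    (hchart : ∀ s : Fin n₁ → K, coord (K := K) c.b₁ s ∈ riemannRochSpace (T - D₃) →
      (∀ i, s (I₀ i) = 0) → s = 0) :
    KMGood d ρ I₀ where
  finrank_cross := c.finrank_cross h H
  finrank_Y := by
    have := c.finrank_Y h H
    omega
  finrank_W₃ := by
    have := c.finrank_W₃ h H hT
    omega
  chart := fun s hs hs0 => hchart s ((c.mem_W₃_iff h H s).mp hs) hs0

/-- the chart condition from a complement: if the basis vectors `b₁ j`, `j ∉ range I₀`, lie in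
a subspace `C` with `L(T - D₃) ⊓ C = ⊥`, the chart condition holds. -/
theorem chart_of_inf_eq_bot {r₃ : ℕ} (I₀ : Fin r₃ → Fin n₁) (C : Submodule K F)
    (hC : ∀ j, j ∉ Set.range I₀ → c.b₁ j ∈ C)
    (hinf : riemannRochSpace (T - D₃) ⊓ C = ⊥) :
    ∀ s : Fin n₁ → K, coord (K := K) c.b₁ s ∈ riemannRochSpace (T - D₃) →
      (∀ i, s (I₀ i) = 0) → s = 0 := by
  intro s hs hs0
  have hmemC : coord (K := K) c.b₁ s ∈ C := by
    rw [coord_apply]
    refine Submodule.sum_mem _ fun j _ => ?_
    by_cases hj : j ∈ Set.range I₀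
    · obtain ⟨i, rfl⟩ := hj
      rw [hs0 i, zero_smul]
      exact C.zero_mem
    · exact C.smul_mem _ (hC j hj)
  have h0 : coord (K := K) c.b₁ s ∈ riemannRochSpace (T - D₃) ⊓ C := ⟨hs, hmemC⟩
  rw [hinf, Submodule.mem_bot] at h0
  exact c.inj₁ (by rw [h0, map_zero])

/-- **the bridge, with the chart `C = L((2g-1) P)`**: `T = M₀ P`, `D₃` good at `P`
(`FFGoodEll.IsGoodDiv`), and the basis vectors `b₁ j`, `j ∉ range I₀`, lie in `L((2g-1) P)`. -/
theorem kmGood_of_isGoodDiv {P : Place K F} {M₀ : ℤ}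
    (c : KMCoord (Finsupp.single P M₀) D₁ D₂ E d) (h : IsRRField K F) [Infinite K]
    (H : KMHyp h (Finsupp.single P M₀) D₁ D₂ D₃ E)
    (hgood : Fermat.Agent.FFGoodEll.IsGoodDiv P D₃)
    (hT : 2 * (genusFF K F : ℤ) - 2 < Divisor.degree (Finsupp.single P M₀ - D₃))
    {ρ r₃ : ℕ}
    (hρ : (ρ : ℤ) = Divisor.degree (2 • Finsupp.single P M₀ - D₁ - D₂) + 1 - (genusFF K F : ℤ))
    (hr₃ : (r₃ : ℤ) = Divisor.degree (Finsupp.single P M₀ - D₃) + 1 - (genusFF K F : ℤ))
    (I₀ : Fin r₃ → Fin n₁)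
    (hC : ∀ j, j ∉ Set.range I₀ →
      c.b₁ j ∈ riemannRochSpace (Finsupp.single P (2 * (genusFF K F : ℤ) - 1))) :
    KMGood d ρ I₀ :=
  c.kmGood h H hT hρ hr₃ I₀
    (c.chart_of_inf_eq_bot I₀ _ hC (hgood.inf_eq_bot h H.hD₃ M₀))

end RR

end KMCoord

end Fermat.Agent.KMBridge
end
end MergeWrap_Lib_FF_KMBridge
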