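import Mathlib
import Fermat.Agent.MUL.Lib.FF.RedGood
import Fermat.Agent.MUL.Lib.FF.KMBridge
import Fermat.Agent.MUL.Lib.FF.GeomEch
import Fermat.Agent.MUL.Lib.FF.GeomDefs
import Fermat.Agent.MUL.Orig.Lib.FF.FormalDefs
import Fermat.Agent.MUL.Orig.Lib.FF.KMIso
import Fermat.Agent.MUL.Lib.FF.GoodEll.Semi

section MergeWrap_Lib_FF_RedKM -- from Lib/FF/RedKM.lean

/-!
# S19 / route R-G, piece G-e (helper12): Khuri-Makdisi on the special fibre

Abstract constant reduction `S : Deuring.ValSetup K F k Fk` with the lattice property, `r` a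
Deuring reduction of places, genus equality.

* `redSpace_colSpan` : the reduction of the column space of an INTEGRAL matrix whose reduced
  columns are linearly independent is the column space of the reduced matrix;
* `linearIndependent_colVec_of_leftInverse` : columns of a matrix with a left inverse are
  independent (for `X τ`, `Lx τ` of `KMGeom`);
* `kmCoordRed` : an integral model `d` (over the valuation ring `S.A`) of the Khuri-Makdisi data of
  `c : KMCoord T D₁ D₂ E (d.map S.A.subtype)` with ORTHONORMAL bases reduces to a dictionary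
  `KMCoord (r_* T) (r_* D₁) (r_* D₂) (r_* E) (d.map S.res)` over the residue field;
* `kmHyp_red` : the Riemann-Roch hypotheses `KMHyp` reduce, if `r_* D₃` is good;
* `kmGood_residue` : **`KMGood (d.map S.res) ρ I₀`** from goodness of `r_* D₃` on the special
  fibre (this is the field `good_cl` of `KMGeom`, `Lib/FF/FormalDefs.lean`).
-/

set_option autoImplicit false

noncomputable section

open AlgebraicCurve Fermat.Agent.RR Fermat.Agent.Deuring Fermat.Agent.FFGoodEll
  Fermat.Agent.KMRing Fermat.Agent.KMBridge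

namespace Fermat.Agent.FF

section LinAlg

variable {R M : Type*} [CommRing R] [AddCommGroup M] [Module R M] {n e : ℕ}

/-- the column space in the notation of `KMBridge`. -/
theorem colSpan_eq_span_coord {K F : Type*} [Field K] [Field F] [Algebra K F]
    (b : Fin n → F) (X : Matrix (Fin n) (Fin e) K) :
    colSpan b X = Submodule.span K (Set.range fun a => coord (K := K) b fun i => X i a) := by
  unfold colSpan
  congr 1

/-- the columns of a matrix with a left inverse are linearly independent. -/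
theorem linearIndependent_colVec_of_leftInverse {b : Fin n → M} (hb : LinearIndependent R b)
    (X : Matrix (Fin n) (Fin e) R) (L : Matrix (Fin e) (Fin n) R) (h : L * X = 1) :
    LinearIndependent R (colVec b X) := by
  rw [Fintype.linearIndependent_iff]
  intro v hv a
  rw [sum_smul_colVec] at hv
  have h1 : X.mulVec v = 0 := by
    funext i
    exact Fintype.linearIndependent_iff.mp hb _ hv i
  have h2 : v = L.mulVec (X.mulVec v) := by
    rw [Matrix.mulVec_mulVec, h, Matrix.one_mulVec]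
  rw [h2, h1, Matrix.mulVec_zero]
  rfl

end LinAlg

variable {K F k Fk : Type*} [Field K] [Field F] [Algebra K F]
  [Field k] [Field Fk] [Algebra k Fk]

variable (S : ValSetup K F k Fk)

/-- reduction of a column of an integral matrix. -/
theorem colVec_map_red {n e : ℕ} (b : Fin n → F) (hb : ∀ i, b i ∈ S.Ov)
    (X : Matrix (Fin n) (Fin e) S.A) (a : Fin e) :
    colVec b (X.map S.A.subtype) a ∈ S.Ov ∧
      S.red (colVec b (X.map S.A.subtype) a) =
        colVec (fun i => S.red (b i)) (X.map S.res) a :=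
  red_sum S b hb (fun i => (X i a : K)) (fun i => (X i a).2)

/-- the reduction of the column space of an integral matrix whose reduced columns are linearly
independent. -/
theorem redSpace_colSpan (hL : HasLattice S) {n e : ℕ} (b : Fin n → F)
    (hb : ∀ i, b i ∈ S.Ov) (X : Matrix (Fin n) (Fin e) S.A)
    (hX : LinearIndependent k (colVec (fun i => S.red (b i)) (X.map S.res))) :
    redSpace S (colSpan b (X.map S.A.subtype)) =
      colSpan (fun i => S.red (b i)) (X.map S.res) := by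
  have hfd : FiniteDimensional K (colSpan b (X.map S.A.subtype)) :=
    FiniteDimensional.span_of_finite K (Set.finite_range _)
  have hfd' : FiniteDimensional k (redSpace S (colSpan b (X.map S.A.subtype))) :=
    finiteDimensional_redSpace S hL _
  have hle : colSpan (fun i => S.red (b i)) (X.map S.res) ≤
      redSpace S (colSpan b (X.map S.A.subtype)) := by
    unfold colSpan
    rw [Submodule.span_le]
    rintro _ ⟨a, rfl⟩
    rw [← (colVec_map_red S b hb X a).2]
    exact red_mem_redSpace S _ (Submodule.subset_span ⟨a, rfl⟩) (colVec_map_red S b hb X a).1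
  refine (Submodule.eq_of_le_of_finrank_le hle ?_).symm
  rw [finrank_redSpace S hL]
  have h1 : Module.finrank k (colSpan (fun i => S.red (b i)) (X.map S.res)) = e := by
    unfold colSpan
    rw [finrank_span_eq_card hX, Fintype.card_fin]
  rw [h1]
  have h2 := finrank_range_le_card (R := K) (colVec b (X.map S.A.subtype))
  rw [Fintype.card_fin] at h2
  exact h2

/-- the reduced columns of an integral matrix which is in echelon form are independent. -/
theorem linearIndependent_colVec_res_of_echelon {n e : ℕ} {b : Fin n → F}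
    (hli : LinearIndependent k (fun i => S.red (b i))) (X : Matrix (Fin n) (Fin e) S.A)
    (I₀ : Fin e → Fin n) (h : (X.map S.A.subtype).submatrix I₀ id = 1) :
    LinearIndependent k (colVec (fun i => S.red (b i)) (X.map S.res)) := by
  classical
  apply linearIndependent_colVec hli (I₀ := I₀)
  ext i j
  have h1 := congrFun (congrFun h i) j
  simp only [Matrix.submatrix_apply, Matrix.map_apply, id_eq, Matrix.one_apply] at h1 ⊢
  by_cases hij : i = j
  · rw [if_pos hij] at h1 ⊢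
    have h2 : X (I₀ i) j = 1 := Subtype.ext h1
    rw [h2, map_one]
  · rw [if_neg hij] at h1 ⊢
    have h2 : X (I₀ i) j = 0 := Subtype.ext h1
    rw [h2, map_zero]

/-- the reduced columns of an integral matrix with an integral left inverse are independent. -/
theorem linearIndependent_colVec_res_of_leftInverse {n e : ℕ} {b : Fin n → F}
    (hli : LinearIndependent k (fun i => S.red (b i))) (X : Matrix (Fin n) (Fin e) S.A)
    (L : Matrix (Fin e) (Fin n) K) (hL : ∀ a i, L a i ∈ S.A)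
    (h : L * X.map S.A.subtype = 1) :
    LinearIndependent k (colVec (fun i => S.red (b i)) (X.map S.res)) := by
  classical
  set L' : Matrix (Fin e) (Fin n) S.A := Matrix.of fun a i => ⟨L a i, hL a i⟩ with hL'
  have h1 : L' * X = 1 := by
    ext a a'
    have h2 := congrFun (congrFun h a) a'
    rw [Matrix.mul_apply] at h2
    rw [Matrix.mul_apply]
    have h3 : (((∑ j, L' a j * X j a' : S.A)) : K) = ∑ j, L a j * (X.map S.A.subtype) j a' := by
      rw [← ValuationSubring.subtype_apply, map_sum]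
      rfl
    rw [h3, h2]
    by_cases haa : a = a'
    · rw [Matrix.one_apply, Matrix.one_apply, if_pos haa, if_pos haa]
      rfl
    · rw [Matrix.one_apply, Matrix.one_apply, if_neg haa, if_neg haa]
      rfl
  have h4 : L'.map S.res * X.map S.res = 1 := by
    rw [← Matrix.map_mul, h1]
    ext i j
    simp [Matrix.one_apply, apply_ite]
  exact linearIndependent_colVec_of_leftInverse hli _ _ h4

variable {S}
variable {n₁ n₂ n₄ rx ry e₁ e₂ : ℕ}

/-- **Reduction of the Khuri-Makdisi dictionary.** -/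
def kmCoordRed (hL : HasLattice S) {r : Place K F → Place k Fk} (hr : IsReduction S r)
    {T D₁ D₂ E : Divisor K F} (d : KMData S.A n₁ n₂ n₄ rx ry e₁ e₂)
    (c : KMCoord T D₁ D₂ E (d.map S.A.subtype))
    (hb₁ : ∀ i, c.b₁ i ∈ S.Ov) (hli₁ : LinearIndependent k (fun i => S.red (c.b₁ i)))
    (hb₂ : ∀ i, c.b₂ i ∈ S.Ov) (hli₂ : LinearIndependent k (fun i => S.red (c.b₂ i)))
    (hb₄ : ∀ i, c.b₄ i ∈ S.Ov) (hli₄ : LinearIndependent k (fun i => S.red (c.b₄ i)))
    (hT : 2 * (genusFF K F : ℤ) ≤ Divisor.degree T)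
    (hT₂ : 2 * (genusFF K F : ℤ) ≤ Divisor.degree (2 • T))
    (hx : 2 * (genusFF K F : ℤ) ≤ Divisor.degree (T - D₁))
    (hy : 2 * (genusFF K F : ℤ) ≤ Divisor.degree (T - D₂))
    (hE : 2 * (genusFF K F : ℤ) ≤ Divisor.degree (T - E))
    (hE' : 2 * (genusFF K F : ℤ) ≤ Divisor.degree (2 • T - E))
    (hΓx : LinearIndependent k (colVec (fun i => S.red (c.b₁ i)) (d.Γx.map S.res)))
    (hΓy : LinearIndependent k (colVec (fun i => S.red (c.b₁ i)) (d.Γy.map S.res)))
    (hE₁ : LinearIndependent k (colVec (fun i => S.red (c.b₁ i)) (d.E₁.map S.res)))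
    (hE₂ : LinearIndependent k (colVec (fun i => S.red (c.b₂ i)) (d.E₂.map S.res)))
    {T' : Divisor k Fk} (hT' : redDiv r T = T') :
    KMCoord T' (redDiv r D₁) (redDiv r D₂) (redDiv r E) (d.map S.res) where
  b₁ := fun i => S.red (c.b₁ i)
  b₂ := fun i => S.red (c.b₂ i)
  b₄ := fun i => S.red (c.b₄ i)
  li₁ := hli₁
  li₂ := hli₂
  li₄ := hli₄
  span₁ := by
    rw [← redSpace_span S c.b₁ hb₁ hli₁, c.span₁, hr.redSpace_eq hT, hT']
  span₂ := by
    rw [← redSpace_span S c.b₂ hb₂ hli₂, c.span₂, hr.redSpace_eq hT₂, map_nsmul, hT']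
  hm₁ := fun i j => by
    have h1 := c.hm₁ i j
    have h2 := red_sum S c.b₂ hb₂ (fun l => ((d.m₁ i j l : S.A) : K)) (fun l => (d.m₁ i j l).2)
    rw [← S.red_mul (hb₁ i) (hb₁ j), h1]
    exact h2.2
  hm₂ := fun i j => by
    have h1 := c.hm₂ i j
    have h2 := red_sum S c.b₄ hb₄ (fun l => ((d.m₂ i j l : S.A) : K)) (fun l => (d.m₂ i j l).2)
    rw [← S.red_mul (hb₂ i) (hb₂ j), h1]
    exact h2.2
  hΓx := by
    have h1 := c.hΓx
    rw [← colSpan_eq_span_coord] at h1
    rw [← colSpan_eq_span_coord]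
    show colSpan (fun i => S.red (c.b₁ i)) (d.Γx.map S.res) = _
    rw [← redSpace_colSpan S hL c.b₁ hb₁ d.Γx hΓx]
    show redSpace S (colSpan c.b₁ (d.map S.A.subtype).Γx) = _
    rw [h1, hr.redSpace_eq hx, map_sub, hT']
  hΓy := by
    have h1 := c.hΓy
    rw [← colSpan_eq_span_coord] at h1
    rw [← colSpan_eq_span_coord]
    show colSpan (fun i => S.red (c.b₁ i)) (d.Γy.map S.res) = _
    rw [← redSpace_colSpan S hL c.b₁ hb₁ d.Γy hΓy]
    show redSpace S (colSpan c.b₁ (d.map S.A.subtype).Γy) = _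
    rw [h1, hr.redSpace_eq hy, map_sub, hT']
  hE₁ := by
    have h1 := c.hE₁
    rw [← colSpan_eq_span_coord] at h1
    rw [← colSpan_eq_span_coord]
    show colSpan (fun i => S.red (c.b₁ i)) (d.E₁.map S.res) = _
    rw [← redSpace_colSpan S hL c.b₁ hb₁ d.E₁ hE₁]
    show redSpace S (colSpan c.b₁ (d.map S.A.subtype).E₁) = _
    rw [h1, hr.redSpace_eq hE, map_sub, hT']
  hE₂ := by
    have h1 := c.hE₂
    rw [← colSpan_eq_span_coord] at h1
    rw [← colSpan_eq_span_coord]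
    show colSpan (fun i => S.red (c.b₂ i)) (d.E₂.map S.res) = _
    rw [← redSpace_colSpan S hL c.b₂ hb₂ d.E₂ hE₂]
    show redSpace S (colSpan c.b₂ (d.map S.A.subtype).E₂) = _
    rw [h1, hr.redSpace_eq hE', map_sub, map_nsmul, hT']

/-- the Riemann-Roch hypotheses of a Khuri-Makdisi step reduce, if `r_* D₃` has `ℓ = 1`. -/
theorem kmHyp_red {r : Place K F → Place k Fk} (hr : IsReduction S r)
    (hg : genusFF K F = genusFF k Fk) {T D₁ D₂ D₃ E : Divisor K F}
    (H : KMCoord.KMHyp S.hF T D₁ D₂ D₃ E) (hell : ell (redDiv r D₃) = 1) :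
    KMCoord.KMHyp S.hFk (redDiv r T) (redDiv r D₁) (redDiv r D₂) (redDiv r D₃) (redDiv r E) where
  hx := by
    rw [← map_sub, hr.degree_redDiv, ← hg]
    exact H.hx
  hy := by
    rw [← map_sub, hr.degree_redDiv, ← hg]
    exact H.hy
  hE := by
    rw [← map_sub, hr.degree_redDiv, ← hg]
    exact H.hE
  hell := hell
  hD₃ := redDiv_nonneg r H.hD₃
  equiv := by
    obtain ⟨f, hf, hD₃f⟩ := H.equiv
    obtain ⟨c, -, -, hred, hdiv⟩ := hr.redDiv_divOf hf
    refine ⟨_, hred, ?_⟩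
    rw [hD₃f, map_add, map_sub, map_add, hdiv]

/-- **Khuri-Makdisi on the special fibre** (`good_cl` of `KMGeom`): for an integral model `d` of
the data of a dictionary `c` with orthonormal bases, `T = M₀ P`, and `r_* D₃` good for the chart at
`r P`, the reduced data satisfy `KMGood`. -/
theorem kmGood_residue (hL : HasLattice S) [Infinite k] {r : Place K F → Place k Fk}
    (hr : IsReduction S r) (hg : genusFF K F = genusFF k Fk)
    {P : Place K F} {M₀ : ℤ} (hM₀ : 3 * (genusFF K F : ℤ) ≤ M₀)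
    {D₁ D₂ D₃ E : Divisor K F} (d : KMData S.A n₁ n₂ n₄ rx ry e₁ e₂)
    (c : KMCoord (Finsupp.single P M₀) D₁ D₂ E (d.map S.A.subtype))
    (hb₁ : ∀ i, c.b₁ i ∈ S.Ov) (hli₁ : LinearIndependent k (fun i => S.red (c.b₁ i)))
    (hb₂ : ∀ i, c.b₂ i ∈ S.Ov) (hli₂ : LinearIndependent k (fun i => S.red (c.b₂ i)))
    (hb₄ : ∀ i, c.b₄ i ∈ S.Ov) (hli₄ : LinearIndependent k (fun i => S.red (c.b₄ i)))
    (H : KMCoord.KMHyp S.hF (Finsupp.single P M₀) D₁ D₂ D₃ E)
    (hdeg₃ : Divisor.degree D₃ = (genusFF K F : ℤ))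
    (hΓx : LinearIndependent k (colVec (fun i => S.red (c.b₁ i)) (d.Γx.map S.res)))
    (hΓy : LinearIndependent k (colVec (fun i => S.red (c.b₁ i)) (d.Γy.map S.res)))
    (hE₁ : LinearIndependent k (colVec (fun i => S.red (c.b₁ i)) (d.E₁.map S.res)))
    (hE₂ : LinearIndependent k (colVec (fun i => S.red (c.b₂ i)) (d.E₂.map S.res)))
    (hgood : IsGoodDiv (r P) (redDiv r D₃))
    {ρ r₃ : ℕ}
    (hρ : (ρ : ℤ) = Divisor.degree (2 • Finsupp.single P M₀ - D₁ - D₂) + 1
      - (genusFF K F : ℤ))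
    (hr₃ : (r₃ : ℤ) = Divisor.degree (Finsupp.single P M₀ - D₃) + 1 - (genusFF K F : ℤ))
    (I₀ : Fin r₃ → Fin n₁)
    (hC : ∀ j, j ∉ Set.range I₀ →
      c.b₁ j ∈ riemannRochSpace (Finsupp.single P (2 * (genusFF K F : ℤ) - 1))) :
    KMGood (d.map S.res) ρ I₀ := by
  have hg0 : (0 : ℤ) ≤ (genusFF K F : ℤ) := Int.natCast_nonneg _
  have hdT : Divisor.degree (Finsupp.single P M₀) = M₀ := degree_single_one S.hF P M₀
  have hx := H.hx
  have hy := H.hy
  have hE := H.hE
  have hT : 2 * (genusFF K F : ℤ) ≤ Divisor.degree (Finsupp.single P M₀) := by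
    rw [hdT]; omega
  have hT₂ : 2 * (genusFF K F : ℤ) ≤ Divisor.degree (2 • Finsupp.single P M₀) := by
    rw [map_nsmul, hdT]
    simp only [nsmul_eq_mul, Nat.cast_ofNat]
    omega
  have hE' : 2 * (genusFF K F : ℤ) ≤ Divisor.degree (2 • Finsupp.single P M₀ - E) := by
    have e1 : 2 • Finsupp.single P M₀ - E = Finsupp.single P M₀ + (Finsupp.single P M₀ - E) := by
      rw [two_nsmul]; abel
    rw [e1, map_add, hdT]
    omega
  have hx2 : 2 * (genusFF K F : ℤ) ≤ Divisor.degree (Finsupp.single P M₀ - D₁) := by omega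
  have hy2 : 2 * (genusFF K F : ℤ) ≤ Divisor.degree (Finsupp.single P M₀ - D₂) := by omega
  have hdeg₃' : Divisor.degree (redDiv r D₃) = (genusFF k Fk : ℤ) := by
    rw [hr.degree_redDiv, hdeg₃, hg]
  have Hred := kmHyp_red hr hg H (hgood.ell_eq_one S.hFk hdeg₃')
  rw [redDiv_single] at Hred
  have hd3 : Divisor.degree (Finsupp.single (r P) M₀ - redDiv r D₃) =
      Divisor.degree (Finsupp.single P M₀ - D₃) := by
    rw [← redDiv_single, ← map_sub, hr.degree_redDiv]
  have hd12 : Divisor.degree (2 • Finsupp.single (r P) M₀ - redDiv r D₁ - redDiv r D₂) =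
      Divisor.degree (2 • Finsupp.single P M₀ - D₁ - D₂) := by
    rw [← redDiv_single, ← map_nsmul, ← map_sub, ← map_sub, hr.degree_redDiv]
  have hd3' : Divisor.degree (Finsupp.single P M₀ - D₃) = M₀ - (genusFF K F : ℤ) := by
    rw [map_sub, hdT, hdeg₃]
  refine KMCoord.kmGood_of_isGoodDiv
    (kmCoordRed hL hr d c hb₁ hli₁ hb₂ hli₂ hb₄ hli₄ hT hT₂ hx2 hy2 hE hE' hΓx hΓy hE₁ hE₂
      (redDiv_single r P M₀)) S.hFk Hred hgood ?_ ?_ ?_ I₀ ?_
  · rw [hd3, hd3', ← hg]
    omega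
  · rw [hd12, ← hg]
    exact hρ
  · rw [hd3, ← hg]
    exact hr₃
  · intro j hj
    have h1 := hr.red_mem (hC j hj) (hb₁ j)
    rw [redDiv_single, hg] at h1
    exact h1

end Fermat.Agent.FF
end
end MergeWrap_Lib_FF_RedKM

section MergeWrap_Lib_FF_GeomCl -- from Lib/FF/GeomCl.lean

/-!
# S19 / route R-G, piece G-e (helper12): `good_cl` — Khuri-Makdisi on the special fibre

Wiring of `Lib/FF/RedKM.lean` (`kmGood_residue`) into the echelon coordinates of
`Lib/FF/GeomEch.lean` (`EchData`, helper93).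

* `cl_kmHyp` : the Riemann-Roch hypotheses `KMHyp` of the step `(x, y) ↦ x + y`
  for the divisors `D τ x`, `D τ y`, `D τ (x + y)`, `E τ` of an `EchData`;
* `cl_kmCoord` : the dictionary `KMCoord` in characteristic `0`;
* `EchData.good_cl` : for a constant reduction `S` with Deuring reduction `r`, orthonormal bases,
  and goodness of the REDUCED divisors `r_* (D τ w)`: for every INTEGRAL model `d` (over `S.A`) of
  the Khuri-Makdisi data at `(τ, x, y)`, `KMGood (d.map S.res) ρ I₁`;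
* `EchData.isGoodDiv_red_D` : the goodness hypothesis in the form of `GoodFibres.good`;
* `EchData.good_cl_geomSetup` : the same for `𝒮 : GeomSetup p F Fk A₀`, with `d : KMData A₀ ..`
  and the residue map of `A₀` — this is literally the field `good_cl` of `KMGeom`.
-/

set_option autoImplicit false

noncomputable section

open AlgebraicCurve Fermat.Agent.RR Fermat.Agent.Deuring Fermat.Agent.FFGoodEll
  Fermat.Agent.KMRing Fermat.Agent.KMBridge Fermat.Agent.FF Fermat.Agent.FFGal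

namespace Fermat.Agent.FFGeom

variable {G K F W T : Type} [Group G] [Field K] [Field F] [Algebra K F] [AddCommGroup W]

theorem two_nsmul_single (P : Place K F) (n : ℤ) :
    2 • (Finsupp.single P n : Divisor K F) = Finsupp.single P (2 * n) := by
  rw [two_nsmul, ← Finsupp.single_add, two_mul]

/-- the Riemann-Roch hypotheses of the Khuri-Makdisi step `(x, y) ↦ x + y`. -/
theorem cl_kmHyp (e : EchData G K F W T) (hT₀ : 4 * (genusFF K F : ℤ) ≤ e.T₀) (τ : T)
    (x y : W) :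
    KMCoord.KMHyp e.hF (Finsupp.single e.P e.T₀) (e.D τ x) (e.D τ y) (e.D τ (x + y))
      (e.E τ) where
  hx := by rw [map_sub, degree_single_one e.hF, e.degree_D]; omega
  hy := by rw [map_sub, degree_single_one e.hF, e.degree_D]; omega
  hE := by
    have hg : (0 : ℤ) ≤ (genusFF K F : ℤ) := Int.natCast_nonneg _
    rw [map_sub, degree_single_one e.hF, e.E_deg]; omega
  hell := e.ell_D τ (x + y)
  hD₃ := e.D_nonneg τ (x + y)
  equiv := by
    obtain ⟨-, h1, hx⟩ := e.isRepOf_D τ x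
    obtain ⟨-, h2, hy⟩ := e.isRepOf_D τ y
    obtain ⟨-, h3, hxy⟩ := e.isRepOf_D τ (x + y)
    have hprin : ((⟨e.D τ (x + y) - e.E τ, h3⟩ : Divisor.degZero (K := K) (F := F)) -
        (⟨e.D τ x - e.E τ, h1⟩ + ⟨e.D τ y - e.E τ, h2⟩) :
        Divisor.degZero (K := K) (F := F)) ∈
        (Divisor.principal (K := K) (F := F)).addSubgroupOf
          (Divisor.degZero (K := K) (F := F)) := by
      have h0 : Pic0.mk ((⟨e.D τ (x + y) - e.E τ, h3⟩ : Divisor.degZero (K := K) (F := F)) -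
          (⟨e.D τ x - e.E τ, h1⟩ + ⟨e.D τ y - e.E τ, h2⟩)) = 0 := by
        have e' : Pic0.mk ((⟨e.D τ (x + y) - e.E τ, h3⟩ : Divisor.degZero (K := K) (F := F)) -
            (⟨e.D τ x - e.E τ, h1⟩ + ⟨e.D τ y - e.E τ, h2⟩))
            = Pic0.mk ⟨e.D τ (x + y) - e.E τ, h3⟩ -
              (Pic0.mk ⟨e.D τ x - e.E τ, h1⟩ + Pic0.mk ⟨e.D τ y - e.E τ, h2⟩) := rfl
        rw [e', hx, hy, hxy, map_add, sub_self]
      exact (QuotientAddGroup.eq_zero_iff _).mp h0
    rw [AddSubgroup.mem_addSubgroupOf] at hprin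
    obtain ⟨f, hf, hfD⟩ := hprin
    refine ⟨f, hf, ?_⟩
    ext w
    have h4 := hfD w
    have h5 : ((((⟨e.D τ (x + y) - e.E τ, h3⟩ : Divisor.degZero (K := K) (F := F)) -
        (⟨e.D τ x - e.E τ, h1⟩ + ⟨e.D τ y - e.E τ, h2⟩) :
        Divisor.degZero (K := K) (F := F)) : Divisor K F)) w =
        e.D τ (x + y) w - e.E τ w - ((e.D τ x w - e.E τ w) + (e.D τ y w - e.E τ w)) := by
      show ((e.D τ (x + y) - e.E τ) - ((e.D τ x - e.E τ) + (e.D τ y - e.E τ))) w = _
      simp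
    rw [h5] at h4
    simp only [Finsupp.add_apply, Finsupp.sub_apply, divOf_apply]
    omega

/-- the dictionary in characteristic `0` for ANY data `d₀` with the right entries. -/
def cl_kmCoord (e : EchData G K F W T) {n₄ : ℕ} (b₄ : Fin n₄ → F)
    (li₄ : LinearIndependent K b₄)
    (d₀ : KMData K e.n₁ e.n₂ n₄ e.r e.r e.r e.e₂)
    (hm₁ : ∀ i j, e.b₁ i * e.b₁ j = ∑ l, d₀.m₁ i j l • e.b₂ l)
    (hm₂ : ∀ i j, e.b₂ i * e.b₂ j = ∑ l, d₀.m₂ i j l • b₄ l)
    (τ : T) (x y : W) (hΓx : d₀.Γx = e.Γ τ x) (hΓy : d₀.Γy = e.Γ τ y)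
    (hE₁ : d₀.E₁ = e.Γ τ 0) (hE₂ : d₀.E₂ = e.X τ) :
    KMCoord (Finsupp.single e.P e.T₀) (e.D τ x) (e.D τ y) (e.E τ) d₀ where
  b₁ := e.b₁
  b₂ := e.b₂
  b₄ := b₄
  li₁ := e.hb₁
  li₂ := e.hb₂
  li₄ := li₄
  span₁ := e.span₁
  span₂ := by rw [e.span₂, two_nsmul_single]
  hm₁ := hm₁
  hm₂ := hm₂
  hΓx := by rw [← colSpan_eq_span_coord, hΓx]; exact e.colSpan_Γ τ x
  hΓy := by rw [← colSpan_eq_span_coord, hΓy]; exact e.colSpan_Γ τ y
  hE₁ := by rw [← colSpan_eq_span_coord, hE₁]; exact e.colSpan_Γ_zero τ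
  hE₂ := by rw [← colSpan_eq_span_coord, hE₂, e.colSpan_X, two_nsmul_single]

namespace EchData

variable {k Fk : Type*} [Field k] [Field Fk] [Algebra k Fk]

/-- the goodness hypothesis of `good_cl`, from goodness in the form of `GoodFibres.good`
(all divisors `X + E τ`, `X` of degree `0` and class `cls w`). -/
theorem isGoodDiv_red_D (e : EchData G K F W T) (r : Place K F → Place k Fk) (Q : Place k Fk)
    (τ : T) (w : W)
    (h : ∀ (X : Divisor K F) (hX : X ∈ Divisor.degZero (K := K) (F := F)),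
      Pic0.mk ⟨X, hX⟩ = e.cls w → IsGoodDiv Q (redDiv r (X + e.E τ))) :
    IsGoodDiv Q (redDiv r (e.D τ w)) := by
  obtain ⟨-, h0, hx⟩ := e.isRepOf_D τ w
  have := h _ h0 hx
  rwa [sub_add_cancel] at this

/-- **`good_cl`, abstract form.** -/
theorem good_cl (e : EchData G K F W T) (S : ValSetup K F k Fk) (hL : HasLattice S)
    [Infinite k] {r : Place K F → Place k Fk} (hr : IsReduction S r)
    (hg : genusFF K F = genusFF k Fk)
    (int₁ : ∀ i, e.b₁ i ∈ S.Ov) (red₁ : LinearIndependent k fun i => S.red (e.b₁ i))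
    (int₂ : ∀ i, e.b₂ i ∈ S.Ov) (red₂ : LinearIndependent k fun i => S.red (e.b₂ i))
    {n₄ : ℕ} (b₄ : Fin n₄ → F) (li₄ : LinearIndependent K b₄)
    (int₄ : ∀ i, b₄ i ∈ S.Ov) (red₄ : LinearIndependent k fun i => S.red (b₄ i))
    (hT₀ : 4 * (genusFF K F : ℤ) ≤ e.T₀)
    (hgood : ∀ τ w, IsGoodDiv (r e.P) (redDiv r (e.D τ w)))
    {ρ : ℕ} (hρ : (ρ : ℤ) = 2 * e.T₀ + 1 - 3 * (genusFF K F : ℤ))
    (τ : T) (x y : W) (d : KMData S.A e.n₁ e.n₂ n₄ e.r e.r e.r e.e₂)
    (hm₁ : ∀ i j, e.b₁ i * e.b₁ j = ∑ l, ((d.m₁ i j l : S.A) : K) • e.b₂ l)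
    (hm₂ : ∀ i j, e.b₂ i * e.b₂ j = ∑ l, ((d.m₂ i j l : S.A) : K) • b₄ l)
    (hΓx : d.Γx.map S.A.subtype = e.Γ τ x) (hΓy : d.Γy.map S.A.subtype = e.Γ τ y)
    (hE₁ : d.E₁.map S.A.subtype = e.Γ τ 0) (hE₂ : d.E₂.map S.A.subtype = e.X τ) :
    KMGood (d.map S.res) ρ e.I₁ := by
  have hg0 : (0 : ℤ) ≤ (genusFF K F : ℤ) := Int.natCast_nonneg _
  have hdT : Divisor.degree (Finsupp.single e.P e.T₀) = e.T₀ := degree_single_one e.hF e.P e.T₀
  refine kmGood_residue hL hr hg (P := e.P) (M₀ := e.T₀) (by omega) d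
    (cl_kmCoord e b₄ li₄ (d.map S.A.subtype) hm₁ hm₂ τ x y hΓx hΓy hE₁ hE₂)
    int₁ red₁ int₂ red₂ int₄ red₄ (cl_kmHyp e hT₀ τ x y) (e.degree_D τ (x + y))
    ?_ ?_ ?_ ?_ (hgood τ (x + y)) ?_ ?_ e.I₁ ?_
  · exact linearIndependent_colVec_res_of_echelon S red₁ d.Γx e.I₁ (by rw [hΓx]; exact e.Γ_ech τ x)
  · exact linearIndependent_colVec_res_of_echelon S red₁ d.Γy e.I₁ (by rw [hΓy]; exact e.Γ_ech τ y)
  · exact linearIndependent_colVec_res_of_echelon S red₁ d.E₁ e.I₁ (by rw [hE₁]; exact e.Γ_ech τ 0)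
  · exact linearIndependent_colVec_res_of_echelon S red₂ d.E₂ e.I₂ (by rw [hE₂]; exact e.X_ech τ)
  · rw [hρ, map_sub, map_sub, map_nsmul, hdT, e.degree_D, e.degree_D]
    simp only [nsmul_eq_mul, Nat.cast_ofNat]
    ring
  · rw [map_sub, hdT, e.degree_D]
    have := e.hr
    omega
  · intro j hj
    have h1 : e.b₁ j ∈ chartSpan K e.b₁ e.I₁ := Submodule.subset_span ⟨j, hj, rfl⟩
    rw [e.chart₁] at h1
    exact h1

end EchData

section GeomSetup

local notation "Kb" => AlgebraicClosure ℚ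

variable {p : ℕ} {F' Fk' : Type} [Field F'] [Algebra Kb F'] {A₀ : ValuationSubring Kb}
  [Field Fk'] [Algebra (IsLocalRing.ResidueField A₀) Fk'] {G' W' T' : Type} [Group G']
  [AddCommGroup W']

/-- the inclusion `A₀ → 𝒮.S.A` (an equality of valuation subrings). -/
def clIncl (𝒮 : GeomSetup p F' Fk' A₀) : A₀ →+* 𝒮.S.A :=
  ValuationSubring.inclusion A₀ 𝒮.S.A (le_of_eq 𝒮.S_A.symm)

theorem subtype_comp_clIncl (𝒮 : GeomSetup p F' Fk' A₀) :
    (𝒮.S.A.subtype).comp (clIncl 𝒮) = A₀.subtype :=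
  RingHom.ext fun _ => rfl

theorem res_comp_clIncl (𝒮 : GeomSetup p F' Fk' A₀) :
    (𝒮.S.res).comp (clIncl 𝒮) = IsLocalRing.residue A₀ :=
  RingHom.ext fun a => 𝒮.S_res a.1 _ a.2

/-- **`good_cl`** in the form of the field `good_cl` of `KMGeom` (`Lib/FF/FormalDefs.lean`):
for every model `d` over `A₀` of the Khuri-Makdisi data at `(τ, x, y)`, the reduction of `d`
modulo the maximal ideal of `A₀` satisfies `KMGood`. -/
theorem EchData.good_cl_geomSetup (𝒮 : GeomSetup p F' Fk' A₀) (e : EchData G' Kb F' W' T')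
    (int₁ : ∀ i, e.b₁ i ∈ 𝒮.S.Ov)
    (red₁ : LinearIndependent (IsLocalRing.ResidueField A₀) fun i => 𝒮.S.red (e.b₁ i))
    (int₂ : ∀ i, e.b₂ i ∈ 𝒮.S.Ov)
    (red₂ : LinearIndependent (IsLocalRing.ResidueField A₀) fun i => 𝒮.S.red (e.b₂ i))
    {n₄ : ℕ} (b₄ : Fin n₄ → F') (li₄ : LinearIndependent Kb b₄)
    (int₄ : ∀ i, b₄ i ∈ 𝒮.S.Ov)
    (red₄ : LinearIndependent (IsLocalRing.ResidueField A₀) fun i => 𝒮.S.red (b₄ i))
    (hT₀ : 4 * (genusFF Kb F' : ℤ) ≤ e.T₀)
    (hgood : ∀ τ w, IsGoodDiv (𝒮.r e.P) (redDiv 𝒮.r (e.D τ w)))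
    {ρ : ℕ} (hρ : (ρ : ℤ) = 2 * e.T₀ + 1 - 3 * (genusFF Kb F' : ℤ))
    (m₁ : Fin e.n₁ → Fin e.n₁ → Fin e.n₂ → Kb) (m₂ : Fin e.n₂ → Fin e.n₂ → Fin n₄ → Kb)
    (hm₁ : ∀ i j, e.b₁ i * e.b₁ j = ∑ l, m₁ i j l • e.b₂ l)
    (hm₂ : ∀ i j, e.b₂ i * e.b₂ j = ∑ l, m₂ i j l • b₄ l)
    (τ : T') (x y : W') (d : KMData A₀ e.n₁ e.n₂ n₄ e.r e.r e.r e.e₂)
    (hd : d.map A₀.subtype = Fermat.Agent.FF.kmDataAt m₁ m₂ (e.Γ τ) (e.X τ) x y) :
    KMGood (d.map (IsLocalRing.residue A₀)) ρ e.I₁ := by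
  haveI := 𝒮.inf_k
  have hd' : (d.map (clIncl 𝒮)).map 𝒮.S.A.subtype =
      Fermat.Agent.FF.kmDataAt m₁ m₂ (e.Γ τ) (e.X τ) x y := by
    rw [KMData.map_map, subtype_comp_clIncl, hd]
  have h1 := e.good_cl 𝒮.S 𝒮.hL 𝒮.hr 𝒮.hg int₁ red₁ int₂ red₂ b₄ li₄ int₄ red₄ hT₀ hgood hρ
    τ x y (d.map (clIncl 𝒮))
    (fun i j => by
      have h2 := congrFun (congrFun (congrArg KMData.m₁ hd') i) j
      have h3 : ∀ l, (((d.map (clIncl 𝒮)).m₁ i j l : 𝒮.S.A) : Kb) = m₁ i j l :=
        fun l => congrFun h2 l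
      simp only [h3]
      exact hm₁ i j)
    (fun i j => by
      have h2 := congrFun (congrFun (congrArg KMData.m₂ hd') i) j
      have h3 : ∀ l, (((d.map (clIncl 𝒮)).m₂ i j l : 𝒮.S.A) : Kb) = m₂ i j l :=
        fun l => congrFun h2 l
      simp only [h3]
      exact hm₂ i j)
    (congrArg KMData.Γx hd') (congrArg KMData.Γy hd') (congrArg KMData.E₁ hd')
    (congrArg KMData.E₂ hd')
  rw [KMData.map_map, res_comp_clIncl] at h1
  exact h1

end GeomSetup

end Fermat.Agent.FFGeom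
end
end MergeWrap_Lib_FF_GeomCl
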