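import Mathlib
import Fermat.Agent.MUL.Lib.FF.GeomEch
import Fermat.Agent.MUL.Lib.FF.GeomDefs
import Fermat.Agent.MUL.Lib.FF.GoodEll.Semi
import Fermat.Agent.MUL.Lib.FF.RedRat.Extend

section MergeWrap_Lib_FF_GeomInst -- from Lib/FF/GeomInst.lean

set_option autoImplicit false
set_option linter.style.haveILetI false

noncomputable section

open AlgebraicCurve GaloisRep Fermat.Agent.RR Fermat.Agent.Deuring Fermat.Agent.FFGoodEll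
  Fermat.Agent.FFGal Fermat.Agent.FF

namespace Fermat.Agent.FFGeom

section General

variable {K F : Type*} [Field K] [Field F] [Algebra K F]

/-- a good divisor `X + E` (`deg X = 0`, `deg E = g`) has an effective good representative. -/
theorem exists_isRepOf_of_isGoodDiv (h : IsRRField K F) {P : Place K F} {x : Pic0 K F}
    {E X : Divisor K F} (hX : X ∈ Divisor.degZero (K := K) (F := F))
    (hx : Pic0.mk ⟨X, hX⟩ = x) (hE : Divisor.degree E = (genusFF K F : ℤ))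
    (hgood : IsGoodDiv P (X + E)) : ∃ D : Divisor K F, IsRepOf x E D ∧ IsGoodDiv P D := by
  have hdeg : Divisor.degree (X + E) = (genusFF K F : ℤ) := by
    rw [map_add, Divisor.mem_degZero.mp hX, hE, zero_add]
  have hell := hgood.ell_eq_one h hdeg
  have hfin := finite_riemannRochSpace h (X + E)
  have hne : riemannRochSpace (X + E) ≠ ⊥ := by
    intro hbot
    unfold ell at hell
    rw [hbot, finrank_bot] at hell
    exact zero_ne_one hell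
  obtain ⟨f, hfmem, hf0⟩ := (Submodule.ne_bot_iff _).mp hne
  have hle := (mem_riemannRochSpace_iff_le h hf0).mp hfmem
  refine ⟨X + E + divOf h f, ⟨?_, ?_, ?_⟩, hgood.add_divOf h hf0⟩
  · rw [Finsupp.le_def] at hle ⊢
    intro v
    have := hle v
    rw [Finsupp.neg_apply] at this
    rw [Finsupp.add_apply, Finsupp.zero_apply]
    omega
  · rw [Divisor.mem_degZero, map_sub, map_add, hdeg, degree_divOf, hE]
    ring
  · rw [← hx]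
    refine (QuotientAddGroup.eq).mpr ?_
    rw [AddSubgroup.mem_addSubgroupOf]
    refine ⟨f⁻¹, inv_ne_zero hf0, fun v => ?_⟩
    show (-(X + E + divOf h f - E) + X) v = v.ord f⁻¹
    rw [v.ord_inv]
    simp only [Finsupp.add_apply, Finsupp.neg_apply, Finsupp.sub_apply, divOf_apply]
    ring

end General

local notation "Kb" => AlgebraicClosure ℚ
local notation "GK" => (AlgebraicClosure ℚ ≃ₐ[ℚ] AlgebraicClosure ℚ)

variable {p : ℕ} {F Fk : Type} [Field F] [Algebra Kb F] {A₀ : ValuationSubring Kb} [Field Fk]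
  [Algebra (IsLocalRing.ResidueField A₀) Fk]

/-- `baseAut (gal σ) = σ`. -/
theorem baseAut_gal (𝒮 : GeomSetup p F Fk A₀) (σ : GK) (c : Kb) :
    SemilinearAut.baseAut (𝒮.gal σ) c = σ c := by
  have h1 := 𝒮.gal_base σ c
  rw [SemilinearAut.smul_algebraMap] at h1
  exact (algebraMap Kb F).injective h1

section Fibres

variable {𝒮 : GeomSetup p F Fk A₀} {W : Type} [AddCommGroup W] {ι : W →+ Pic0 Kb F} {g : ℕ}

/-- the Galois action on the tower `Fib i`. -/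
def fibPerm (𝔉 : GoodFibres 𝒮 ι g) (i : Fin g) (σ : GK) (P : ↥(𝔉.Fib i)) : ↥(𝔉.Fib i) :=
  ⟨𝒮.gal σ • P.1, 𝔉.stable i σ P.1 P.2⟩

@[simp]
theorem coe_fibPerm (𝔉 : GoodFibres 𝒮 ι g) (i : Fin g) (σ : GK) (P : ↥(𝔉.Fib i)) :
    ((fibPerm 𝔉 i σ P : ↥(𝔉.Fib i)) : Place Kb F) = 𝒮.gal σ • (P : Place Kb F) := rfl

/-- the divisor `E_τ` of a tuple. -/
def tupDiv (𝔉 : GoodFibres 𝒮 ι g) (τ : ∀ i : Fin g, ↥(𝔉.Fib i)) : Divisor Kb F :=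
  sumTuple fun i => ((τ i : ↥(𝔉.Fib i)) : Place Kb F)

theorem tupDiv_perm (𝔉 : GoodFibres 𝒮 ι g) (σ : GK) (τ : ∀ i : Fin g, ↥(𝔉.Fib i)) :
    tupDiv 𝔉 (fun i => fibPerm 𝔉 i σ (τ i)) = 𝒮.gal σ • tupDiv 𝔉 τ := by
  unfold tupDiv
  rw [smul_sumTuple]
  rfl

/-- goodness in characteristic `0` of every tuple, by semicontinuity. -/
theorem isGoodDiv_add_tupDiv (𝔉 : GoodFibres 𝒮 ι g) (τ : ∀ i : Fin g, ↥(𝔉.Fib i)) (w : W)
    (X : Divisor Kb F) (hX : X ∈ Divisor.degZero (K := Kb) (F := F))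
    (hXw : Pic0.mk ⟨X, hX⟩ = ι w) : IsGoodDiv 𝒮.oo (X + tupDiv 𝔉 τ) := by
  have h1 := 𝔉.good (fun i => ((τ i : ↥(𝔉.Fib i)) : Place Kb F)) (fun i => (τ i).2) w X hX hXw
  rw [redDiv_apply] at h1
  exact IsGoodDiv.of_reduction 𝒮.S 𝒮.hL 𝒮.hr.push 𝒮.hg h1

/-- existence of the effective good representative `D_w^τ`. -/
theorem exists_isRepOf_tupDiv (𝔉 : GoodFibres 𝒮 ι g) (hg : g = genusFF Kb F)
    (τ : ∀ i : Fin g, ↥(𝔉.Fib i)) (w : W) :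
    ∃ D : Divisor Kb F, IsRepOf (ι w) (tupDiv 𝔉 τ) D ∧ IsGoodDiv 𝒮.oo D := by
  obtain ⟨⟨X, hX⟩, hXw⟩ := Pic0.mk_surjective (ι w)
  refine exists_isRepOf_of_isGoodDiv 𝒮.hRR hX hXw ?_ (isGoodDiv_add_tupDiv 𝔉 τ w X hX hXw)
  unfold tupDiv
  rw [degree_sumTuple 𝒮.hRR, hg]

end Fibres

section Inst

variable (𝒮 : GeomSetup p F Fk A₀) {W : Type} [AddCommGroup W] (act : GK → W → W)
  (ι : W →+ Pic0 Kb F) (hιeq : ∀ (σ : GK) (w : W), ι (act σ w) = 𝒮.gal σ • ι w)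
  {g M₀ n₁ n₂ n₄ r₁ r₂ : ℕ} (hg : g = genusFF Kb F) (hM₀ : 4 * g + 2 ≤ M₀)
  (hn₁ : n₁ + g = M₀ + 1) (hn₂ : n₂ + g = 2 * M₀ + 1) (hr₁ : r₁ + g = n₁) (hr₂ : r₂ + g = n₂)
  (B : RatBases 𝒮 M₀ n₁ n₂ n₄ r₁ r₂) (𝔉 : GoodFibres 𝒮 ι g)

/-- **the echelon data of a geometric setup.** -/
def echDataOfGeom : EchData GK Kb F W (∀ i : Fin g, ↥(𝔉.Fib i)) where
  hF := 𝒮.hRR
  P := 𝒮.oo
  T₀ := (M₀ : ℤ)
  hT₀ := by omega
  n₁ := n₁
  n₂ := n₂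
  r := r₁
  e₂ := r₂
  b₁ := B.b₁
  b₂ := B.b₂
  I₁ := B.I₁
  I₂ := B.I₂
  hb₁ := B.li₁
  hb₂ := B.li₂
  span₁ := B.span₁
  span₂ := by
    rw [B.span₂]
    unfold GeomSetup.T
    rw [Finsupp.smul_single]
    congr 2
  chart₁ := B.chart₁
  chart₂ := B.chart₂
  hr := by omega
  he₂ := by omega
  cls := ι
  E := tupDiv 𝔉
  E_nonneg := fun τ => sumTuple_nonneg _
  E_deg := fun τ => by
    unfold tupDiv
    rw [degree_sumTuple 𝒮.hRR, hg]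
  good := fun τ w => exists_isRepOf_tupDiv 𝔉 hg τ w
  gal := 𝒮.gal
  act := act
  perm := fun σ τ i => fibPerm 𝔉 i σ (τ i)
  gal_P := 𝒮.gal_oo
  gal_b₁ := B.fix₁
  gal_b₂ := B.fix₂
  cls_act := hιeq
  E_perm := fun σ τ => tupDiv_perm 𝔉 σ τ

/-- `Γ_equiv` in the shape of `KMGeom`. -/
theorem echDataOfGeom_Γ_equiv (τ : ∀ i : Fin g, ↥(𝔉.Fib i)) (σ : GK) (w : W)
    (i : Fin n₁) (a : Fin r₁) :
    (echDataOfGeom 𝒮 act ι hιeq hg hM₀ hn₁ hn₂ hr₁ hr₂ B 𝔉).Γ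
        (fun i => fibPerm 𝔉 i σ (τ i)) (act σ w) i a =
      σ ((echDataOfGeom 𝒮 act ι hιeq hg hM₀ hn₁ hn₂ hr₁ hr₂ B 𝔉).Γ τ w i a) := by
  have h := (echDataOfGeom 𝒮 act ι hιeq hg hM₀ hn₁ hn₂ hr₁ hr₂ B 𝔉).Γ_equiv_apply σ τ w i a
  rw [← baseAut_gal 𝒮 σ]
  exact h

/-- `X_equiv` in the shape of `KMGeom`. -/
theorem echDataOfGeom_X_equiv (τ : ∀ i : Fin g, ↥(𝔉.Fib i)) (σ : GK)
    (i : Fin n₂) (a : Fin r₂) :
    (echDataOfGeom 𝒮 act ι hιeq hg hM₀ hn₁ hn₂ hr₁ hr₂ B 𝔉).X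
        (fun i => fibPerm 𝔉 i σ (τ i)) i a =
      σ ((echDataOfGeom 𝒮 act ι hιeq hg hM₀ hn₁ hn₂ hr₁ hr₂ B 𝔉).X τ i a) := by
  have h := (echDataOfGeom 𝒮 act ι hιeq hg hM₀ hn₁ hn₂ hr₁ hr₂ B 𝔉).X_equiv_apply σ τ i a
  rw [← baseAut_gal 𝒮 σ]
  exact h

/-- `Lx_equiv` in the shape of `KMGeom`. -/
theorem echDataOfGeom_Lx_equiv (τ : ∀ i : Fin g, ↥(𝔉.Fib i)) (σ : GK)
    (a : Fin r₂) (i : Fin n₂) :
    (echDataOfGeom 𝒮 act ι hιeq hg hM₀ hn₁ hn₂ hr₁ hr₂ B 𝔉).Lx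
        (fun i => fibPerm 𝔉 i σ (τ i)) a i =
      σ ((echDataOfGeom 𝒮 act ι hιeq hg hM₀ hn₁ hn₂ hr₁ hr₂ B 𝔉).Lx τ a i) := by
  have h := (echDataOfGeom 𝒮 act ι hιeq hg hM₀ hn₁ hn₂ hr₁ hr₂ B 𝔉).Lx_equiv_apply σ τ a i
  rw [← baseAut_gal 𝒮 σ]
  exact h

/-- `4 g ≤ T₀`. -/
theorem echDataOfGeom_four_le :
    4 * (genusFF Kb F : ℤ) ≤ (echDataOfGeom 𝒮 act ι hιeq hg hM₀ hn₁ hn₂ hr₁ hr₂ B 𝔉).T₀ := by
  show 4 * (genusFF Kb F : ℤ) ≤ (M₀ : ℤ)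
  rw [← hg]
  omega

/-- the tuples are not empty. -/
theorem nonempty_tuples : Nonempty (∀ i : Fin g, ↥(𝔉.Fib i)) :=
  ⟨fun i => ⟨(𝔉.nonempty i).choose, (𝔉.nonempty i).choose_spec⟩⟩

end Inst

end Fermat.Agent.FFGeom
end
end MergeWrap_Lib_FF_GeomInst
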