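import Mathlib
import Fermat.Agent.MUL.Lib.FF.GeomInst
import Fermat.Agent.MUL.Lib.FF.GeomGood
import Fermat.Agent.MUL.Lib.FF.GeomCl
import Fermat.Agent.MUL.Lib.FF.GeomInt
import Fermat.Agent.MUL.Lib.FF.Formal

section MergeWrap_Lib_FF_GeomAsm -- from Lib/FF/GeomAsm.lean

set_option autoImplicit false
set_option linter.style.haveILetI false

noncomputable section

open AlgebraicCurve GaloisRep Fermat.Agent.RR Fermat.Agent.Deuring Fermat.Agent.FFGoodEll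
  Fermat.Agent.FFGal Fermat.Agent.FF Fermat.Agent.KMRing Fermat.Agent.FlatMod

namespace Fermat.Agent.FFGeom

local notation "Kb" => AlgebraicClosure ℚ
local notation "GK" => (AlgebraicClosure ℚ ≃ₐ[ℚ] AlgebraicClosure ℚ)

variable {p : ℕ} {F Fk : Type} [Field F] [Algebra Kb F] {A₀ : ValuationSubring Kb} [Field Fk]
  [Algebra (IsLocalRing.ResidueField A₀) Fk]

section Act

variable (𝒮 : GeomSetup p F Fk A₀) {W : Type} [AddCommGroup W] (act : GK → W → W)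
  (ι : W →+ Pic0 Kb F) (hι : Function.Injective ι)
  (hιeq : ∀ (σ : GK) (w : W), ι (act σ w) = 𝒮.gal σ • ι w)

include hι hιeq in
theorem act_add_of_inj (σ : GK) (w w' : W) : act σ (w + w') = act σ w + act σ w' := by
  apply hι
  rw [hιeq, map_add, map_add, smul_add, hιeq, hιeq]

include hι hιeq in
theorem act_one_of_inj (w : W) : act 1 w = w := by
  apply hι
  rw [hιeq, map_one, one_smul]

include hι hιeq in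
theorem act_mul_of_inj (σ τ : GK) (w : W) : act (σ * τ) w = act σ (act τ w) := by
  apply hι
  rw [hιeq, hιeq, hιeq, map_mul, mul_smul]

end Act

section Asm

variable (𝒮 : GeomSetup p F Fk A₀) {W : Type} [AddCommGroup W] (act : GK → W → W)
  (ι : W →+ Pic0 Kb F) (hιeq : ∀ (σ : GK) (w : W), ι (act σ w) = 𝒮.gal σ • ι w)
  {g M₀ n₁ n₂ n₄ r₁ r₂ : ℕ} (hg : g = genusFF Kb F) (hM₀ : 4 * g + 2 ≤ M₀)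
  (hn₁ : n₁ + g = M₀ + 1) (hn₂ : n₂ + g = 2 * M₀ + 1) (hr₁ : r₁ + g = n₁) (hr₂ : r₂ + g = n₂)
  (B : RatBases 𝒮 M₀ n₁ n₂ n₄ r₁ r₂) (𝔉 : GoodFibres 𝒮 ι g)

/-- the multiplication table of the rational bases. -/
def mulTableOfGeom :
    (echDataOfGeom 𝒮 act ι hιeq hg hM₀ hn₁ hn₂ hr₁ hr₂ B 𝔉).MulTable n₄ where
  b₄ := B.b₄
  hb₄ := B.li₄
  m₁ := B.m₁
  m₂ := B.m₂
  hm₁ := B.hm₁
  hm₂ := B.hm₂

/-- goodness of the reductions of the divisors `D_w^τ`. -/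
theorem isGoodDiv_red_D_ofGeom (τ : ∀ i : Fin g, ↥(𝔉.Fib i)) (w : W) :
    IsGoodDiv (𝒮.r (echDataOfGeom 𝒮 act ι hιeq hg hM₀ hn₁ hn₂ hr₁ hr₂ B 𝔉).P)
      (redDiv 𝒮.r ((echDataOfGeom 𝒮 act ι hιeq hg hM₀ hn₁ hn₂ hr₁ hr₂ B 𝔉).D τ w)) := by
  refine EchData.isGoodDiv_red_D _ 𝒮.r _ τ w fun X hX hXw => ?_
  exact 𝔉.good (fun i => ((τ i : ↥(𝔉.Fib i)) : Place Kb F)) (fun i => (τ i).2) w X hX hXw

theorem rho_eq :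
    ((2 * M₀ + 1 - 3 * g : ℕ) : ℤ) =
      2 * (echDataOfGeom 𝒮 act ι hιeq hg hM₀ hn₁ hn₂ hr₁ hr₂ B 𝔉).T₀ + 1 -
        3 * (genusFF Kb F : ℤ) := by
  show ((2 * M₀ + 1 - 3 * g : ℕ) : ℤ) = 2 * (M₀ : ℤ) + 1 - 3 * (genusFF Kb F : ℤ)
  rw [← hg]
  omega

/-- **the `KMGeom` of a geometric setup**, given the integrality of `Γ` and `X`. -/
def kmGeomOfGeom (hι : Function.Injective ι)
    (hΓint : ∀ τ w i a, IsIntegral (ratLocalizedAt p)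
      ((echDataOfGeom 𝒮 act ι hιeq hg hM₀ hn₁ hn₂ hr₁ hr₂ B 𝔉).Γ τ w i a))
    (hXint : ∀ τ i a, IsIntegral (ratLocalizedAt p)
      ((echDataOfGeom 𝒮 act ι hιeq hg hM₀ hn₁ hn₂ hr₁ hr₂ B 𝔉).X τ i a)) :
    KMGeom p W act (fun i : Fin g => ↥(𝔉.Fib i)) (fibPerm 𝔉) n₁ n₂ n₄ r₁ r₂ where
  ρ := 2 * M₀ + 1 - 3 * g
  I₀ := B.I₁
  m₁ := B.m₁
  m₂ := B.m₂
  Γ := (echDataOfGeom 𝒮 act ι hιeq hg hM₀ hn₁ hn₂ hr₁ hr₂ B 𝔉).Γ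
  X := (echDataOfGeom 𝒮 act ι hιeq hg hM₀ hn₁ hn₂ hr₁ hr₂ B 𝔉).X
  Lx := (echDataOfGeom 𝒮 act ι hιeq hg hM₀ hn₁ hn₂ hr₁ hr₂ B 𝔉).Lx
  m₁_int := B.m₁_int
  m₂_int := B.m₂_int
  m₁_fix := B.m₁_fix
  m₂_fix := B.m₂_fix
  Γ_int := hΓint
  X_int := hXint
  Lx_int := (echDataOfGeom 𝒮 act ι hιeq hg hM₀ hn₁ hn₂ hr₁ hr₂ B 𝔉).Lx_int (ratLocalizedAt p)
  Lx_mul_X := (echDataOfGeom 𝒮 act ι hιeq hg hM₀ hn₁ hn₂ hr₁ hr₂ B 𝔉).Lx_mul_X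
  Γ_ech := (echDataOfGeom 𝒮 act ι hιeq hg hM₀ hn₁ hn₂ hr₁ hr₂ B 𝔉).Γ_ech
  Γ_equiv := echDataOfGeom_Γ_equiv 𝒮 act ι hιeq hg hM₀ hn₁ hn₂ hr₁ hr₂ B 𝔉
  X_equiv := echDataOfGeom_X_equiv 𝒮 act ι hιeq hg hM₀ hn₁ hn₂ hr₁ hr₂ B 𝔉
  Lx_equiv := echDataOfGeom_Lx_equiv 𝒮 act ι hιeq hg hM₀ hn₁ hn₂ hr₁ hr₂ B 𝔉
  sep := fun w w' h => by
    haveI := nonempty_tuples 𝒮 ι 𝔉
    have h4 := echDataOfGeom_four_le 𝒮 act ι hιeq hg hM₀ hn₁ hn₂ hr₁ hr₂ B 𝔉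
    have hg0 : (0 : ℤ) ≤ (genusFF Kb F : ℤ) := Int.natCast_nonneg _
    exact (echDataOfGeom 𝒮 act ι hιeq hg hM₀ hn₁ hn₂ hr₁ hr₂ B 𝔉).eq_of_Γ_eq (by omega) hι h
  good_gen := fun τ x y =>
    EchData.good_gen (mulTableOfGeom 𝒮 act ι hιeq hg hM₀ hn₁ hn₂ hr₁ hr₂ B 𝔉)
      (echDataOfGeom_four_le 𝒮 act ι hιeq hg hM₀ hn₁ hn₂ hr₁ hr₂ B 𝔉)
      (rho_eq 𝒮 act ι hιeq hg hM₀ hn₁ hn₂ hr₁ hr₂ B 𝔉) τ x y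
  sum_gen := fun τ x y =>
    EchData.sum_gen (mulTableOfGeom 𝒮 act ι hιeq hg hM₀ hn₁ hn₂ hr₁ hr₂ B 𝔉)
      (echDataOfGeom_four_le 𝒮 act ι hιeq hg hM₀ hn₁ hn₂ hr₁ hr₂ B 𝔉) τ x y
  A₀ := A₀
  hA₀ := 𝒮.hA₀
  good_cl := fun τ x y d hd =>
    EchData.good_cl_geomSetup 𝒮 (echDataOfGeom 𝒮 act ι hιeq hg hM₀ hn₁ hn₂ hr₁ hr₂ B 𝔉)
      B.int₁ B.red₁ B.int₂ B.red₂ B.b₄ B.li₄ B.int₄ B.red₄
      (echDataOfGeom_four_le 𝒮 act ι hιeq hg hM₀ hn₁ hn₂ hr₁ hr₂ B 𝔉)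
      (isGoodDiv_red_D_ofGeom 𝒮 act ι hιeq hg hM₀ hn₁ hn₂ hr₁ hr₂ B 𝔉)
      (rho_eq 𝒮 act ι hιeq hg hM₀ hn₁ hn₂ hr₁ hr₂ B 𝔉)
      B.m₁ B.m₂ B.hm₁ B.hm₂ τ x y d hd

/-- **Geometric assembly, modulo the integrality of the echelon matrices** (seat G-c). -/
theorem isFlat_of_geom_of_int [Fact p.Prime] [Finite W] (hι : Function.Injective ι)
    (hΓint : ∀ τ w i a, IsIntegral (ratLocalizedAt p)
      ((echDataOfGeom 𝒮 act ι hιeq hg hM₀ hn₁ hn₂ hr₁ hr₂ B 𝔉).Γ τ w i a))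
    (hXint : ∀ τ i a, IsIntegral (ratLocalizedAt p)
      ((echDataOfGeom 𝒮 act ι hιeq hg hM₀ hn₁ hn₂ hr₁ hr₂ B 𝔉).X τ i a)) :
    IsFlatGaloisModule p W act := by
  haveI : ∀ i : Fin g, Finite ↥(𝔉.Fib i) := fun i => (𝔉.fin i).to_subtype
  haveI : Finite 𝔉.J := 𝔉.finJ
  refine isFlat_of_kmGeom act (act_add_of_inj 𝒮 act ι hι hιeq) (act_one_of_inj 𝒮 act ι hι hιeq)
    (act_mul_of_inj 𝒮 act ι hι hιeq) (fibPerm 𝔉) ?_ ?_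
    (fun i j P => 𝔉.s i j P.1)
    (fun i j P => 𝔉.s_int i j P.1 P.2)
    (fun i j σ P => 𝔉.s_eq i j σ P.1 P.2)
    (kmGeomOfGeom 𝒮 act ι hιeq hg hM₀ hn₁ hn₂ hr₁ hr₂ B 𝔉 hι hΓint hXint)
    (fun i P P' hne => 𝔉.unit i P.1 P'.1 P.2 P'.2 (fun h => hne (Subtype.ext h)))
  · intro i P
    apply Subtype.ext
    show 𝒮.gal 1 • (P : Place Kb F) = P
    rw [map_one, one_smul]
  · intro i σ τ P
    apply Subtype.ext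
    show 𝒮.gal (σ * τ) • (P : Place Kb F) = 𝒮.gal σ • (𝒮.gal τ • (P : Place Kb F))
    rw [map_mul, mul_smul]

include 𝒮 hιeq hg hM₀ hn₁ hn₂ hr₁ hr₂ B 𝔉 in
/-- **Geometric assembly** (seat F2): `GeomSetup + RatBases + GoodFibres ⇒ flat`. -/
theorem isFlat_of_geomSetup [Fact p.Prime] [Finite W] (hι : Function.Injective ι) :
    IsFlatGaloisModule p W act := by
  have hp : p.Prime := Fact.out
  have h4 := echDataOfGeom_four_le 𝒮 act ι hιeq hg hM₀ hn₁ hn₂ hr₁ hr₂ B 𝔉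
  have hg0 : (0 : ℤ) ≤ (genusFF Kb F : ℤ) := Int.natCast_nonneg _
  refine isFlat_of_geom_of_int 𝒮 act ι hιeq hg hM₀ hn₁ hn₂ hr₁ hr₂ B 𝔉 hι ?_ ?_
  · exact EchData.Γ_int hp 𝒮 (echDataOfGeom 𝒮 act ι hιeq hg hM₀ hn₁ hn₂ hr₁ hr₂ B 𝔉)
      (baseAut_gal 𝒮) B.int₁ B.red₁ (by omega)
      (isGoodDiv_red_D_ofGeom 𝒮 act ι hιeq hg hM₀ hn₁ hn₂ hr₁ hr₂ B 𝔉)
  · exact EchData.X_int hp 𝒮 (echDataOfGeom 𝒮 act ι hιeq hg hM₀ hn₁ hn₂ hr₁ hr₂ B 𝔉)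
      (baseAut_gal 𝒮) B.int₂ B.red₂ (by omega)
      (isGoodDiv_red_D_ofGeom 𝒮 act ι hιeq hg hM₀ hn₁ hn₂ hr₁ hr₂ B 𝔉)

end Asm

end Fermat.Agent.FFGeom
end
end MergeWrap_Lib_FF_GeomAsm
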