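import Mathlib
import Fermat.Agent.MUL.Lib.FF.GeomDefs
import Fermat.Agent.MUL.Lib.FF.GalAct
import Fermat.Agent.MUL.Orig.Lib.FF.PlacesQbar
import Fermat.Agent.MUL.Lib.FF.RedRat.Extend
import Fermat.Agent.MUL.Lib.RR.MultGeneral
import Fermat.Agent.MUL.Lib.RR.Weil
import Fermat.Agent.MUL.Lib.FF.Kum.KumDefs

section MergeWrap_Lib_FF_GeomBases -- from Lib/FF/GeomBases.lean

set_option autoImplicit false
set_option linter.style.haveILetI false

noncomputable section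

namespace Fermat.Agent.FF

open AlgebraicCurve GaloisRep Fermat.Agent.RR Fermat.Agent.Deuring Fermat.Agent.FFGoodEll
  Fermat.Agent.FF.RedRat Fermat.Agent.FFGal

local notation "Kb" => AlgebraicClosure ℚ
local notation "GK" => (AlgebraicClosure ℚ ≃ₐ[ℚ] AlgebraicClosure ℚ)

variable {p : ℕ} {F Fk : Type} [Field F] [Algebra Kb F] {A₀ : ValuationSubring Kb} [Field Fk]
  [Algebra (IsLocalRing.ResidueField A₀) Fk]

/-- **Input D1**: rational orthonormal spanning families of Galois-stable subspaces. -/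
def HasRatOrtho (𝒮 : GeomSetup p F Fk A₀) : Prop :=
  ∀ W : Submodule Kb F, FiniteDimensional Kb W →
    (∀ σ : GK, ∀ f ∈ W, 𝒮.gal σ • f ∈ W) →
    ∃ (n : ℕ) (b : Fin n → F), Submodule.span Kb (Set.range b) = W ∧
      (∀ i (σ : GK), 𝒮.gal σ • b i = b i) ∧ (∀ i, b i ∈ 𝒮.S.Ov) ∧
      LinearIndependent (IsLocalRing.ResidueField A₀) (fun i => 𝒮.S.red (b i))

namespace GeomSetup

variable (𝒮 : GeomSetup p F Fk A₀)

/-- the property "fixed by Galois" -/
def IsFix (f : F) : Prop := ∀ σ : GK, 𝒮.gal σ • f = f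

theorem baseAut_gal (σ : GK) (c : Kb) : SemilinearAut.baseAut (𝒮.gal σ) c = σ c := by
  have h1 := 𝒮.gal_base σ c
  rw [SemilinearAut.smul_algebraMap] at h1
  exact (algebraMap Kb F).injective h1

theorem gal_smul_smul (σ : GK) (c : Kb) (f : F) :
    𝒮.gal σ • (c • f) = σ c • (𝒮.gal σ • f) := by
  rw [smul_smul_base, 𝒮.baseAut_gal]

theorem gal_single (σ : GK) (n : ℤ) :
    𝒮.gal σ • (Finsupp.single 𝒮.oo n : Divisor Kb F) = Finsupp.single 𝒮.oo n := by
  rw [SemilinearAut.smul_single, 𝒮.gal_oo]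

/-- `L(n • oo)` is Galois-stable. -/
theorem gal_mem_rr (σ : GK) (n : ℤ) {f : F}
    (hf : f ∈ riemannRochSpace (Finsupp.single 𝒮.oo n : Divisor Kb F)) :
    𝒮.gal σ • f ∈ riemannRochSpace (Finsupp.single 𝒮.oo n : Divisor Kb F) := by
  have h := (smul_mem_riemannRochSpace_iff (𝒮.gal σ) (Finsupp.single 𝒮.oo n) f).mpr hf
  rwa [𝒮.gal_single] at h

theorem isFix_mul {f f' : F} (hf : 𝒮.IsFix f) (hf' : 𝒮.IsFix f') : 𝒮.IsFix (f * f') := by
  intro σ
  rw [smul_mul', hf σ, hf' σ]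

/-- **coordinates** of a fixed integral element in a fixed orthonormal family are Galois-fixed
and integral over `ℤ_(p)`. -/
theorem geomCoeff (hp : p.Prime) {n : ℕ} {b : Fin n → F} (hb : IsOrtho 𝒮.S 𝒮.IsFix b)
    (c : Fin n → Kb) (hf : 𝒮.IsFix (∑ i, c i • b i)) (hfO : (∑ i, c i • b i) ∈ 𝒮.S.Ov) :
    ∀ i, (∀ σ : GK, σ (c i) = c i) ∧ IsIntegral (ratLocalizedAt p) (c i) := by
  have hliK := hb.linearIndependent
  have hcA := coeff_mem_of_sum_mem 𝒮.S b hb.int hb.li c hfO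
  intro i
  have hfixc : ∀ σ : GK, σ (c i) = c i := by
    intro σ
    have h1 := hf σ
    rw [Finset.smul_sum] at h1
    have h2 : ∑ j, (σ (c j) - c j) • b j = 0 := by
      simp_rw [sub_smul]
      rw [Finset.sum_sub_distrib, sub_eq_zero, ← h1]
      refine Finset.sum_congr rfl fun j _ => ?_
      rw [𝒮.gal_smul_smul, hb.prop j σ]
    exact sub_eq_zero.mp (Fintype.linearIndependent_iff.mp hliK _ h2 i)
  refine ⟨hfixc, ?_⟩
  apply pl_isIntegral_of_forall_conj hp A₀ 𝒮.hA₀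
  intro σ
  rw [hfixc σ, ← 𝒮.S_A]
  exact hcA i

/-- structure constants of a product of rational orthonormal families -/
theorem exists_structConst (hp : p.Prime) {n n' : ℕ} {b : Fin n → F} {b' : Fin n' → F}
    (hb : IsOrtho 𝒮.S 𝒮.IsFix b) (hb' : IsOrtho 𝒮.S 𝒮.IsFix b')
    (hmul : ∀ i j, b i * b j ∈ Submodule.span Kb (Set.range b')) :
    ∃ m : Fin n → Fin n → Fin n' → Kb, (∀ i j, b i * b j = ∑ k, m i j k • b' k) ∧
      (∀ i j k, IsIntegral (ratLocalizedAt p) (m i j k)) ∧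
      ∀ (σ : GK) i j k, σ (m i j k) = m i j k := by
  have h1 : ∀ i j, ∃ c : Fin n' → Kb, ∑ k, c k • b' k = b i * b j := fun i j =>
    (Submodule.mem_span_range_iff_exists_fun Kb).mp (hmul i j)
  choose m hm using h1
  have h2 : ∀ i j k, (∀ σ : GK, σ (m i j k) = m i j k) ∧
      IsIntegral (ratLocalizedAt p) (m i j k) := by
    intro i j
    apply 𝒮.geomCoeff hp hb' (m i j)
    · rw [hm]
      exact 𝒮.isFix_mul (hb.prop i) (hb.prop j)
    · rw [hm]
      exact mul_mem (hb.int i) (hb.int j)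
  exact ⟨m, fun i j => (hm i j).symm, fun i j k => (h2 i j k).2, fun σ i j k => (h2 i j k).1 σ⟩

/-- a rational orthonormal basis of `L(n • oo)` -/
theorem exists_isOrtho_rr (hD1 : HasRatOrtho 𝒮) (D : Divisor Kb F)
    (hD : ∀ σ : GK, ∀ f ∈ riemannRochSpace D, 𝒮.gal σ • f ∈ riemannRochSpace D) :
    ∃ (n : ℕ) (b : Fin n → F), IsOrtho 𝒮.S 𝒮.IsFix b ∧
      Submodule.span Kb (Set.range b) = riemannRochSpace D := by
  haveI := finite_riemannRochSpace 𝒮.hRR D
  obtain ⟨n, b, hspan, hfix, hint, hli⟩ := hD1 (riemannRochSpace D) inferInstance hD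
  exact ⟨n, b, ⟨hint, hli, hfix⟩, hspan⟩

end GeomSetup

/-- the non-pivot rows of the standard pivots `a ↦ g + a` are the first `g` rows -/
theorem image_compl_range_pivot {X : Type*} {n g r : ℕ} (hr : r + g = n) (hgn : g ≤ n)
    (b : Fin n → X) :
    b '' (Set.range fun a : Fin r => (⟨g + a, by omega⟩ : Fin n))ᶜ =
      Set.range fun j : Fin g => b (Fin.castLE hgn j) := by
  ext x
  constructor
  · rintro ⟨i, hi, rfl⟩
    have hlt : (i : ℕ) < g := by
      by_contra hcon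
      apply hi
      exact ⟨⟨i - g, by omega⟩, Fin.ext (by simp only; omega)⟩
    exact ⟨⟨i, hlt⟩, rfl⟩
  · rintro ⟨j, rfl⟩
    refine ⟨Fin.castLE hgn j, ?_, rfl⟩
    rintro ⟨a, ha⟩
    have := congrArg Fin.val ha
    simp only [Fin.val_castLE] at this
    omega

/-- **Seat D1: existence of `RatBases`.** -/
theorem exists_ratBases (hp : p.Prime) (𝒮 : GeomSetup p F Fk A₀) (hD1 : HasRatOrtho 𝒮)
    {g M₀ n₁ n₂ r₁ r₂ : ℕ} (hg : g = genusFF Kb F) (hM₀ : 2 * g ≤ M₀ + 1)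
    (hn₁ : n₁ + g = M₀ + 1) (hn₂ : n₂ + g = 2 * M₀ + 1) (hr₁ : r₁ + g = n₁)
    (hr₂ : r₂ + g = n₂) :
    ∃ n₄ : ℕ, Nonempty (RatBases 𝒮 M₀ n₁ n₂ n₄ r₁ r₂) := by
  have hRR := 𝒮.hRR
  have hT2 : (2 • 𝒮.T M₀ : Divisor Kb F) = Finsupp.single 𝒮.oo (2 * (M₀ : ℤ)) := by
    unfold GeomSetup.T
    rw [Finsupp.smul_single, nsmul_eq_mul]
    norm_num
  -- the three spaces
  obtain ⟨g₀, c₀, hc₀, hc₀span⟩ := 𝒮.exists_isOrtho_rr hD1 𝒮.chartDiv
    (fun σ f hf => 𝒮.gal_mem_rr σ _ hf)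
  obtain ⟨k₁, a₁, ha₁, ha₁span⟩ := 𝒮.exists_isOrtho_rr hD1 (𝒮.T M₀)
    (fun σ f hf => 𝒮.gal_mem_rr σ _ hf)
  obtain ⟨k₂, a₂, ha₂, ha₂span⟩ := 𝒮.exists_isOrtho_rr hD1 (2 • 𝒮.T M₀)
    (fun σ f hf => by
      rw [hT2] at hf ⊢
      exact 𝒮.gal_mem_rr σ _ hf)
  obtain ⟨n₄, b₄, hb₄, hb₄span⟩ := 𝒮.exists_isOrtho_rr hD1 (2 • 𝒮.T M₀ + 2 • 𝒮.T M₀)
    (fun σ f hf => by
      have e : (2 • 𝒮.T M₀ + 2 • 𝒮.T M₀ : Divisor Kb F) =
          Finsupp.single 𝒮.oo (2 * (M₀ : ℤ) + 2 * (M₀ : ℤ)) := by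
        rw [hT2, ← Finsupp.single_add]
      rw [e] at hf ⊢
      exact 𝒮.gal_mem_rr σ _ hf)
  -- dimensions
  have hdg : g₀ = g := by
    have h1 := ell_of_degree_gt hRR (D := 𝒮.chartDiv) (by
      unfold GeomSetup.chartDiv
      rw [degree_single_one hRR]
      omega)
    unfold GeomSetup.chartDiv at h1
    rw [degree_single_one hRR] at h1
    have h2 : ell (𝒮.chartDiv) = g₀ := by
      unfold ell
      rw [← hc₀span, hc₀.finrank_span]
    unfold GeomSetup.chartDiv at h2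
    rw [h2] at h1
    omega
  have hd1 : k₁ = n₁ := by
    have h1 := ell_of_degree_gt hRR (D := 𝒮.T M₀) (by
      unfold GeomSetup.T
      rw [degree_single_one hRR]
      omega)
    unfold GeomSetup.T at h1
    rw [degree_single_one hRR] at h1
    have h2 : ell (𝒮.T M₀) = k₁ := by
      unfold ell
      rw [← ha₁span, ha₁.finrank_span]
    unfold GeomSetup.T at h2
    rw [h2] at h1
    omega
  have hd2 : k₂ = n₂ := by
    have h1 := ell_of_degree_gt hRR (D := 2 • 𝒮.T M₀) (by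
      rw [hT2, degree_single_one hRR]
      omega)
    rw [hT2, degree_single_one hRR] at h1
    have h2 : ell (2 • 𝒮.T M₀) = k₂ := by
      unfold ell
      rw [← ha₂span, ha₂.finrank_span]
    rw [hT2] at h2
    rw [h2] at h1
    omega
  subst hdg hd1 hd2
  -- the chart is contained in `L(T)` and `L(2T)`
  have hle₁ : riemannRochSpace 𝒮.chartDiv ≤ riemannRochSpace (𝒮.T M₀) := by
    apply riemannRochSpace_mono
    unfold GeomSetup.chartDiv GeomSetup.T
    rw [Finsupp.single_le_single]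
    omega
  have hle₂ : riemannRochSpace 𝒮.chartDiv ≤ riemannRochSpace (2 • 𝒮.T M₀) := by
    apply riemannRochSpace_mono
    rw [hT2]
    unfold GeomSetup.chartDiv
    rw [Finsupp.single_le_single]
    omega
  have hc₀mem : ∀ i, c₀ i ∈ riemannRochSpace 𝒮.chartDiv := fun i => by
    rw [← hc₀span]
    exact Submodule.subset_span ⟨i, rfl⟩
  -- extension of the chart basis
  obtain ⟨hgn₁, b₁, hb₁, hb₁span, hb₁c⟩ := hc₀.exists_extension ha₁ (fun i => by
    rw [ha₁span]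
    exact hle₁ (hc₀mem i))
  obtain ⟨hgn₂, b₂, hb₂, hb₂span, hb₂c⟩ := hc₀.exists_extension ha₂ (fun i => by
    rw [ha₂span]
    exact hle₂ (hc₀mem i))
  rw [ha₁span] at hb₁span
  rw [ha₂span] at hb₂span
  -- structure constants
  obtain ⟨m₁, hm₁, hm₁int, hm₁fix⟩ := 𝒮.exists_structConst hp hb₁ hb₂ (fun i j => by
    rw [hb₂span, two_nsmul]
    apply Fermat.Agent.RRMult.mul_mem_riemannRochSpace
    · rw [← hb₁span]
      exact Submodule.subset_span ⟨i, rfl⟩
    · rw [← hb₁span]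
      exact Submodule.subset_span ⟨j, rfl⟩)
  obtain ⟨m₂, hm₂, hm₂int, hm₂fix⟩ := 𝒮.exists_structConst hp hb₂ hb₄ (fun i j => by
    rw [hb₄span]
    apply Fermat.Agent.RRMult.mul_mem_riemannRochSpace
    · rw [← hb₂span]
      exact Submodule.subset_span ⟨i, rfl⟩
    · rw [← hb₂span]
      exact Submodule.subset_span ⟨j, rfl⟩)
  have hrange : (Set.range fun j : Fin g₀ => c₀ j) = Set.range c₀ := rfl
  refine ⟨n₄, ⟨{
    b₁ := b₁
    b₂ := b₂
    b₄ := b₄
    li₁ := hb₁.linearIndependent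
    li₂ := hb₂.linearIndependent
    li₄ := hb₄.linearIndependent
    span₁ := hb₁span
    span₂ := hb₂span
    fix₁ := fun σ i => hb₁.prop i σ
    fix₂ := fun σ i => hb₂.prop i σ
    fix₄ := fun σ i => hb₄.prop i σ
    int₁ := hb₁.int
    int₂ := hb₂.int
    int₄ := hb₄.int
    red₁ := hb₁.li
    red₂ := hb₂.li
    red₄ := hb₄.li
    I₁ := fun a => ⟨g₀ + a, by omega⟩
    I₂ := fun a => ⟨g₀ + a, by omega⟩
    I₁_inj := fun a a' h => by
      have := congrArg Fin.val h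
      simp only at this
      exact Fin.ext (by omega)
    I₂_inj := fun a a' h => by
      have := congrArg Fin.val h
      simp only at this
      exact Fin.ext (by omega)
    chart₁ := by
      rw [image_compl_range_pivot hr₁ hgn₁ b₁, ← hc₀span]
      congr 2
      funext j
      exact hb₁c j
    chart₂ := by
      rw [image_compl_range_pivot hr₂ hgn₂ b₂, ← hc₀span]
      congr 2
      funext j
      exact hb₂c j
    m₁ := m₁
    m₂ := m₂
    hm₁ := hm₁
    hm₂ := hm₂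
    m₁_int := hm₁int
    m₂_int := hm₂int
    m₁_fix := hm₁fix
    m₂_fix := hm₂fix }⟩⟩

end Fermat.Agent.FF
end
end MergeWrap_Lib_FF_GeomBases
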